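import Fermat.Agent.FreyHeight.Final
import Fermat.Agent.TopWiring.Basic
import Fermat.Agent.S10
import Fermat.Agent.S11
import Fermat.Agent.S13

/-!
# Irreducibility of the mod `p` Frey representation, given Mazur's theorem

The small exponents and the cofixed-line exclusion give irreducibility for every Frey package.
-/

set_option autoImplicit false

namespace Fermat.Agent.FreyHeight

open WeierstrassCurve

/-- **The mod `p` Frey representation is irreducible**, given Mazur's key step. -/
theorem irreducible_of_mazurStep (hMazur : MazurStep) (P : FreyPackage) :
    Affine.Point.GaloisRepIsIrreducible (K := AlgebraicClosure ℚ) ℚ P.freyCurve P.p :=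
  TopWiring.irreducible_of_cofixed Fermat.Agent.S10.result Fermat.Agent.S11.result
    (no_cofixed_large_of_mazurStep hMazur) Fermat.Agent.S13.result P

end Fermat.Agent.FreyHeight
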