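import Fermat.Agent.FreyHeight.Height
import Fermat.Prelude.Def_FLTPrelim_CofixedLine

/-!
# Cofixed lines on the Frey curve: assembly

`MazurStep` is Mazur's key step: a rational point of prime order `p ∉ {2, 3, 5, 7, 13}` that avoids
the identity component at `2` and `3` (both multiplicative) avoids it at every multiplicative
prime `ℓ ≠ p`. Given it and an integral model of the quotient by a cofixed line
(`HasQuotientModel`), the Frey curve has no Galois-cofixed line in its `p`-torsion for `p ≥ 17`.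
-/

set_option autoImplicit false

namespace Fermat.Agent.FreyHeight

open WeierstrassCurve Fermat.Agent.ECReduction
open scoped WeierstrassCurve.Affine

local notation "Qb" => AlgebraicClosure ℚ

/-- Mazur's key step: a rational point of order `p` off the identity component at `2` and `3` is
off it at every multiplicative prime `ℓ ≠ p`. -/
def MazurStep : Prop :=
  ∀ {p : ℕ}, p.Prime → p ∉ ({2, 3, 5, 7, 13} : Finset ℕ) →
    ∀ (W : WeierstrassCurve ℤ), W.Δ ≠ 0 →
    ∀ (Q : ((W.map (Int.castRingHom ℚ))⁄(AlgebraicClosure ℚ)).Point),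
    (∀ σ : AlgebraicClosure ℚ ≃ₐ[ℚ] AlgebraicClosure ℚ, σ • Q = Q) →
    addOrderOf Q = p →
    (2 : ℤ) ∣ W.Δ → ¬ (2 : ℤ) ∣ W.c₄ →
    (∀ A : ValuationSubring (AlgebraicClosure ℚ), A.LiesOverPrime 2 → ¬ W.InZeroComponentAt A Q) →
    (3 : ℤ) ∣ W.Δ → ¬ (3 : ℤ) ∣ W.c₄ →
    (∀ A : ValuationSubring (AlgebraicClosure ℚ), A.LiesOverPrime 3 → ¬ W.InZeroComponentAt A Q) →
    ∀ {ℓ : ℕ}, ℓ.Prime → ℓ ≠ p → (ℓ : ℤ) ∣ W.Δ → ¬ (ℓ : ℤ) ∣ W.c₄ →
    ∀ (A : ValuationSubring (AlgebraicClosure ℚ)), A.LiesOverPrime ℓ → ¬ W.InZeroComponentAt A Q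

/-- What the integral model of the quotient by a cofixed line provides, for a point `R` off the
line: multiplicative reduction, and the component of the image of `R`. -/
def HasQuotientModel {P : FreyPackage} (L : CofixedLine P) : Prop :=
  ∀ R : (freyQbar P).Point, P.p • R = 0 → R ∉ L.C →
    ∃ (W : WeierstrassCurve ℤ) (Q : ((W.map (Int.castRingHom ℚ))⁄(AlgebraicClosure ℚ)).Point),
      W.Δ ≠ 0 ∧ (∀ σ : AlgebraicClosure ℚ ≃ₐ[ℚ] AlgebraicClosure ℚ, σ • Q = Q) ∧
      addOrderOf Q = P.p ∧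
      ∀ ℓ : ℕ, ℓ.Prime → ℓ ≠ P.p → (ℓ : ℤ) ∣ P.a * P.b * P.c →
      ∀ A : ValuationSubring (AlgebraicClosure ℚ), A.LiesOverPrime ℓ →
        ((L.C ≤ freyGood P A ∧
            ∀ S : (freyQbar P).Point, P.p • S = 0 → S ∉ L.C → S ∉ freyGood P A) →
          (ℓ : ℤ) ∣ W.Δ ∧ ¬ (ℓ : ℤ) ∣ W.c₄ ∧ ¬ W.InZeroComponentAt A Q) ∧
        ((¬ L.C ≤ freyGood P A ∧ R ∈ freyGood P A) →
          (ℓ : ℤ) ∣ W.Δ ∧ ¬ (ℓ : ℤ) ∣ W.c₄ ∧ W.InZeroComponentAt A Q)

/-- Cofixed lines in the sense of `CofixedLine` from the predicate of the statements. -/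
theorem exists_cofixedLine {P : FreyPackage}
    (h : Affine.Point.HasGaloisStableCofixedLine (K := AlgebraicClosure ℚ) ℚ P.freyCurve P.p) :
    Nonempty (CofixedLine P) := by
  have : Fact P.p.Prime := ⟨P.pp⟩
  rw [← FreyModel.map_freyCurveInt P] at h
  obtain ⟨N, -, hN0, hN1, hco⟩ := h
  have hfin := ECTorsion.finrank_torsionBy_rat (P.freyCurveInt.map (Int.castRingHom ℚ))
    (ECTorsion.Δ_map_intCast_ne_zero _ (FreyModel.freyCurveInt_Δ_ne_zero P)) P.p
  have := ECTorsion.finite_torsionBy_rat (P.freyCurveInt.map (Int.castRingHom ℚ))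
    (ECTorsion.Δ_map_intCast_ne_zero _ (FreyModel.freyCurveInt_Δ_ne_zero P)) P.hp0
  have h1 : Module.finrank (ZMod P.p) N = 1 := by
    have a := Submodule.finrank_lt hN1
    rw [hfin] at a
    have b : Module.finrank (ZMod P.p) N ≠ 0 := fun h0 => hN0 (Submodule.finrank_eq_zero.mp h0)
    omega
  have hcard : Nat.card N = P.p := by
    rw [Module.natCard_eq_pow_finrank (K := ZMod P.p) (V := N), h1, pow_one, Nat.card_zmod]
  refine ⟨⟨N.toAddSubgroup.map (Submodule.torsionBy ℤ (freyQbar P).Point P.p).toAddSubgroup.subtype,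
    ?_, ?_⟩⟩
  · refine Eq.trans ?_ hcard
    exact (Nat.card_congr (AddSubgroup.equivMapOfInjective _ _
      (AddSubgroup.subtype_injective _)).toEquiv).symm
  · intro σ S hS
    refine ⟨σ • (⟨S, ?_⟩ : Submodule.torsionBy ℤ (freyQbar P).Point P.p) - ⟨S, ?_⟩,
      hco σ _, rfl⟩ <;>
    · exact (Submodule.mem_torsionBy_iff _ _).mpr (by rw [natCast_zsmul]; exact hS)

/-- **No cofixed line**, given Mazur's key step and the quotient model. -/
theorem no_cofixedLine {P : FreyPackage} (hp : 17 ≤ P.p) (hMazur : MazurStep) (L : CofixedLine P)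
    (hquot : HasQuotientModel L) : False := by
  refine L.false_of_all_good (by omega) fun ℓ hℓ A hA => ?_
  by_cases hdvd : (ℓ : ℤ) ∣ P.a * P.b * P.c
  swap
  · exact fun S _ => exists_pointRed (curveRed P.freyCurveInt A)
      (redCurve_Δ_ne_zero _ hA hℓ fun hd => hdvd (FreyModel.dvd_abc_of_dvd_Δ P hℓ hd)) S
  by_cases hℓp : ℓ = P.p
  · subst hℓp
    exact L.le_freyGood_at_p hdvd hA
  by_contra hbad
  obtain ⟨N⟩ := exists_freyNode hℓ hdvd hA
  obtain ⟨R₀, hR₀p, hR₀⟩ := L.exists_not_mem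
  obtain ⟨R, hRp, hR, -, hRgood⟩ := L.exists_good_translate N hbad hR₀p hR₀
  obtain ⟨W, Q, hW, hfix, hord, hloc⟩ := hquot R hRp hR
  obtain ⟨hd, hc, hin⟩ := (hloc ℓ hℓ hℓp hdvd A hA).2 ⟨hbad, hRgood⟩
  have small : ∀ q : ℕ, (q = 2 ∨ q = 3) → (q : ℤ) ∣ W.Δ ∧ ¬ (q : ℤ) ∣ W.c₄ ∧
      ∀ B : ValuationSubring Qb, B.LiesOverPrime q → ¬ W.InZeroComponentAt B Q := by
    intro q h23
    have hq : q.Prime := by rcases h23 with rfl | rfl <;> norm_num
    have hqp : q ≠ P.p := by rcases h23 with rfl | rfl <;> omega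
    have hqd : (q : ℤ) ∣ P.a * P.b * P.c := by
      rcases h23 with rfl | rfl
      · exact_mod_cast P.two_dvd_abc
      · exact_mod_cast L.three_dvd (by omega)
    have key := fun (B : ValuationSubring Qb) (hB : B.LiesOverPrime q) =>
      (hloc q hq hqp hqd B hB).1 (L.small_prime_components (by omega) h23 hB)
    obtain ⟨B, -, hB, -⟩ := GaloisBasics.exists_place_isFrobeniusAt hq
    exact ⟨(key B hB).1, (key B hB).2.1, fun B hB => (key B hB).2.2⟩
  obtain ⟨h2Δ, h2c, h2⟩ := small 2 (Or.inl rfl)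
  obtain ⟨h3Δ, h3c, h3⟩ := small 3 (Or.inr rfl)
  refine hMazur P.pp ?_ W hW Q hfix hord (by exact_mod_cast h2Δ) (by exact_mod_cast h2c) h2
    (by exact_mod_cast h3Δ) (by exact_mod_cast h3c) h3 hℓ hℓp hd hc A hA hin
  simp only [Finset.mem_insert, Finset.mem_singleton]
  omega

/-- **No cofixed line for `p ≥ 17`**, given Mazur's key step and the quotient models. -/
theorem no_cofixed_of_mazurStep (hMazur : MazurStep)
    (hquot : ∀ (P : FreyPackage) (L : CofixedLine P), HasQuotientModel L)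
    (P : FreyPackage) (hp : 17 ≤ P.p) :
    ¬ Affine.Point.HasGaloisStableCofixedLine (K := AlgebraicClosure ℚ) ℚ P.freyCurve P.p :=
  fun h => (exists_cofixedLine h).elim fun L => no_cofixedLine hp hMazur L (hquot P L)

end Fermat.Agent.FreyHeight
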