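import Fermat.Agent.FreyHeight.Real
import Mathlib.Data.Nat.Factorization.Basic
import Mathlib.NumberTheory.Padics.PadicVal.Basic

/-!
# The height contradiction

The quotient of the Frey curve by a cofixed line in its `p`-torsion would have discriminant far
too large for its invariant `c₄`.
-/

set_option autoImplicit false

namespace Fermat.Agent.FreyHeight

open Finset

variable {e₁ e₂ e₃ : ℝ}

/-- Upper bound for the derivative of the cubic. -/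
lemma dcubic_le {C K x : ℝ} (h₁ : |e₁| ≤ C) (h₂ : |e₂| ≤ C) (h₃ : |e₃| ≤ C)
    (hx : |x| ≤ K * C) :
    dcubic e₁ e₂ e₃ x ≤ 3 * ((K + 1) * C) ^ 2 := by
  have b : ∀ e : ℝ, |e| ≤ C → |x - e| ≤ (K + 1) * C := fun e he => by
    have := abs_sub x e; linarith
  have p : ∀ u v : ℝ, |u| ≤ (K + 1) * C → |v| ≤ (K + 1) * C → u * v ≤ ((K + 1) * C) ^ 2 := by
    intro u v hu hv
    calc u * v ≤ |u * v| := le_abs_self _
      _ = |u| * |v| := abs_mul u v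
      _ ≤ ((K + 1) * C) * ((K + 1) * C) :=
        mul_le_mul hu hv (abs_nonneg _) (le_trans (abs_nonneg _) hu)
      _ = ((K + 1) * C) ^ 2 := (pow_two _).symm
  unfold dcubic
  have := p _ _ (b _ h₁) (b _ h₂)
  have := p _ _ (b _ h₂) (b _ h₃)
  have := p _ _ (b _ h₃) (b _ h₁)
  linarith

/-- `c₄` of `y² = (x - e₁)(x - e₂)(x - e₃)`. -/
def c4Roots (e₁ e₂ e₃ : ℝ) : ℝ :=
  16 * ((e₁ + e₂ + e₃) ^ 2 - 3 * (e₁ * e₂ + e₂ * e₃ + e₃ * e₁))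

lemma c4Roots_nonneg : 0 ≤ c4Roots e₁ e₂ e₃ := by
  unfold c4Roots
  nlinarith [sq_nonneg (e₁ - e₂), sq_nonneg (e₂ - e₃), sq_nonneg (e₃ - e₁)]

lemma c4Roots_le {C : ℝ} (h₁ : |e₁| ≤ C) (h₂ : |e₂| ≤ C) (h₃ : |e₃| ≤ C) :
    c4Roots e₁ e₂ e₃ ≤ 96 * C ^ 2 := by
  have b : ∀ a b : ℝ, |a| ≤ C → |b| ≤ C → (a - b) ^ 2 ≤ 4 * C ^ 2 := by
    intro a b ha hb
    have := abs_sub a b
    calc (a - b) ^ 2 = |a - b| ^ 2 := (sq_abs _).symm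
      _ ≤ (2 * C) ^ 2 := pow_le_pow_left₀ (abs_nonneg _) (by linarith) 2
      _ = 4 * C ^ 2 := by ring
  have e : c4Roots e₁ e₂ e₃ = 8 * ((e₁ - e₂) ^ 2 + (e₂ - e₃) ^ 2 + (e₃ - e₁) ^ 2) := by
    unfold c4Roots; ring
  have := b _ _ h₁ h₂
  have := b _ _ h₂ h₃
  have := b _ _ h₃ h₁
  linarith

/-- `c₄` of the quotient by a subgroup whose nonzero points have abscissae in `s` (one entry
for each pair `±S`) is bounded above in terms of the roots. -/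
lemma quotient_c4_bound {C : ℝ} (hC : 0 < C) (h₁ : |e₁| ≤ C) (h₂ : |e₂| ≤ C) (h₃ : |e₃| ≤ C)
    (s : Finset ℝ) (hs : ∀ x ∈ s, dblX e₁ e₂ e₃ x ∈ s)
    (hlt : ∀ x ∈ s, (x < e₁ ∧ x < e₂ ∧ x < e₃) ∨ (e₁ < x ∧ e₂ < x ∧ e₃ < x)) :
    0 ≤ c4Roots e₁ e₂ e₃ + 240 * ∑ x ∈ s, 2 * dcubic e₁ e₂ e₃ x ∧
    c4Roots e₁ e₂ e₃ + 240 * ∑ x ∈ s, 2 * dcubic e₁ e₂ e₃ x ≤
      2 * 10 ^ 9 * (s.card + 1) * 25 ^ s.card * C ^ 2 := by
  have hnn : 0 ≤ ∑ x ∈ s, 2 * dcubic e₁ e₂ e₃ x := Finset.sum_nonneg fun x hx => by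
    rcases hlt x hx with ⟨a, b, c⟩ | ⟨a, b, c⟩
    · have := dcubic_pos_of_lt a b c; linarith
    · have := dcubic_pos_of_gt a b c; linarith
  have hc := c4Roots_nonneg (e₁ := e₁) (e₂ := e₂) (e₃ := e₃)
  refine ⟨by linarith, ?_⟩
  have h5 : (1 : ℝ) ≤ 5 ^ s.card := one_le_pow₀ (by norm_num)
  have hb : ∀ x ∈ s, 2 * dcubic e₁ e₂ e₃ x ≤ 7 * 10 ^ 6 * 25 ^ s.card * C ^ 2 := by
    intro x hx
    have hK : |x| ≤ (1000 * 5 ^ s.card) * C := by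
      have := abs_lt_of_dblX_closed hC h₁ h₂ h₃ s hs hx; linarith
    have h := dcubic_le h₁ h₂ h₃ hK
    have hsq : (1000 * (5 : ℝ) ^ s.card + 1) ^ 2 ≤ (1001 * (5 : ℝ) ^ s.card) ^ 2 :=
      pow_le_pow_left₀ (by linarith) (by linarith) 2
    have h25 : (25 : ℝ) ^ s.card = (5 ^ s.card) ^ 2 := by
      rw [← pow_mul, mul_comm, pow_mul]; norm_num
    rw [h25]
    have hk : (0 : ℝ) ≤ (5 ^ s.card) ^ 2 := sq_nonneg _
    calc 2 * dcubic e₁ e₂ e₃ x ≤ 6 * ((1000 * 5 ^ s.card + 1) ^ 2 * C ^ 2) := by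
          rw [← mul_pow]; linarith
      _ ≤ 6 * ((1001 * 5 ^ s.card) ^ 2 * C ^ 2) := by gcongr
      _ ≤ _ := by
          rw [mul_pow]
          nlinarith [mul_nonneg hk (sq_nonneg C)]
  have hsum : ∑ x ∈ s, 2 * dcubic e₁ e₂ e₃ x ≤ s.card * (7 * 10 ^ 6 * 25 ^ s.card * C ^ 2) := by
    simpa [nsmul_eq_mul] using Finset.sum_le_card_nsmul s _ _ hb
  have h96 := c4Roots_le h₁ h₂ h₃
  have hpos : (0 : ℝ) ≤ 25 ^ s.card * C ^ 2 := by positivity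
  have hC2 : C ^ 2 ≤ 25 ^ s.card * C ^ 2 :=
    le_mul_of_one_le_left (sq_nonneg C) (one_le_pow₀ (by norm_num))
  have hm : (0 : ℝ) ≤ s.card * (25 ^ s.card * C ^ 2) := mul_nonneg (Nat.cast_nonneg _) hpos
  nlinarith

/-- The numerical heart: for `p ≥ 11` and `N ≥ 6` the two sides cannot meet. -/
lemma numeric {p : ℕ} (hp : 11 ≤ p) {N : ℝ} (hN : 6 ≤ N) :
    (2 * 10 ^ 9 * (p : ℝ) * 5 ^ p) ^ 3 * N ^ (6 * p) * 2 ^ (12 * p) <
      16 ^ p * N ^ (2 * p * p) := by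
  have hp2 : (p : ℝ) ≤ 2 ^ p := by exact_mod_cast (Nat.lt_two_pow_self).le
  have h1 : (2 * 10 ^ 9 : ℝ) ^ 3 ≤ 1000 ^ p := by
    calc (2 * 10 ^ 9 : ℝ) ^ 3 ≤ 1000 ^ 11 := by norm_num
      _ ≤ 1000 ^ p := pow_le_pow_right₀ (by norm_num) hp
  have h2 : (2 * 10 ^ 9 * (p : ℝ) * 5 ^ p) ^ 3 * 2 ^ (12 * p) ≤
      (1000 * 8 * 125 * 4096) ^ p := by
    calc (2 * 10 ^ 9 * (p : ℝ) * 5 ^ p) ^ 3 * 2 ^ (12 * p)
        = (2 * 10 ^ 9) ^ 3 * (p : ℝ) ^ 3 * (5 ^ p) ^ 3 * 2 ^ (12 * p) := by ring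
      _ ≤ 1000 ^ p * (2 ^ p) ^ 3 * (5 ^ p) ^ 3 * 2 ^ (12 * p) := by
          gcongr
      _ = _ := by
          rw [← pow_mul, ← pow_mul, mul_comm p 3, pow_mul 2 3, pow_mul 5 3, pow_mul 2 12,
            ← mul_pow, ← mul_pow, ← mul_pow]
          norm_num
  have h3 : ((1000 * 8 * 125 * 4096 : ℝ)) ^ p < (16 * 6 ^ 16) ^ p :=
    pow_lt_pow_left₀ (by norm_num) (by norm_num) (by omega)
  have h4 : ((16 : ℝ) * 6 ^ 16) ^ p * N ^ (6 * p) ≤ 16 ^ p * N ^ (2 * p * p) := by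
    rw [mul_pow, mul_assoc]
    refine mul_le_mul_of_nonneg_left ?_ (by positivity)
    calc ((6 : ℝ) ^ 16) ^ p * N ^ (6 * p) ≤ (N ^ 16) ^ p * N ^ (6 * p) := by gcongr
      _ = N ^ (22 * p) := by rw [← pow_mul, ← pow_add]; ring_nf
      _ ≤ N ^ (2 * p * p) :=
          pow_le_pow_right₀ (by linarith) (Nat.mul_le_mul_right p (by omega))
  have hN6 : (0 : ℝ) < N ^ (6 * p) := by positivity
  calc (2 * 10 ^ 9 * (p : ℝ) * 5 ^ p) ^ 3 * N ^ (6 * p) * 2 ^ (12 * p)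
      = ((2 * 10 ^ 9 * (p : ℝ) * 5 ^ p) ^ 3 * 2 ^ (12 * p)) * N ^ (6 * p) := by ring
    _ < (16 * 6 ^ 16) ^ p * N ^ (6 * p) :=
        mul_lt_mul_of_pos_right (lt_of_le_of_lt h2 h3) hN6
    _ ≤ _ := h4

/-- **Height contradiction.** The quotient of `y² = (x - e₁)(x - e₂)(x - e₃)` by a subgroup of
order `p`, whose abscissae `s` lie outside all roots, cannot have discriminant `Δ₁` as large as
`Δ₀ ^ p / 2 ^ (12 p)`, where `Δ₀ = 16 N ^ (2 p)` and all roots are bounded by `N ^ p`. -/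
theorem no_large_quotient_disc {p : ℕ} (hp : 11 ≤ p) {N : ℝ} (hN : 6 ≤ N)
    (h₁ : |e₁| ≤ N ^ p) (h₂ : |e₂| ≤ N ^ p) (h₃ : |e₃| ≤ N ^ p)
    (s : Finset ℝ) (hcard : 2 * s.card + 1 = p) (hs : ∀ x ∈ s, dblX e₁ e₂ e₃ x ∈ s)
    (hlt : ∀ x ∈ s, (x < e₁ ∧ x < e₂ ∧ x < e₃) ∨ (e₁ < x ∧ e₂ < x ∧ e₃ < x)) {Δ₁ : ℝ}
    (hΔ : 1728 * Δ₁ ≤ (c4Roots e₁ e₂ e₃ + 240 * ∑ x ∈ s, 2 * dcubic e₁ e₂ e₃ x) ^ 3)
    (hbig : (16 * N ^ (2 * p)) ^ p ≤ Δ₁ * 2 ^ (12 * p)) :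
    False := by
  have hNp : 0 < N ^ p := by positivity
  obtain ⟨hnn, hb⟩ := quotient_c4_bound hNp h₁ h₂ h₃ s hs hlt
  have h25 : (25 : ℝ) ^ s.card ≤ 5 ^ p := by
    calc (25 : ℝ) ^ s.card = 5 ^ (2 * s.card) := by rw [pow_mul]; norm_num
      _ ≤ 5 ^ p := pow_le_pow_right₀ (by norm_num) (by omega)
  have hsp : (s.card : ℝ) + 1 ≤ p := by exact_mod_cast (show s.card + 1 ≤ p by omega)
  have hc : c4Roots e₁ e₂ e₃ + 240 * ∑ x ∈ s, 2 * dcubic e₁ e₂ e₃ x ≤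
      2 * 10 ^ 9 * p * 5 ^ p * (N ^ p) ^ 2 := hb.trans (by gcongr)
  have hcube := pow_le_pow_left₀ hnn hc 3
  have e1 : (2 * 10 ^ 9 * (p : ℝ) * 5 ^ p * (N ^ p) ^ 2) ^ 3 =
      (2 * 10 ^ 9 * (p : ℝ) * 5 ^ p) ^ 3 * N ^ (6 * p) := by
    rw [mul_pow, ← pow_mul, ← pow_mul]; ring_nf
  rw [e1] at hcube
  have h12 : (0 : ℝ) < 2 ^ (12 * p) := by positivity
  have hnum := numeric hp hN
  have hbig' : (16 : ℝ) ^ p * N ^ (2 * p * p) ≤ Δ₁ * 2 ^ (12 * p) := by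
    rwa [mul_pow, ← pow_mul] at hbig
  have hpos : (0 : ℝ) < Δ₁ := by
    refine pos_of_mul_pos_left (lt_of_lt_of_le (by positivity) hbig') h12.le
  have hle : Δ₁ ≤ 1728 * Δ₁ := by linarith
  have : Δ₁ * 2 ^ (12 * p) ≤ (2 * 10 ^ 9 * (p : ℝ) * 5 ^ p) ^ 3 * N ^ (6 * p) * 2 ^ (12 * p) :=
    mul_le_mul_of_nonneg_right (by linarith) h12.le
  linarith

/-- A nonzero rational whose valuations are `≤ 0` at odd primes and `≤ k` at `2` is at most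
`2 ^ k` in absolute value. -/
lemma abs_le_two_pow_of_padicValRat {r : ℚ} {k : ℕ} (h2 : padicValRat 2 r ≤ k)
    (hodd : ∀ q : ℕ, q.Prime → q ≠ 2 → padicValRat q r ≤ 0) : |r| ≤ 2 ^ k := by
  rcases eq_or_ne r 0 with rfl | hr
  · simp
  have hn : r.num.natAbs ≠ 0 := by simpa using hr
  have hdvd : r.num.natAbs ∣ 2 ^ k := by
    rw [← Nat.factorization_le_iff_dvd hn (by positivity)]
    intro q
    by_cases hq : q.Prime
    · have := Fact.mk hq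
      rw [Nat.factorization_def _ hq, Nat.factorization_def _ hq]
      rcases eq_or_ne (padicValNat q r.num.natAbs) 0 with h0 | h0
      · simp [h0]
      have hqn : q ∣ r.num.natAbs := dvd_of_one_le_padicValNat (by omega)
      have hden : padicValNat q r.den = 0 := padicValNat.eq_zero_of_not_dvd fun h =>
        hq.ne_one (Nat.eq_one_of_dvd_coprimes r.reduced hqn h)
      have hval : padicValRat q r = padicValNat q r.num.natAbs := by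
        simp [padicValRat, padicValInt, hden]
      rcases eq_or_ne q 2 with rfl | hne
      · rw [padicValNat.prime_pow]; omega
      · have := hodd q hq hne; omega
    · simp [Nat.factorization_eq_zero_of_not_prime _ hq]
  have hle := Nat.le_of_dvd (by positivity) hdvd
  have h1 : |r| ≤ |(r.num : ℚ)| := by
    conv_lhs => rw [← Rat.num_div_den r]
    rw [abs_div, Nat.abs_cast]
    exact div_le_self (abs_nonneg _) (by exact_mod_cast r.pos)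
  refine h1.trans ?_

  calc |(r.num : ℚ)| = (r.num.natAbs : ℚ) := by rw [Nat.cast_natAbs, Int.cast_abs]
    _ ≤ (2 ^ k : ℕ) := by exact_mod_cast hle
    _ = 2 ^ k := by push_cast; rfl

end Fermat.Agent.FreyHeight
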