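import Fermat.Agent.FreyHeight.SmallPrimes
import Fermat.Agent.ECTorsion.Galois
import Fermat.Agent.GaloisBasics.Galois

/-!
# Cofixed lines in the `p`-torsion of the Frey curve

Elementary properties of a line with trivial Galois action on the quotient, and its local
behaviour at `2` and `3`.
-/

set_option autoImplicit false

namespace Fermat.Agent.FreyHeight

open WeierstrassCurve Fermat.Agent.ECReduction
open scoped WeierstrassCurve.Affine

local notation "Qb" => AlgebraicClosure ℚ
local notation "GQ" => AlgebraicClosure ℚ ≃ₐ[ℚ] AlgebraicClosure ℚ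

/-- A subgroup of order `p` with Galois acting trivially on the quotient of the `p`-torsion. -/
structure CofixedLine (P : FreyPackage) where
  C : AddSubgroup (freyQbar P).Point
  card_C : Nat.card C = P.p
  cofixed : ∀ (σ : AlgebraicClosure ℚ ≃ₐ[ℚ] AlgebraicClosure ℚ) (S : (freyQbar P).Point),
    P.p • S = 0 → σ • S - S ∈ C

variable {P : FreyPackage} (L : CofixedLine P)

namespace CofixedLine

/-- The line is killed by `p`. -/
lemma nsmul_eq_zero {S : (freyQbar P).Point} (hS : S ∈ L.C) : P.p • S = 0 := by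
  have h : Nat.card L.C • (⟨S, hS⟩ : L.C) = 0 := card_nsmul_eq_zero'
  rw [L.card_C] at h
  exact congrArg Subtype.val h

/-- The line is Galois stable. -/
lemma smul_mem (σ : GQ) {S : (freyQbar P).Point} (hS : S ∈ L.C) : σ • S ∈ L.C := by
  have := L.C.add_mem (L.cofixed σ S (L.nsmul_eq_zero hS)) hS
  rwa [sub_add_cancel] at this

/-- The line is generated by any of its nonzero elements. -/
lemma exists_zsmul_eq {S T : (freyQbar P).Point} (hS : S ∈ L.C) (hS0 : S ≠ 0) (hT : T ∈ L.C) :
    ∃ k : ℤ, k • S = T := by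
  have := Fact.mk P.pp
  have h := mem_zmultiples_of_prime_card (G := L.C) L.card_C (g := ⟨S, hS⟩) (g' := ⟨T, hT⟩)
    (fun h => hS0 (congrArg Subtype.val h))
  obtain ⟨k, hk⟩ := AddSubgroup.mem_zmultiples_iff.mp h
  exact ⟨k, congrArg Subtype.val hk⟩

/-- The `p`-torsion points. -/
def tors (P : FreyPackage) : Set (freyQbar P).Point := {S | P.p • S = 0}

lemma card_tors (P : FreyPackage) : Nat.card (tors P) = P.p ^ 2 := by
  rw [← ECTorsion.card_torsionBy_int P.freyCurveInt (FreyModel.freyCurveInt_Δ_ne_zero P) P.hp0]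
  refine Nat.card_congr (Equiv.subtypeEquivRight fun S => ?_)
  rw [Submodule.mem_torsionBy_iff, natCast_zsmul]
  exact Iff.rfl

/-- The `p`-torsion is finite. -/
lemma finite_tors (P : FreyPackage) : Finite (tors P) :=
  Nat.finite_of_card_ne_zero (by rw [card_tors]; exact pow_ne_zero 2 P.hp0)

/-- Some `p`-torsion point lies outside the line. -/
lemma exists_not_mem : ∃ R : (freyQbar P).Point, P.p • R = 0 ∧ R ∉ L.C := by
  by_contra h
  push Not at h
  have : Finite L.C := Nat.finite_of_card_ne_zero (by rw [L.card_C]; exact P.hp0)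
  have := Nat.card_le_card_of_injective (fun S : tors P => (⟨S.1, h S.1 S.2⟩ : L.C))
    (fun a b hab => Subtype.ext (by simpa using hab))
  rw [card_tors, L.card_C] at this
  have := P.hp5
  nlinarith

include L in
/-- Every Galois element fixes a nonzero `p`-torsion point. -/
lemma exists_fixed (σ : GQ) : ∃ S : (freyQbar P).Point, S ≠ 0 ∧ P.p • S = 0 ∧ σ • S = S := by
  by_contra h
  push Not at h
  have : Finite L.C := Nat.finite_of_card_ne_zero (by rw [L.card_C]; exact P.hp0)
  have := Nat.card_le_card_of_injective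
    (fun S : tors P => (⟨σ • S.1 - S.1, L.cofixed σ S.1 S.2⟩ : L.C)) (fun a b hab => by
      have e : σ • a.1 - a.1 = σ • b.1 - b.1 := congrArg Subtype.val hab
      refine Subtype.ext (sub_eq_zero.mp (by_contra fun hne => h (a.1 - b.1) hne ?_ ?_))
      · rw [nsmul_sub, show P.p • a.1 = 0 from a.2, show P.p • b.1 = 0 from b.2, sub_zero]
      · rw [gal_sub, sub_eq_sub_iff_sub_eq_sub.mp e])
  rw [card_tors, L.card_C] at this
  have := P.hp5
  nlinarith

variable {A : ValuationSubring (AlgebraicClosure ℚ)}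

/-- A line not contained in the identity component meets it trivially. -/
lemma eq_zero_of_mem_good (hbad : ¬ L.C ≤ freyGood P A) {S : (freyQbar P).Point} (hS : S ∈ L.C)
    (hgood : S ∈ freyGood P A) : S = 0 := by
  by_contra h0
  refine hbad fun T hT => ?_
  obtain ⟨k, rfl⟩ := L.exists_zsmul_eq hS h0 hT
  exact zsmul_mem hgood k

/-- If the line is singular at a node, every coset has a point in the identity component. -/
lemma exists_good_translate (N : FreyNode P A) (hbad : ¬ L.C ≤ freyGood P A)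
    {R : (freyQbar P).Point} (hRp : P.p • R = 0) (hR : R ∉ L.C) :
    ∃ R' : (freyQbar P).Point, P.p • R' = 0 ∧ R' ∉ L.C ∧ R' - R ∈ L.C ∧ R' ∈ freyGood P A := by
  obtain ⟨S, hS, hSbad⟩ := SetLike.not_le_iff_exists.mp hbad
  have hS0 : S ≠ 0 := fun h => hSbad (h ▸ zero_mem _)
  obtain ⟨k, hk⟩ := N.exists_good_translate hS0 (L.nsmul_eq_zero hS) hSbad hRp
    fun k h => hR (h ▸ zsmul_mem hS k)
  refine ⟨R + k • S, ?_, fun h => hR ?_, ?_, hk⟩
  · rw [nsmul_add, hRp, smul_comm, L.nsmul_eq_zero hS, zsmul_zero, add_zero]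
  · simpa using sub_mem h (zsmul_mem hS k)
  · rw [add_sub_cancel_left]; exact zsmul_mem hS k

/-- A decomposition element fixes every good point when the line is singular. -/
lemma smul_eq_of_bad (N : FreyNode P A) (hbad : ¬ L.C ≤ freyGood P A) {σ : GQ}
    (hσ : σ ∈ A.decompositionSubgroup ℚ) {R : (freyQbar P).Point} (hRp : P.p • R = 0)
    (hRgood : R ∈ freyGood P A) : σ • R = R :=
  sub_eq_zero.mp (L.eq_zero_of_mem_good hbad (L.cofixed σ R hRp)
    (sub_mem (smul_mem_freyGood N hσ hRgood) hRgood))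

/-- A subgroup containing the line and one more `p`-torsion point contains all the `p`-torsion. -/
lemma tors_subset_of_mem {G₀ : AddSubgroup (freyQbar P).Point} (hle : L.C ≤ G₀)
    {R S : (freyQbar P).Point} (hRp : P.p • R = 0) (hR : R ∉ L.C) (hRG : R ∈ G₀)
    (hSp : P.p • S = 0) : S ∈ G₀ := by
  set T : AddSubgroup (freyQbar P).Point := (nsmulAddMonoidHom P.p).ker with hT
  have hcardT : Nat.card T = P.p ^ 2 := by
    rw [← card_tors P]
    exact Nat.card_congr (Equiv.subtypeEquivRight fun X => by simp [hT, tors])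
  have : Finite T := Nat.finite_of_card_ne_zero (by rw [hcardT]; exact pow_ne_zero 2 P.hp0)
  have : Finite (G₀ ⊓ T : AddSubgroup (freyQbar P).Point) :=
    Finite.of_injective _ (AddSubgroup.inclusion_injective (inf_le_right : G₀ ⊓ T ≤ T))
  have hCle : L.C ≤ G₀ ⊓ T := le_inf hle fun X hX => by
    simp [hT, L.nsmul_eq_zero hX]
  have hlt : P.p < Nat.card (G₀ ⊓ T : AddSubgroup (freyQbar P).Point) := by
    rw [← L.card_C]
    refine lt_of_le_of_ne (AddSubgroup.card_le_of_le hCle) fun he => hR ?_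
    rw [AddSubgroup.eq_of_le_of_card_ge hCle he.ge]
    exact AddSubgroup.mem_inf.mpr ⟨hRG, by simp [hT, hRp]⟩
  have hdvd := AddSubgroup.card_dvd_of_le (inf_le_right : G₀ ⊓ T ≤ T)
  rw [hcardT] at hdvd
  obtain ⟨i, hi, he⟩ := (Nat.dvd_prime_pow P.pp).mp hdvd
  have hi2 : i = 2 := by
    interval_cases i
    · rw [he, pow_zero] at hlt; have := P.pp.one_lt; omega
    · rw [he, pow_one] at hlt; omega
    · rfl
  have hall : G₀ ⊓ T = T := AddSubgroup.eq_of_le_of_card_ge inf_le_right (by rw [he, hi2, hcardT])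
  exact (AddSubgroup.mem_inf.mp (hall.ge (show S ∈ T by simp [hT, hSp]))).1

lemma small_of_two_or_three {q : ℕ} (hp : 11 ≤ P.p) (h : q = 2 ∨ q = 3) : q * q + 1 < P.p := by
  rcases h with rfl | rfl <;> omega

include L in
/-- The Frey curve with a cofixed line has bad reduction at `3`. -/
theorem three_dvd (hp : 11 ≤ P.p) : (3 : ℤ) ∣ P.a * P.b * P.c := by
  by_contra h
  have hq : Nat.Prime 3 := Nat.prime_three
  obtain ⟨A, σ, hA, hσ⟩ := GaloisBasics.exists_place_isFrobeniusAt hq
  obtain ⟨S, hS, hSp, hfix⟩ := L.exists_fixed σ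
  refine not_mem_freyGood_of_small hq hA (small_of_two_or_three hp (Or.inr rfl)) hσ hS hSp hfix ?_
  exact exists_pointRed (curveRed P.freyCurveInt A)
    (redCurve_Δ_ne_zero _ hA hq fun hd => h (FreyModel.dvd_abc_of_dvd_Δ P hq hd)) S

/-- At `2` and `3` the line is in the identity component and the rest of the torsion is not. -/
theorem small_prime_components (hp : 11 ≤ P.p) {q : ℕ} (h23 : q = 2 ∨ q = 3)
    (hA : A.LiesOverPrime q) :
    L.C ≤ freyGood P A ∧ ∀ R : (freyQbar P).Point, P.p • R = 0 → R ∉ L.C → R ∉ freyGood P A := by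
  have hq : q.Prime := by rcases h23 with rfl | rfl <;> norm_num
  have hdvd : (q : ℤ) ∣ P.a * P.b * P.c := by
    rcases h23 with rfl | rfl
    · exact_mod_cast P.two_dvd_abc
    · exact_mod_cast L.three_dvd hp
  obtain ⟨N⟩ := exists_freyNode hq hdvd hA
  obtain ⟨σ, hσ⟩ := GaloisBasics.exists_isFrobeniusAt hA hq
  have nofix : ∀ S : (freyQbar P).Point, S ≠ 0 → P.p • S = 0 → σ • S = S → S ∉ freyGood P A :=
    fun S hS hSp hfix => not_mem_freyGood_of_small hq hA
        (small_of_two_or_three hp h23) hσ hS hSp hfix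
  have hle : L.C ≤ freyGood P A := by
    by_contra hbad
    obtain ⟨R, hRp, hR⟩ := L.exists_not_mem
    obtain ⟨R', hp', hR', -, hgood⟩ := L.exists_good_translate N hbad hRp hR
    exact nofix R' (fun h => hR' (h ▸ zero_mem _)) hp'
      (L.smul_eq_of_bad N hbad hσ.mem_decompositionSubgroup hp' hgood) hgood
  refine ⟨hle, fun R hRp hR hgood => ?_⟩
  obtain ⟨S, hS0, hSp, hfix⟩ := L.exists_fixed σ
  exact nofix S hS0 hSp hfix (L.tors_subset_of_mem hle hRp hR hgood hSp)

end CofixedLine

end Fermat.Agent.FreyHeight
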