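import Mathlib.Algebra.Polynomial.Roots
import Mathlib.Algebra.Polynomial.FieldDivision
import Mathlib.Tactic.FieldSimp
import Mathlib.Tactic.LinearCombination
import Mathlib.Tactic.FinCases

/-!
# The discriminant of a Vélu quotient

The discriminant of the quotient of `y² = (x - e₁)(x - e₂)(x - e₃)` by a subgroup of odd order,
computed from the images of the three points of order `2`.
-/

set_option autoImplicit false

namespace Fermat.Agent.FreyHeight

open Polynomial Finset

variable {K : Type*} [Field K]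

/-- The numerator attached to a pair `±S` (abscissa `x`): `f'(x)` term. -/
def veluV (e : Fin 3 → K) (x : K) : K :=
  2 * ((x - e 0) * (x - e 1) + (x - e 1) * (x - e 2) + (x - e 2) * (x - e 0))

/-- The numerator attached to a pair `±S` (abscissa `x`): `4 f(x)` term. -/
def veluU (e : Fin 3 → K) (x : K) : K := 4 * ((x - e 0) * (x - e 1) * (x - e 2))

/-- The abscissa of the quotient map, as a function of the abscissa. -/
def veluX (e : Fin 3 → K) (s : Finset K) (X : K) : K :=
  X + ∑ x ∈ s, (veluV e x / (X - x) + veluU e x / (X - x) ^ 2)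

/-- The derivative of `veluX`. -/
def veluDX (e : Fin 3 → K) (s : Finset K) (X : K) : K :=
  1 - ∑ x ∈ s, (veluV e x / (X - x) ^ 2 + 2 * veluU e x / (X - x) ^ 3)

/-- Abscissa of the translate by the `i`-th point of order `2`. -/
def transX (e : Fin 3 → K) (i : Fin 3) (x : K) : K :=
  e i + (e i - e (i + 1)) * (e i - e (i + 2)) / (x - e i)

variable (e : Fin 3 → K) (s : Finset K)

variable [DecidableEq K]

omit [DecidableEq K] in
/-- Denominator of `veluX`. -/
noncomputable def veluDen : K[X] := ∏ x ∈ s, (X - C x)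

/-- Numerator of `veluX - d`. -/
noncomputable def veluNum (d : K) : K[X] :=
  (X - C d) * veluDen s ^ 2 +
    ∑ x ∈ s, (C (veluV e x) * (X - C x) + C (veluU e x)) * veluDen (s.erase x) ^ 2

/-- Numerator of `veluDX`. -/
noncomputable def veluDNum : K[X] :=
  veluDen s ^ 3 -
    ∑ x ∈ s, (C (veluV e x) * (X - C x) + C (2 * veluU e x)) * veluDen (s.erase x) ^ 3

omit [DecidableEq K] in
lemma veluDen_eval (t : Finset K) (r : K) : (veluDen t).eval r = ∏ x ∈ t, (r - x) := by
  simp [veluDen, eval_prod]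

omit [DecidableEq K] in
lemma veluDen_eval_ne_zero {t : Finset K} {r : K} (hr : r ∉ t) : (veluDen t).eval r ≠ 0 := by
  rw [veluDen_eval, prod_ne_zero_iff]
  exact fun x hx => sub_ne_zero.2 fun h => hr (h ▸ hx)

lemma veluDen_eval_erase {x r : K} (hx : x ∈ s) :
    (veluDen s).eval r = (r - x) * (veluDen (s.erase x)).eval r := by
  rw [veluDen_eval, veluDen_eval, mul_prod_erase _ (fun y => r - y) hx]

lemma veluNum_eval (d : K) {r : K} (hr : r ∉ s) :
    (veluNum e s d).eval r = (veluDen s).eval r ^ 2 * (veluX e s r - d) := by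
  have key : ∀ x ∈ s, (veluV e x * (r - x) + veluU e x) * (veluDen (s.erase x)).eval r ^ 2 =
      (veluDen s).eval r ^ 2 * (veluV e x / (r - x) + veluU e x / (r - x) ^ 2) := by
    intro x hx
    have : r - x ≠ 0 := sub_ne_zero.2 fun h => hr (h ▸ hx)
    rw [veluDen_eval_erase s hx]
    field_simp
  simp only [veluNum, veluX, eval_add, eval_mul, eval_sub, eval_X, eval_C, eval_pow,
    eval_finsetSum]
  rw [Finset.sum_congr rfl key, ← Finset.mul_sum]
  ring

lemma veluDNum_eval {r : K} (hr : r ∉ s) :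
    (veluDNum e s).eval r = (veluDen s).eval r ^ 3 * veluDX e s r := by
  have key : ∀ x ∈ s, (veluV e x * (r - x) + 2 * veluU e x) *
      (veluDen (s.erase x)).eval r ^ 3 =
      (veluDen s).eval r ^ 3 * (veluV e x / (r - x) ^ 2 + 2 * veluU e x / (r - x) ^ 3) := by
    intro x hx
    have : r - x ≠ 0 := sub_ne_zero.2 fun h => hr (h ▸ hx)
    rw [veluDen_eval_erase s hx]
    field_simp
  simp only [veluDNum, veluDX, eval_add, eval_mul, eval_sub, eval_X, eval_C, eval_pow,
    eval_finsetSum]
  rw [Finset.sum_congr rfl key, ← Finset.mul_sum]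
  ring

omit [DecidableEq K] in
lemma veluDen_monic (t : Finset K) : (veluDen t).Monic := monic_prod_X_sub_C _ _

omit [DecidableEq K] in
lemma veluDen_natDegree (t : Finset K) : (veluDen t).natDegree = t.card :=
  natDegree_finsetProd_X_sub_C_eq_card t id

lemma veluNum_monic (d : K) :
    (veluNum e s d).Monic ∧ (veluNum e s d).natDegree = 2 * s.card + 1 := by
  have h1 : ((X - C d) * veluDen s ^ 2).natDegree = 2 * s.card + 1 := by
    rw [(monic_X_sub_C d).natDegree_mul ((veluDen_monic s).pow 2),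
      (veluDen_monic s).natDegree_pow, veluDen_natDegree, natDegree_X_sub_C]
    ring
  have h2 : (∑ x ∈ s, (C (veluV e x) * (X - C x) + C (veluU e x)) *
      veluDen (s.erase x) ^ 2).natDegree < 2 * s.card + 1 := by
    refine Nat.lt_succ_of_le (natDegree_sum_le_of_forall_le _ _ fun x hx => ?_)
    have hl : (C (veluV e x) * (X - C x) + C (veluU e x)).natDegree ≤ 1 := by compute_degree!
    refine natDegree_mul_le.trans ?_
    rw [(veluDen_monic _).natDegree_pow, veluDen_natDegree, card_erase_of_mem hx]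
    have := Finset.card_pos.2 ⟨x, hx⟩
    omega
  have hm : ((X - C d) * veluDen s ^ 2).Monic := (monic_X_sub_C d).mul ((veluDen_monic s).pow 2)
  constructor
  · refine hm.add_of_left (degree_lt_degree ?_)
    rw [h1]; exact h2
  · rw [veluNum, natDegree_add_eq_left_of_natDegree_lt (by rw [h1]; exact h2), h1]

lemma fin3_ne (i : Fin 3) : i + 1 ≠ i ∧ i + 2 ≠ i := by decide +revert

lemma fin3_cases (i k : Fin 3) : k = i ∨ k = i + 1 ∨ k = i + 2 := by decide +revert

/-- The factorisation of `veluX - e'ᵢ` and its value at the other roots. -/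
theorem veluX_root_diff [Infinite K] (he : Function.Injective e) (hes : ∀ i, e i ∉ s)
    (e' : Fin 3 → K) (he' : Function.Injective e') (hroot : ∀ i, veluX e s (e i) = e' i)
    (htrans : ∀ i, ∀ x ∈ s, transX e i x ∉ s ∧ veluX e s (transX e i x) = e' i)
    (hcurve : ∀ r, r ∉ s → (r - e 0) * (r - e 1) * (r - e 2) * veluDX e s r ^ 2 =
      (veluX e s r - e' 0) * (veluX e s r - e' 1) * (veluX e s r - e' 2))
    (i j : Fin 3) :
    (∏ x ∈ s, (e j - x)) ^ 2 * (e' j - e' i) =
      (e j - e i) * ∏ x ∈ s, (e j - transX e i x) ^ 2 := by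
  set f : K[X] := ∏ k, (X - C (e k)) with hf
  have hid : (∏ k, veluNum e s (e' k)) = f * veluDNum e s ^ 2 := by
    refine eq_of_infinite_eval_eq _ _ ((Set.Finite.infinite_compl s.finite_toSet).mono ?_)
    intro r (hr : r ∉ s)
    show eval r _ = eval r _
    simp only [eval_mul, eval_pow, hf, Fin.prod_univ_three, eval_sub, eval_X, eval_C,
      veluNum_eval e s _ hr, veluDNum_eval e s hr]
    have := hcurve r hr
    linear_combination (-(veluDen s).eval r ^ 6) * this
  have hne : ∀ k, veluNum e s (e' k) ≠ 0 := fun k => (veluNum_monic e s _).1.ne_zero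
  have hdn : veluDNum e s ≠ 0 := by
    intro h
    rw [h] at hid
    exact (Finset.prod_ne_zero_iff.2 fun k _ => hne k) (by simpa using hid)
  have hroot_i : (veluNum e s (e' i)).IsRoot (e i) := by
    rw [IsRoot, veluNum_eval e s _ (hes i), hroot i]; ring
  -- a translate is never a root of the cubic
  have hnr : ∀ x ∈ s, ∀ k, transX e i x ≠ e k := by
    intro x hx k hk
    have hxi : x - e i ≠ 0 := sub_ne_zero.2 fun h => hes i (h ▸ hx)
    have h12 : e i - e (i + 1) ≠ 0 := sub_ne_zero.2 fun h =>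
      (fin3_ne i).1 (he h).symm
    have h13 : e i - e (i + 2) ≠ 0 := sub_ne_zero.2 fun h => (fin3_ne i).2 (he h).symm
    have hk' := fin3_cases i k
    have h := hk
    rw [transX] at h
    field_simp at h
    rcases hk' with rfl | rfl | rfl
    · exact mul_ne_zero h12 h13 (by linear_combination h)
    · refine hes (i + 2) ((?_ : x = e (i + 2)) ▸ hx)
      exact sub_eq_zero.1 ((mul_eq_zero.1
        (show (e i - e (i + 1)) * (x - e (i + 2)) = 0 by linear_combination h)).resolve_left h12)
    · refine hes (i + 1) ((?_ : x = e (i + 1)) ▸ hx)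
      exact sub_eq_zero.1 ((mul_eq_zero.1
        (show (e i - e (i + 2)) * (x - e (i + 1)) = 0 by linear_combination h)).resolve_left h13)
  have hmult : ∀ x ∈ s, (X - C (transX e i x)) ^ 2 ∣ veluNum e s (e' i) := by
    intro x hx
    obtain ⟨hrs, hr⟩ := htrans i x hx
    set r := transX e i x
    have hri : (veluNum e s (e' i)).IsRoot r := by
      rw [IsRoot, veluNum_eval e s _ hrs, hr]; ring
    have hother : ∀ k, k ≠ i → ¬ (veluNum e s (e' k)).IsRoot r := by
      intro k hk
      rw [IsRoot, veluNum_eval e s _ hrs, hr]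
      exact mul_ne_zero (pow_ne_zero _ (veluDen_eval_ne_zero hrs))
        (sub_ne_zero.2 fun h => hk (he' h).symm)
    have hf0 : ¬ f.IsRoot r := by
      rw [IsRoot, hf, eval_prod, prod_eq_zero_iff]
      rintro ⟨k, -, hk⟩
      exact hnr x hx k (sub_eq_zero.1 (by simpa using hk))
    have hmul := congrArg (rootMultiplicity r) hid
    rw [Fin.prod_univ_three, rootMultiplicity_mul (mul_ne_zero (mul_ne_zero (hne 0) (hne 1))
      (hne 2)), rootMultiplicity_mul (mul_ne_zero (hne 0) (hne 1)),
      rootMultiplicity_mul (mul_ne_zero (monic_prod_X_sub_C _ _).ne_zero (pow_ne_zero _ hdn)),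
      rootMultiplicity_eq_zero hf0, pow_two, rootMultiplicity_mul (mul_ne_zero hdn hdn)] at hmul
    have hpos := (rootMultiplicity_pos (hne i)).2 hri
    refine (le_rootMultiplicity_iff (hne i)).1 ?_
    fin_cases i
    · rw [rootMultiplicity_eq_zero (hother 1 (by decide)),
        rootMultiplicity_eq_zero (hother 2 (by decide))] at hmul
      replace hpos : 0 < rootMultiplicity r (veluNum e s (e' 0)) := hpos
      show 2 ≤ rootMultiplicity r (veluNum e s (e' 0))
      omega
    · rw [rootMultiplicity_eq_zero (hother 0 (by decide)),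
        rootMultiplicity_eq_zero (hother 2 (by decide))] at hmul
      replace hpos : 0 < rootMultiplicity r (veluNum e s (e' 1)) := hpos
      show 2 ≤ rootMultiplicity r (veluNum e s (e' 1))
      omega
    · rw [rootMultiplicity_eq_zero (hother 0 (by decide)),
        rootMultiplicity_eq_zero (hother 1 (by decide))] at hmul
      replace hpos : 0 < rootMultiplicity r (veluNum e s (e' 2)) := hpos
      show 2 ≤ rootMultiplicity r (veluNum e s (e' 2))
      omega
  have hinj : Set.InjOn (transX e i) s := by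
    intro a ha b hb hab
    have ha' : a - e i ≠ 0 := sub_ne_zero.2 fun h => hes i (h ▸ ha)
    have hb' : b - e i ≠ 0 := sub_ne_zero.2 fun h => hes i (h ▸ hb)
    have hD : (e i - e (i + 1)) * (e i - e (i + 2)) ≠ 0 :=
      mul_ne_zero (sub_ne_zero.2 fun h => (fin3_ne i).1 (he h).symm)
        (sub_ne_zero.2 fun h => (fin3_ne i).2 (he h).symm)
    simp only [transX, add_right_inj] at hab
    rw [div_eq_div_iff ha' hb'] at hab
    have := mul_left_cancel₀ hD hab
    linear_combination -this
  have hdvd : (X - C (e i)) * ∏ x ∈ s, (X - C (transX e i x)) ^ 2 ∣ veluNum e s (e' i) := by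
    refine IsCoprime.mul_dvd ?_ (dvd_iff_isRoot.2 hroot_i) (Finset.prod_dvd_of_coprime ?_ hmult)
    · refine IsCoprime.prod_right fun x hx => IsCoprime.pow_right ?_
      exact isCoprime_X_sub_C_of_isUnit_sub (sub_ne_zero.2 (Ne.symm (hnr x hx i))).isUnit
    · intro a ha b hb hab
      exact (isCoprime_X_sub_C_of_isUnit_sub
        (sub_ne_zero.2 fun h => hab (hinj ha hb h)).isUnit).pow
  have hm2 : (∏ x ∈ s, (X - C (transX e i x)) ^ 2).Monic :=
    monic_prod_of_monic _ _ fun x _ => (monic_X_sub_C _).pow 2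
  have hm : ((X - C (e i)) * ∏ x ∈ s, (X - C (transX e i x)) ^ 2).Monic :=
    (monic_X_sub_C _).mul hm2
  have hdeg : ((X - C (e i)) * ∏ x ∈ s, (X - C (transX e i x)) ^ 2).natDegree =
      2 * s.card + 1 := by
    rw [(monic_X_sub_C _).natDegree_mul hm2,
      natDegree_prod_of_monic _ _ fun x _ => (monic_X_sub_C _).pow 2]
    simp [(monic_X_sub_C _).natDegree_pow, mul_comm, add_comm]
  obtain ⟨hNm, hNd⟩ := veluNum_monic e s (e' i)
  have heq := eq_of_monic_of_dvd_of_natDegree_le hm hNm hdvd (by omega)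
  have hev := congrArg (eval (e j)) heq
  rw [veluNum_eval e s _ (hes j), hroot j, veluDen_eval] at hev
  simp only [eval_mul, eval_sub, eval_X, eval_C, eval_prod, eval_pow] at hev
  exact hev

/-- The discriminant of `y² = (x - e₀)(x - e₁)(x - e₂)`. -/
def discRoots (e : Fin 3 → K) : K :=
  16 * ((e 0 - e 1) * (e 1 - e 2) * (e 2 - e 0)) ^ 2

/-- **Discriminant of the quotient**: `Δ' * ∏ (2 y_S)⁸ = Δ ^ p` (product over pairs `±S`). -/
theorem discRoots_quotient [Infinite K] (he : Function.Injective e) (hes : ∀ i, e i ∉ s)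
    (e' : Fin 3 → K) (he' : Function.Injective e') (hroot : ∀ i, veluX e s (e i) = e' i)
    (htrans : ∀ i, ∀ x ∈ s, transX e i x ∉ s ∧ veluX e s (transX e i x) = e' i)
    (hcurve : ∀ r, r ∉ s → (r - e 0) * (r - e 1) * (r - e 2) * veluDX e s r ^ 2 =
      (veluX e s r - e' 0) * (veluX e s r - e' 1) * (veluX e s r - e' 2)) :
    discRoots e' * ∏ x ∈ s, 256 * ((x - e 0) * (x - e 1) * (x - e 2)) ^ 4 =
      discRoots e ^ (2 * s.card + 1) := by
  have h := veluX_root_diff e s he hes e' he' hroot htrans hcurve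
  have h01 := h 1 0
  have h12 := h 2 1
  have h20 := h 0 2
  have hne : ∀ x ∈ s, ∀ k, x - e k ≠ 0 := fun x hx k =>
    sub_ne_zero.2 fun hh => hes k (hh ▸ hx)
  -- one factor of the product of the three differences, for a single pair
  have key : ∀ x ∈ s, ((e 0 - transX e 1 x) * (e 1 - transX e 2 x) * (e 2 - transX e 0 x)) ^ 2 *
        ((x - e 0) * (x - e 1) * (x - e 2)) ^ 2 =
      ((e 0 - e 1) * (e 1 - e 2) * (e 2 - e 0)) ^ 2 *
        ((x - e 0) * (x - e 1) * (x - e 2)) ^ 2 := by
    intro x hx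
    have a0 := hne x hx 0
    have a1 := hne x hx 1
    have a2 := hne x hx 2
    simp only [transX, show ((0 : Fin 3) + 1) = 1 from rfl, show ((0 : Fin 3) + 2) = 2 from rfl,
      show ((1 : Fin 3) + 1) = 2 from rfl, show ((1 : Fin 3) + 2) = 0 from rfl,
      show ((2 : Fin 3) + 1) = 0 from rfl, show ((2 : Fin 3) + 2) = 1 from rfl]
    field_simp
    ring
  set d : K := (e 0 - e 1) * (e 1 - e 2) * (e 2 - e 0) with hd
  have hprod : (∏ x ∈ s, (x - e 0) * (x - e 1) * (x - e 2)) ^ 2 *
      ((e' 0 - e' 1) * (e' 1 - e' 2) * (e' 2 - e' 0)) = d * (d ^ 2) ^ s.card := by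
    calc _ = ((∏ x ∈ s, (e 0 - x)) ^ 2 * (e' 0 - e' 1)) *
          ((∏ x ∈ s, (e 1 - x)) ^ 2 * (e' 1 - e' 2)) *
          ((∏ x ∈ s, (e 2 - x)) ^ 2 * (e' 2 - e' 0)) := by
          rw [show (∏ x ∈ s, (x - e 0) * (x - e 1) * (x - e 2)) ^ 2 =
            (∏ x ∈ s, (e 0 - x)) ^ 2 * (∏ x ∈ s, (e 1 - x)) ^ 2 * (∏ x ∈ s, (e 2 - x)) ^ 2 by
              simp only [← prod_pow, ← prod_mul_distrib]
              exact prod_congr rfl fun x _ => by ring]
          ring
      _ = ((e 0 - e 1) * ∏ x ∈ s, (e 0 - transX e 1 x) ^ 2) *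
          ((e 1 - e 2) * ∏ x ∈ s, (e 1 - transX e 2 x) ^ 2) *
          ((e 2 - e 0) * ∏ x ∈ s, (e 2 - transX e 0 x) ^ 2) := by rw [h01, h12, h20]
      _ = d * ∏ x ∈ s,
          ((e 0 - transX e 1 x) * (e 1 - transX e 2 x) * (e 2 - transX e 0 x)) ^ 2 := by
          simp only [mul_pow, prod_mul_distrib, hd]; ring
      _ = d * (d ^ 2) ^ s.card := by
          congr 1
          rw [prod_congr rfl fun x hx => ?_, prod_const]
          exact mul_right_cancel₀
            (pow_ne_zero 2 (mul_ne_zero (mul_ne_zero (hne x hx 0) (hne x hx 1)) (hne x hx 2)))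
            (key x hx)
  have hsqd := congrArg (· ^ 2) hprod
  rw [mul_pow, ← pow_mul, show (2 * 2) = 4 from rfl] at hsqd
  unfold discRoots
  have e16 : (16 * d ^ 2) ^ (2 * s.card + 1) =
      16 * 256 ^ s.card * (d * (d ^ 2) ^ s.card) ^ 2 := by
    rw [pow_succ, pow_mul, show (16 * d ^ 2) ^ 2 = 256 * (d ^ 2) ^ 2 by ring, mul_pow (256 : K),
      ← pow_mul, mul_comm 2 s.card, pow_mul]
    ring
  rw [prod_mul_distrib, prod_const, ← hd, prod_pow, e16]
  linear_combination (16 * (256 : K) ^ s.card) * hsqd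

end Fermat.Agent.FreyHeight
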