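import Fermat.Agent.FreyHeight.NodeRed
import Fermat.Agent.ECReduction.Galois
import Fermat.Agent.FreyModel.Basic
import Fermat.Agent.FreyUnramified.Frey

/-!
# The node of the Frey curve

At a prime dividing `abc` the node of the reduction lifts to a rational point of order two.
-/

set_option autoImplicit false

namespace Fermat.Agent.FreyHeight

open WeierstrassCurve Fermat.Agent.ECReduction Fermat.Agent.FreyUnramified
open scoped WeierstrassCurve.Affine

local notation "Qb" => AlgebraicClosure ℚ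

/-- The Frey curve over `ℚ̄`, from its integral model. -/
noncomputable abbrev freyQbar (P : FreyPackage) : WeierstrassCurve.Affine (AlgebraicClosure ℚ) :=
  (P.freyCurveInt.map (Int.castRingHom ℚ))⁄(AlgebraicClosure ℚ)

variable (P : FreyPackage)

lemma freyQbar_coeffs :
    (freyQbar P).a₁ = 1 ∧ (freyQbar P).a₃ = 0 ∧ (freyQbar P).a₆ = 0 ∧
    (freyQbar P).a₂ = ((P.b : Qb) ^ P.p - 1 - (P.a : Qb) ^ P.p) / 4 ∧
    (freyQbar P).a₄ = -((P.a : Qb) ^ P.p) * (P.b : Qb) ^ P.p / 16 := by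
  unfold freyQbar
  rw [FreyModel.map_freyCurveInt P]
  refine ⟨map_one _, map_zero _, map_zero _, ?_, ?_⟩
  · simp [FreyPackage.freyCurve, WeierstrassCurve.map, WeierstrassCurve.baseChange]
  · simp [FreyPackage.freyCurve, WeierstrassCurve.map, WeierstrassCurve.baseChange]

/-- The data attached to the node at a place above a prime dividing `abc`. -/
structure FreyNode (A : ValuationSubring (AlgebraicClosure ℚ)) where
  r : AlgebraicClosure ℚ
  r' : AlgebraicClosure ℚ
  fixed : ∀ σ : AlgebraicClosure ℚ ≃ₐ[ℚ] AlgebraicClosure ℚ, σ r = r ∧ σ r' = r'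
  C : Cubic (AlgebraicClosure ℚ) (freyQbar P).Point
  X_some : ∀ (x y : AlgebraicClosure ℚ) (h : (freyQbar P).Nonsingular x y),
    C.X (Affine.Point.some x y h) = 4 * (x - r)
  c2_unit : A.valuation C.c2 = 1
  c4_ne : C.c4 ≠ 0
  lift : NodeLift A (freyQbar P) r (-r / 2)
  other_eqn : (freyQbar P).Equation r' (-r' / 2)
  other_ne : A.valuation (2 : AlgebraicClosure ℚ) = 1 → A.valuation (r' - r) = 1

variable {P}

/-- The node data exists at every prime dividing `abc`. -/
theorem exists_freyNode {q : ℕ} (hq : q.Prime) (hdvd : (q : ℤ) ∣ P.a * P.b * P.c)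
    {A : ValuationSubring Qb} (hA : A.LiesOverPrime q) : Nonempty (FreyNode P A) := by
  obtain ⟨ha1, ha3, ha6, ha2, ha4⟩ := freyQbar_coeffs P
  have hqI : Prime (q : ℤ) := Nat.prime_iff_prime_int.mp hq
  set α : Qb := (P.a : Qb) ^ P.p with hα
  set β : Qb := (P.b : Qb) ^ P.p with hβ
  have hC : (P.c : Qb) ^ P.p = α + β := by
    rw [hα, hβ]; exact_mod_cast congrArg (Int.cast (R := Qb)) P.hFLT.symm
  have hv : ∀ n : ℤ, A.valuation ((n : Qb) ^ P.p) = A.valuation (n : Qb) ^ P.p := fun n =>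
    map_pow _ _ _
  have hsmall : ∀ n : ℤ, (q : ℤ) ∣ n → A.valuation ((n : Qb) ^ P.p) < 1 := fun n h => by
    rw [hv]; exact pow_lt_one₀ zero_le (valuation_intCast_lt_one hA h) P.hp0
  have hunit : ∀ n : ℤ, ¬ (q : ℤ) ∣ n → A.valuation ((n : Qb) ^ P.p) = 1 := fun n h => by
    rw [hv, FreyUnramified.valuation_intCast_eq_one hA hq h, one_pow]
  have hcop : ∀ x y : ℤ, gcd x y = 1 → (q : ℤ) ∣ x → ¬ (q : ℤ) ∣ y := fun x y h hx hy =>
    hqI.not_isUnit (isUnit_of_dvd_one (h ▸ dvd_gcd hx hy))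
  have h2odd : q ≠ 2 → A.valuation (2 : Qb) = 1 := fun h => by
    simpa using FreyUnramified.valuation_intCast_eq_one hA hq (n := 2) fun hd =>
      h ((Nat.prime_dvd_prime_iff_eq hq Nat.prime_two).mp (Int.natCast_dvd_natCast.mp hd))
  have h4odd : q ≠ 2 → A.valuation (4 : Qb) = 1 := fun h => by
    rw [show (4 : Qb) = 2 * 2 by norm_num, map_mul, h2odd h, one_mul]
  have hne : ∀ n : ℤ, n ≠ 0 → (n : Qb) ^ P.p ≠ 0 := fun n h =>
    pow_ne_zero _ (Int.cast_ne_zero.mpr h)
  have h2ne : (2 : Qb) ≠ 0 := two_ne_zero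
  -- assemble the data from a choice of root
  suffices h : ∃ r r' c2 c4 : Qb, (∀ σ : Qb ≃ₐ[ℚ] Qb, σ r = r ∧ σ r' = r') ∧
      ((r = 0 ∧ c2 = β - α ∧ c4 = -(α * β) ∧ (r' = -β / 4 ∨ r' = α / 4)) ∨
        (r = α / 4 ∧ c2 = 2 * α + β ∧ c4 = α * (α + β) ∧ r' = 0)) ∧
      A.valuation c2 = 1 ∧ A.valuation c4 < A.valuation (4 : Qb) * A.valuation 4 ∧ c4 ≠ 0 ∧
      A.valuation r ≤ 1 ∧ A.valuation (r / 2) ≤ 1 ∧
      (A.valuation (2 : Qb) = 1 → A.valuation (r' - r) = 1) by
    obtain ⟨r, r', c2, c4, hfix, hcase, hc2, hc4, hc40, hr, hr2, hne'⟩ := h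
    let C₀ : Cubic Qb (freyQbar P).Point := ofWeierstrass (freyQbar P) h2ne r (c2 / 4) (c4 / 16)
      (by rw [ha1, ha2]; rcases hcase with ⟨e, e2, -, -⟩ | ⟨e, e2, -, -⟩ <;> rw [e, e2] <;> ring)
      (by
        rw [ha1, ha2, ha3, ha4]
        rcases hcase with ⟨e, -, e4, -⟩ | ⟨e, -, e4, -⟩ <;> rw [e, e4] <;> ring)
      (by
        rw [ha1, ha2, ha3, ha4, ha6]
        rcases hcase with ⟨e, -, -, -⟩ | ⟨e, -, -, -⟩ <;> rw [e] <;> ring)
    have e2 : (scaleCubic C₀ 2 h2ne).c2 = c2 := by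
      show (2 : Qb) ^ 2 * (c2 / 4) = c2
      ring
    have e4 : (scaleCubic C₀ 2 h2ne).c4 = c4 := by
      show (2 : Qb) ^ 4 * (c4 / 16) = c4
      ring
    refine ⟨{ r := r, r' := r', fixed := hfix, C := scaleCubic C₀ 2 h2ne
              X_some := fun x y _ => show (2 : Qb) ^ 2 * (x - r) = 4 * (x - r) by ring
              c2_unit := by rw [e2]; exact hc2
              c4_ne := by rw [e4]; exact hc40
              lift := ⟨(A.valuation_le_one_iff _).mp hr, ?_, ?_, ?_, ?_⟩
              other_eqn := ?_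
              other_ne := hne' }⟩
    · rw [neg_div]; exact A.neg_mem _ ((A.valuation_le_one_iff _).mp hr2)
    · rw [Affine.equation_iff, ha1, ha2, ha3, ha4, ha6]
      rcases hcase with ⟨e, -, -, -⟩ | ⟨e, -, -, -⟩ <;> rw [e] <;> ring
    · rw [ha1, ha3]; ring
    · have : (freyQbar P).a₁ * (-r / 2) -
          (3 * r ^ 2 + 2 * (freyQbar P).a₂ * r + (freyQbar P).a₄) = -c4 / 16 := by
        rw [ha1, ha2, ha4]
        rcases hcase with ⟨e, -, e', -⟩ | ⟨e, -, e', -⟩ <;> rw [e, e'] <;> ring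
      rw [this, map_div₀, Valuation.map_neg, show (16 : Qb) = 4 * 4 by norm_num, map_mul,
        div_lt_one₀ (mul_pos ((Valuation.pos_iff _).mpr (by norm_num))
          ((Valuation.pos_iff _).mpr (by norm_num)))]
      exact hc4
    · rw [Affine.equation_iff, ha1, ha2, ha3, ha4, ha6]
      rcases hcase with ⟨-, -, -, e | e⟩ | ⟨-, -, -, e⟩ <;> rw [e] <;> ring
  have hfixα : ∀ σ : Qb ≃ₐ[ℚ] Qb, σ (α / 4) = α / 4 ∧ σ (-β / 4) = -β / 4 := fun σ => by
    constructor <;> simp [hα, hβ, map_ofNat]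
  by_cases hqa : (q : ℤ) ∣ P.a
  · have hq2 : q ≠ 2 := by
      rintro rfl; exact FreyModel.not_two_dvd_a P hqa
    have hb := hunit _ (hcop _ _ P.hgcdab hqa)
    refine ⟨0, -β / 4, β - α, -(α * β), fun σ => ⟨map_zero σ, (hfixα σ).2⟩,
      Or.inl ⟨rfl, rfl, rfl, Or.inl rfl⟩, ?_, ?_, ?_, by simp, by simp, fun _ => ?_⟩
    · rw [Valuation.map_sub_eq_of_lt_left _ (by rw [hb]; exact hsmall _ hqa)]; exact hb
    · rw [Valuation.map_neg, map_mul, hb, mul_one, h4odd hq2, one_mul]; exact hsmall _ hqa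
    · exact neg_ne_zero.mpr (mul_ne_zero (hne _ P.ha0) (hne _ P.hb0))
    · rw [sub_zero, map_div₀, Valuation.map_neg, hb, h4odd hq2, div_one]
  by_cases hqb : (q : ℤ) ∣ P.b
  · have ha := hunit _ hqa
    refine ⟨0, α / 4, β - α, -(α * β), fun σ => ⟨map_zero σ, (hfixα σ).1⟩,
      Or.inl ⟨rfl, rfl, rfl, Or.inr rfl⟩, ?_, ?_, ?_, by simp, by simp, fun h2 => ?_⟩
    · rw [Valuation.map_sub_eq_of_lt_right _ (by rw [ha]; exact hsmall _ hqb)]; exact ha
    · rw [Valuation.map_neg, map_mul, ha, one_mul]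
      by_cases hq2 : q = 2
      · subst hq2
        have hb2 : A.valuation (P.b : Qb) ≤ A.valuation (2 : Qb) := by
          obtain ⟨m, hm⟩ := hqb
          rw [hm]
          push_cast
          rw [map_mul]
          exact mul_le_of_le_one_right' ((A.valuation_le_one_iff _).mpr (intCast_mem A m))
        have h21 : A.valuation (2 : Qb) < 1 := by exact_mod_cast hA
        have h20 : 0 < A.valuation (2 : Qb) := (Valuation.pos_iff _).mpr h2ne
        calc A.valuation β = A.valuation (P.b : Qb) ^ P.p := hv _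
          _ ≤ A.valuation (2 : Qb) ^ P.p := pow_le_pow_left₀ zero_le hb2 _
          _ < A.valuation (2 : Qb) ^ 4 := pow_lt_pow_right_of_lt_one₀ h20 h21
              (by have := P.hp5; omega)
          _ = _ := by rw [← map_pow, ← map_mul]; norm_num
      · rw [h4odd hq2, one_mul]; exact hsmall _ hqb
    · exact neg_ne_zero.mpr (mul_ne_zero (hne _ P.ha0) (hne _ P.hb0))
    · rw [sub_zero, map_div₀, ha, show (4 : Qb) = 2 * 2 by norm_num, map_mul, h2, one_mul, div_one]
  · have hqc : (q : ℤ) ∣ P.c := by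
      rcases hqI.dvd_or_dvd hdvd with h | h
      · rcases hqI.dvd_or_dvd h with h | h <;> contradiction
      · exact h
    have hq2 : q ≠ 2 := by
      rintro rfl; exact FreyModel.not_two_dvd_c P hqc
    have ha := hunit _ hqa
    have hc := hsmall _ hqc
    rw [hC] at hc
    refine ⟨α / 4, 0, 2 * α + β, α * (α + β), fun σ => ⟨(hfixα σ).1, map_zero σ⟩,
      Or.inr ⟨rfl, rfl, rfl, rfl⟩, ?_, ?_, ?_, ?_, ?_, fun _ => ?_⟩
    · rw [show 2 * α + β = α + (α + β) by ring,
        Valuation.map_add_eq_of_lt_left _ (by rw [ha]; exact hc)]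
      exact ha
    · rw [map_mul, ha, one_mul, h4odd hq2, one_mul]; exact hc
    · refine mul_ne_zero (hne _ P.ha0) ?_
      rw [← hC]; exact hne _ P.hc0
    · rw [map_div₀, ha, h4odd hq2, div_one]
    · rw [map_div₀, map_div₀, ha, h4odd hq2, h2odd hq2, div_one, div_one]
    · rw [zero_sub, Valuation.map_neg, map_div₀, ha, h4odd hq2, div_one]

variable {A : ValuationSubring (AlgebraicClosure ℚ)}

open scoped Classical in
/-- A nonzero point of the Frey curve is in the identity component iff `v 4 ≤ v X`. -/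
theorem FreyNode.good_iff (N : FreyNode P A) {S : (freyQbar P).Point} (hS : S ≠ 0) :
    S ∈ goodSubgroup (curveRed P.freyCurveInt A) ↔
      A.valuation (4 : Qb) ≤ A.valuation (N.C.X S) := by
  rcases S with _ | ⟨x, y, h⟩
  · exact absurd rfl hS
  rw [mem_goodSubgroup, N.X_some]
  exact N.lift.pointRed_iff_four (curveRed P.freyCurveInt A) (by norm_num) h

open scoped Classical in
/-- If a point of order `p` is singular then every coset of its line meets the identity
component. -/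
theorem FreyNode.exists_good_translate (N : FreyNode P A) {S R : (freyQbar P).Point} (hS : S ≠ 0)
    (hSp : P.p • S = 0) (hbad : S ∉ goodSubgroup (curveRed P.freyCurveInt A))
    (hRp : P.p • R = 0) (hind : ∀ k : ℤ, R ≠ k • S) :
    ∃ k : ℤ, R + k • S ∈ goodSubgroup (curveRed P.freyCurveInt A) :=
  exists_add_zsmul_mem N.C _ P.pp (by have := P.hp5; omega) (by norm_num) N.c2_unit
    N.c4_ne (fun _ h => N.good_iff h) hS hSp hbad hRp hind

end Fermat.Agent.FreyHeight
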