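import Fermat.Agent.FreyHeight.Assembly
import Fermat.Agent.FreyQuotient.Model

/-!
# No cofixed line for `p ≥ 17`, given Mazur's theorem

The integral model of the quotient by a cofixed line comes from `Fermat.Agent.FreyQuotient`, so
`MazurStep` alone excludes a Galois-stable cofixed line in the `p`-torsion of the Frey curve.
-/

set_option autoImplicit false

namespace Fermat.Agent.FreyHeight

open WeierstrassCurve Fermat.Agent.ECReduction
open scoped WeierstrassCurve.Affine

/-- The integral model of the quotient by any cofixed line. -/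
theorem hasQuotientModel (P : FreyPackage) (L : CofixedLine P) : HasQuotientModel L := by
  classical
  intro R hRp hR
  obtain ⟨W, Q, k, hW, hm, -⟩ := FreyQuotient.exists_quotientModel P L.C L.card_C
    (fun σ S hS => L.smul_mem σ hS) hRp hR (fun σ => L.cofixed σ R hRp)
  refine ⟨W, Q, hW, hm.fixed, hm.order, fun ℓ hℓ hne hd A hA => ⟨?_, ?_⟩⟩
  · rintro ⟨hg, hb⟩
    exact ⟨(hm.multiplicative ℓ hℓ hne hd).1, (hm.multiplicative ℓ hℓ hne hd).2,
      hm.toric ℓ hℓ hne hd A hA (fun S hS => hg hS) (hb R hRp hR)⟩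
  · rintro ⟨hg, hRg⟩
    obtain ⟨S, hS, hSb⟩ := SetLike.not_le_iff_exists.mp hg
    exact ⟨(hm.multiplicative ℓ hℓ hne hd).1, (hm.multiplicative ℓ hℓ hne hd).2,
      hm.nontoric ℓ hℓ hne hd A hA hRg ⟨S, hS, hSb⟩⟩

/-- **No Galois-stable cofixed line for `p ≥ 17`**, given Mazur's key step. -/
theorem no_cofixed_large_of_mazurStep (hMazur : MazurStep) (P : FreyPackage) (hp : 17 ≤ P.p) :
    ¬ Affine.Point.HasGaloisStableCofixedLine (K := AlgebraicClosure ℚ) ℚ P.freyCurve P.p :=
  no_cofixed_of_mazurStep hMazur hasQuotientModel P hp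

end Fermat.Agent.FreyHeight
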