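import Fermat.Agent.FreyHeight.Cofixed
import Fermat.Agent.ECTorsion.Structure
import Fermat.Agent.FreyReducible.Dichotomy

/-!
# Places above `p`

At a place above `p` a cofixed line lies in the identity component.
-/

set_option autoImplicit false

namespace Fermat.Agent.FreyHeight

open WeierstrassCurve Polynomial Fermat.Agent.ECReduction
open scoped WeierstrassCurve.Affine

local notation "Qb" => AlgebraicClosure ℚ
local notation "GQ" => AlgebraicClosure ℚ ≃ₐ[ℚ] AlgebraicClosure ℚ

/-- If a polynomial with integral coefficients vanishes at distinct non-integral points then the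
product of these points with the leading coefficient is integral. -/
lemma lead_mul_prod_le_one {K : Type*} [Field K] (A : ValuationSubring K) (s : Finset K)
    (f : K[X]) (hf : ∀ i, A.valuation (f.coeff i) ≤ 1) (hf0 : f ≠ 0)
    (hs : ∀ x ∈ s, 1 < A.valuation x ∧ f.IsRoot x) :
    A.valuation f.leadingCoeff * ∏ x ∈ s, A.valuation x ≤ 1 := by
  classical
  induction s using Finset.induction_on generalizing f with
  | empty => simpa using hf f.natDegree
  | insert r s hr ih =>
    obtain ⟨hr1, hroot⟩ := hs r (Finset.mem_insert_self r s)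
    obtain ⟨h, hh⟩ := dvd_iff_isRoot.mpr hroot
    have hr0 : r ≠ 0 := fun e => by simp [e] at hr1
    have hh0 : h ≠ 0 := fun e => hf0 (by rw [hh, e, mul_zero])
    have hcoef : ∀ i, A.valuation ((C r * h).coeff i) ≤ 1 := by
      intro i
      induction i with
      | zero =>
        have : (C r * h).coeff 0 = -f.coeff 0 := by
          rw [hh, mul_coeff_zero, mul_coeff_zero]; simp
        rw [this, Valuation.map_neg]; exact hf 0
      | succ i ih =>
        have : (C r * h).coeff (i + 1) = h.coeff i - f.coeff (i + 1) := by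
          rw [hh, sub_mul, coeff_sub, coeff_X_mul]; ring
        rw [this]
        refine Valuation.map_sub_le _ ?_ (hf _)
        rw [coeff_C_mul, map_mul] at ih
        exact le_trans (le_mul_of_one_le_left' hr1.le) ih
    have hlead : (C r * h).leadingCoeff = r * f.leadingCoeff := by
      rw [hh, leadingCoeff_mul, leadingCoeff_mul, leadingCoeff_C, leadingCoeff_X_sub_C, one_mul]
    have := ih (C r * h) hcoef (mul_ne_zero (by simpa using hr0) hh0) fun x hx => by
      obtain ⟨hx1, hxr⟩ := hs x (Finset.mem_insert_of_mem hx)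
      refine ⟨hx1, ?_⟩
      rw [hh, IsRoot.def, eval_mul, eval_sub, eval_X, eval_C, mul_eq_zero, sub_eq_zero] at hxr
      rw [IsRoot.def, eval_mul, hxr.resolve_left fun e => hr (e ▸ hx), mul_zero]
    rw [hlead, map_mul] at this
    rw [Finset.prod_insert hr, ← mul_assoc, mul_comm (A.valuation f.leadingCoeff)]
    exact this

variable {P : FreyPackage} {A : ValuationSubring (AlgebraicClosure ℚ)}

/-- A rational number which is not integral at a place over `p` has absolute value at least
that of `1 / p`. -/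
lemma one_le_val_rat_mul (hA : A.LiesOverPrime P.p) {t : ℚ}
    (h : 1 < A.valuation (algebraMap ℚ Qb t)) :
    1 ≤ A.valuation (algebraMap ℚ Qb t) * A.valuation (P.p : Qb) := by
  have hden : ¬ A.valuation ((t.den : ℤ) : Qb) = 1 := fun hd => by
    rw [eq_ratCast, Rat.cast_def, map_div₀] at h
    have e : ((t.den : ℕ) : Qb) = ((t.den : ℤ) : Qb) := by norm_num
    rw [e, hd, div_one] at h
    exact not_le.mpr h ((A.valuation_le_one_iff _).mpr (intCast_mem A _))
  have hpd : (P.p : ℤ) ∣ (t.den : ℤ) := by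
    by_contra hh; exact hden (FreyUnramified.valuation_intCast_eq_one hA P.pp hh)
  have hnum : ¬ (P.p : ℤ) ∣ t.num := fun hh =>
    P.pp.ne_one (Nat.eq_one_of_dvd_coprimes t.reduced (Int.natCast_dvd.mp hh)
      (Int.natCast_dvd_natCast.mp hpd))
  rw [eq_ratCast, Rat.cast_def, map_div₀, FreyUnramified.valuation_intCast_eq_one hA P.pp hnum]
  obtain ⟨m, hm⟩ := Int.natCast_dvd_natCast.mp hpd
  have hd0 : 0 < A.valuation (t.den : Qb) :=
    (Valuation.pos_iff _).mpr (Nat.cast_ne_zero.mpr t.den_ne_zero)
  rw [div_mul_eq_mul_div, one_mul, one_le_div₀ hd0, hm, Nat.cast_mul, map_mul]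
  exact mul_le_of_le_one_right' ((A.valuation_le_one_iff _).mpr (natCast_mem A m))

open scoped Classical in
/-- The abscissa (junk value `0` at infinity). -/
noncomputable def absc (S : (freyQbar P).Point) : Qb :=
  match S with
  | .zero => 0
  | .some x _ _ => x

lemma absc_smul (σ : GQ) (S : (freyQbar P).Point) : absc (σ • S) = σ (absc S) := by
  rcases S with _ | ⟨x, y, h⟩
  · rw [← Affine.Point.zero_def, gal_zero]; exact (map_zero σ).symm
  · rfl

open scoped Classical in
lemma absc_not_integral_iff {S : (freyQbar P).Point} (hS : S ≠ 0) :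
    InKer A S ↔ 1 < A.valuation (absc S) := by
  rcases S with _ | ⟨x, y, h⟩
  · exact absurd rfl hS
  · exact ⟨fun hx => one_lt_valuation hx,
      fun h hx => absurd h (not_lt.mpr ((A.valuation_le_one_iff _).mpr hx))⟩

open scoped Classical in
/-- The multiples `k • R`, `0 < k < p`, of a nonzero `p`-torsion point of the kernel at a place over
`p` are again in the kernel and their abscissae have the valuation of that of `R`. -/
lemma inKer_nsmul_and_val_absc (hA : A.LiesOverPrime P.p) {R : (freyQbar P).Point} (hR0 : R ≠ 0)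
    (hRp : P.p • R = 0) (hker : InKer A R) {k : ℕ} (hk : 1 ≤ k) (hkp : k < P.p) :
    k • R ≠ 0 ∧ InKer A (k • R) ∧ A.valuation (absc (k • R)) = A.valuation (absc R) := by
  have hIC := (curveRed P.freyCurveInt A).integralCoeffs
  have hp := P.pp
  have hk0 := FreyUnramified.nsmul_ne_zero_of_lt hp hR0 hRp (by omega : 0 < k) hkp
  have hkk := hIC.inKer_nsmul hker k
  refine ⟨hk0, hkk, ?_⟩
  have hku : A.valuation (k : Qb) = 1 := by
    simpa using FreyUnramified.valuation_intCast_eq_one hA hp (n := (k : ℤ)) fun hd =>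
      absurd (Int.le_of_dvd (by omega) hd) (by omega)
  have hz := hIC.zParam_nsmul hker k
  have hzlt := hIC.zParam_lt_one hker
  have hzpos : 0 < A.valuation (zParam R) := (Valuation.pos_iff _).mpr
      (hIC.zParam_ne_zero hker hR0)
  have hzk : A.valuation (zParam (k • R)) = A.valuation (zParam R) := by
    have hlt : A.valuation (zParam (k • R) - k * zParam R) <
        A.valuation ((k : Qb) * zParam R) := by
      rw [map_mul, hku, one_mul]
      exact hz.trans_lt (by rw [pow_two]; exact mul_lt_of_lt_one_left hzpos hzlt)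
    rw [← sub_add_cancel (zParam (k • R)) (k * zParam R),
      Valuation.map_add_eq_of_lt_right _ hlt, map_mul, hku, one_mul]
  have val : ∀ S : (freyQbar P).Point, S ≠ 0 → InKer A S →
      A.valuation (absc S) = (A.valuation (zParam S) ^ 2)⁻¹ := by
    intro S hS0 hSk
    rcases S with _ | ⟨x, y, h⟩
    · exact absurd rfl hS0
    exact eq_inv_of_mul_eq_one_right (hIC.val_zParam h hSk).1
  rw [val _ hk0 hkk, val _ hR0 hker, hzk]

open scoped Classical in
/-- The first `n` multiples of a nonzero `p`-torsion point, `2 n < p`, have distinct abscissae. -/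
lemma absc_nsmul_injOn {R : (freyQbar P).Point} (hR0 : R ≠ 0) (hRp : P.p • R = 0) {n : ℕ}
    (hn : 2 * n < P.p) : Set.InjOn (fun k : ℕ => absc (k • R)) (Finset.Icc 1 n : Finset ℕ) := by
  have hp := P.pp
  intro i hi j hj hij
  rw [Finset.mem_coe, Finset.mem_Icc] at hi hj
  have hi0 := FreyUnramified.nsmul_ne_zero_of_lt hp hR0 hRp (by omega : 0 < i) (by omega)
  have hj0 := FreyUnramified.nsmul_ne_zero_of_lt hp hR0 hRp (by omega : 0 < j) (by omega)
  have eqx : ∀ S T : (freyQbar P).Point, S ≠ 0 → T ≠ 0 → absc S = absc T → S = T ∨ S = -T := by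
    intro S T hS hT h
    rcases S with _ | ⟨x, y, hS'⟩
    · exact absurd rfl hS
    rcases T with _ | ⟨x', y', hT'⟩
    · exact absurd rfl hT
    obtain rfl : x = x' := h
    rcases Affine.Y_eq_of_X_eq hS'.1 hT'.1 rfl with rfl | rfl
    · exact Or.inl rfl
    · exact Or.inr (Affine.Point.neg_some _).symm
  by_contra hne
  rcases eqx _ _ hi0 hj0 hij with h | h
  · refine FreyUnramified.smul_ne_zero_of_prime hp hR0 hRp ((i : ℤ) - j) ?_
      (by rw [sub_smul, natCast_zsmul, natCast_zsmul, h, sub_self])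
    exact fun hd => absurd (Int.eq_zero_of_abs_lt_dvd hd (by rw [abs_lt]; omega)) (by omega)
  · refine FreyUnramified.smul_ne_zero_of_prime hp hR0 hRp ((i : ℤ) + j) ?_
      (by rw [add_zsmul, natCast_zsmul, natCast_zsmul, h, neg_add_cancel])
    exact fun hd => absurd (Int.eq_zero_of_abs_lt_dvd hd (by rw [abs_lt]; omega)) (by omega)

open scoped Classical in
/-- The division polynomial bounds the abscissa of a nonzero `p`-torsion point of the kernel at a
place over `p`. -/
lemma val_prime_mul_val_absc_pow_le (hA : A.LiesOverPrime P.p) {R : (freyQbar P).Point}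
    (hR0 : R ≠ 0) (hRp : P.p • R = 0) (hker : InKer A R) {n : ℕ} (hn : P.p = 2 * n + 1) :
    A.valuation (P.p : Qb) * A.valuation (absc R) ^ n ≤ 1 := by
  have hx1 := (absc_not_integral_iff hR0).mp hker
  have hmult := fun k => inKer_nsmul_and_val_absc hA hR0 hRp hker (k := k)
  set xs := (Finset.Icc 1 n).image fun k => absc (k • R) with hxs
  have hinj : xs.card = n := by
    rw [hxs, Finset.card_image_of_injOn (absc_nsmul_injOn hR0 hRp (by omega)), Nat.card_Icc,
      Nat.add_sub_cancel]
  set f := (freyQbar P).preΨ' P.p with hf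
  have hodd : ¬ Even P.p := Nat.not_even_iff_odd.mpr ⟨n, hn⟩
  have hp0 : ((P.p : ℕ) : Qb) ≠ 0 := Nat.cast_ne_zero.mpr P.hp0
  have hlead : f.leadingCoeff = (P.p : Qb) := by
    rw [hf, leadingCoeff, WeierstrassCurve.natDegree_preΨ' _ hp0, WeierstrassCurve.coeff_preΨ',
      if_neg hodd]
  have hcoef : ∀ i, A.valuation (f.coeff i) ≤ 1 := by
    intro i
    have : f = ((P.freyCurveInt.preΨ' P.p).map (Int.castRingHom ℚ)).map (algebraMap ℚ Qb) := by
      rw [hf, ← WeierstrassCurve.map_preΨ', ← WeierstrassCurve.map_preΨ']; rfl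
    rw [this, coeff_map, coeff_map, eq_intCast, map_intCast]
    exact (A.valuation_le_one_iff _).mpr (intCast_mem A _)
  have hf0 : f ≠ 0 := fun h => hp0 (by rw [← hlead, h, leadingCoeff_zero])
  have hroots : ∀ x ∈ xs, 1 < A.valuation x ∧ f.IsRoot x := by
    intro x hx
    rw [hxs, Finset.mem_image] at hx
    obtain ⟨k, hk, rfl⟩ := hx
    rw [Finset.mem_Icc] at hk
    obtain ⟨hk0, -, hkv⟩ := hmult k hk.1 (by omega)
    refine ⟨hkv ▸ hx1, ?_⟩
    have hkp : P.p • (k • R) = 0 := by rw [smul_comm, hRp, nsmul_zero]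
    rcases hS : k • R with _ | ⟨a, b, hab⟩
    · exact absurd hS hk0
    rw [hS] at hkp
    exact ECTorsion.eval_preΨ'_eq_zero_of_nsmul ⟨n, hn⟩ hab hkp
  have hmain := lead_mul_prod_le_one A xs f hcoef hf0 hroots
  have hprod : ∏ x ∈ xs, A.valuation x = A.valuation (absc R) ^ n := by
    rw [Finset.prod_congr rfl (g := fun _ => A.valuation (absc R)) fun x hx => ?_,
      Finset.prod_const, hinj]
    rw [hxs, Finset.mem_image] at hx
    obtain ⟨k, hk, rfl⟩ := hx
    rw [Finset.mem_Icc] at hk
    exact (hmult k hk.1 (by omega)).2.2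
  rwa [hlead, hprod] at hmain

namespace CofixedLine

variable (L : CofixedLine P)

open scoped Classical in
/-- The sum of the abscissae of the Galois orbit of a good point `R` off a bad line is rational,
with the valuation of that of `R`, which is therefore at least that of `1 / p`. -/
lemma one_le_val_absc_mul (hA : A.LiesOverPrime P.p) (hbad : ¬ L.C ≤ freyGood P A)
    {R : (freyQbar P).Point} (hRp : P.p • R = 0) (hRgood : R ∈ freyGood P A) (hR0 : R ≠ 0)
    (hker : InKer A R) :
    1 ≤ A.valuation (absc R) * A.valuation (P.p : Qb) := by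
  have hx1 := (absc_not_integral_iff hR0).mp hker
  set O : Set (freyQbar P).Point := Set.range fun τ : GQ => τ • R with hO
  have hOfin : O.Finite := by
    have := finite_tors P
    refine Set.Finite.subset (Set.toFinite (CofixedLine.tors P)) ?_
    rintro _ ⟨τ, rfl⟩
    show P.p • (τ • R) = 0
    rw [← gal_nsmul, hRp, gal_zero]
  set O' := hOfin.toFinset with hO'
  have hRO : R ∈ O' := hOfin.mem_toFinset.mpr ⟨1, one_smul _ R⟩
  set sx := ∑ S ∈ O', absc S with hsx
  have hfix : ∀ τ : GQ, τ sx = sx := by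
    intro τ
    rw [hsx, map_sum]
    refine Finset.sum_bij' (fun S _ => τ • S) (fun S _ => τ⁻¹ • S) ?_ ?_ ?_ ?_ ?_
    · intro S hS
      obtain ⟨μ, rfl⟩ := hOfin.mem_toFinset.mp hS
      exact hOfin.mem_toFinset.mpr ⟨τ * μ, mul_smul τ μ R⟩
    · intro S hS
      obtain ⟨μ, rfl⟩ := hOfin.mem_toFinset.mp hS
      exact hOfin.mem_toFinset.mpr ⟨τ⁻¹ * μ, mul_smul τ⁻¹ μ R⟩
    · exact fun S _ => inv_smul_smul τ S
    · exact fun S _ => smul_inv_smul τ S
    · exact fun S _ => (absc_smul τ S).symm
  obtain ⟨t, ht⟩ := FreyReducible.exists_rat_of_fixed hfix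
  have hrest : A.valuation (∑ S ∈ O'.erase R, absc S) ≤ 1 := by
    refine Valuation.map_sum_le _ fun S hS => ?_
    obtain ⟨hne, hSO⟩ := Finset.mem_erase.mp hS
    obtain ⟨μ, rfl⟩ := hOfin.mem_toFinset.mp hSO
    by_contra hgt
    push Not at hgt
    have hS0 : μ • R ≠ 0 := fun h0 => by
      have e : absc (μ • R) = 0 := by rw [h0]; rfl
      simp [e] at hgt
    have hkS := (absc_not_integral_iff hS0).mpr hgt
    have hgS : μ • R ∈ freyGood P A := ⟨0, pointRed_zero_iff.mpr hkS⟩
    exact hne (sub_eq_zero.mp (L.eq_zero_of_mem_good hbad (L.cofixed μ R hRp)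
      (sub_mem hgS hRgood)))
  have hvt : A.valuation (algebraMap ℚ Qb t) = A.valuation (absc R) := by
    rw [ht, hsx, ← Finset.add_sum_erase _ _ hRO,
      Valuation.map_add_eq_of_lt_left _ (hrest.trans_lt hx1)]
  have hvx : 1 ≤ A.valuation (absc R) * A.valuation (P.p : Qb) := by
    rw [← hvt]; exact one_le_val_rat_mul hA (hvt ▸ hx1)
  exact hvx

open scoped Classical in
/-- At a place over `p` (of bad reduction) the line lies in the identity component. -/
theorem le_freyGood_at_p (hdvd : (P.p : ℤ) ∣ P.a * P.b * P.c) (hA : A.LiesOverPrime P.p) :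
    L.C ≤ freyGood P A := by
  by_contra hbad
  have hp := P.pp
  have h5 := P.hp5
  obtain ⟨N⟩ := exists_freyNode hp hdvd hA
  obtain ⟨R₀, hR₀p, hR₀⟩ := L.exists_not_mem
  obtain ⟨R, hRp, hR, -, hRgood⟩ := L.exists_good_translate N hbad hR₀p hR₀
  have hR0 : R ≠ 0 := fun h => hR (h ▸ zero_mem _)
  obtain ⟨σ, hσ⟩ := GaloisBasics.exists_isFrobeniusAt hA hp
  have hker : InKer A R := inKer_of_fixed_at_p hA N hσ hRp
    (L.smul_eq_of_bad N hbad hσ.mem_decompositionSubgroup hRp hRgood) hRgood
  have hx1 := (absc_not_integral_iff hR0).mp hker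
  have hvx := L.one_le_val_absc_mul hA hbad hRp hRgood hR0 hker
  obtain ⟨n, hn⟩ := hp.odd_of_ne_two (by omega)
  obtain ⟨m, rfl⟩ : ∃ m, n = m + 2 := ⟨n - 2, by omega⟩
  have hgt : 1 < A.valuation (absc R) ^ (m + 1) := one_lt_pow₀ hx1 (by omega)
  refine not_lt.mpr (val_prime_mul_val_absc_pow_le hA hR0 hRp hker hn) ?_
  rw [show m + 2 = 1 + (m + 1) by omega, pow_add, pow_one, ← mul_assoc,
    mul_comm (A.valuation (P.p : Qb))]
  exact one_lt_mul_of_le_of_lt hvx hgt

end CofixedLine

end Fermat.Agent.FreyHeight
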