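import Mathlib.FieldTheory.IsAlgClosed.AlgebraicClosure
import Mathlib.FieldTheory.Normal.Basic
import Mathlib.FieldTheory.IsAlgClosed.Basic
import Mathlib.Analysis.Complex.Polynomial.Basic
import Fermat.Agent.Frobenius.Existence

/-!
# Complex conjugation on `ℚ̄`

A complex conjugation on `ℚ̄` together with a compatible embedding into `ℂ`.
-/

set_option autoImplicit false

namespace Fermat.Agent.FreyHeight

open scoped ComplexConjugate

local notation "Qb" => AlgebraicClosure ℚ

/-- An embedding `ι : ℚ̄ → ℂ` and an involution `c` of `ℚ̄` inducing complex conjugation. -/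
theorem exists_conjugation : ∃ (ι : Qb →+* ℂ) (c : Qb ≃ₐ[ℚ] Qb),
    (∀ x, ι (c x) = conj (ι x)) ∧ (∀ x, c (c x) = x) ∧
      ∀ x, c x = x → (ι x).im = 0 := by
  have := Fermat.Agent.Frobenius.isAlgebraic_algClosureRat
  have : IsAlgClosure ℚ Qb := ⟨inferInstance, inferInstance⟩
  have : Normal ℚ Qb := IsAlgClosure.normal ℚ Qb
  let j : Qb →ₐ[ℚ] ℂ := IsAlgClosed.lift
  let : Algebra Qb ℂ := j.toRingHom.toAlgebra
  have : IsScalarTower ℚ Qb ℂ := IsScalarTower.of_algebraMap_eq fun q => (j.commutes q).symm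
  let σ : ℂ ≃ₐ[ℚ] ℂ := Complex.conjAe.restrictScalars ℚ
  refine ⟨j.toRingHom, σ.restrictNormal Qb, fun x => AlgEquiv.restrictNormal_commutes σ Qb x,
    fun x => ?_, fun x hx => ?_⟩
  · apply (algebraMap Qb ℂ).injective
    rw [AlgEquiv.restrictNormal_commutes, AlgEquiv.restrictNormal_commutes]
    exact Complex.conj_conj _
  · have := AlgEquiv.restrictNormal_commutes σ Qb x
    rw [hx] at this
    exact Complex.conj_eq_iff_im.mp this.symm

end Fermat.Agent.FreyHeight
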