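import Fermat.Agent.FreyHeight.DiscQuotient
import Mathlib.Tactic.NormNum.Prime
import Fermat.Agent.Isogeny.Hom

/-!
# Vélu's quotient in the coordinate `Z = 4x`

For a curve with rational `2`-torsion: the abscissae of the points of order two of the quotient,
its discriminant and its `c₄`.
-/

set_option autoImplicit false

namespace Fermat.Agent.FreyHeight

open WeierstrassCurve Polynomial Finset Fermat.Agent.Isogeny

universe u

/-- A monic cubic with three distinct roots. -/
lemma cubic_coeffs {K : Type u} [Field K] {a b c x y z : K} (hxy : x ≠ y) (hyz : y ≠ z)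
    (hxz : x ≠ z) (hx : x ^ 3 + a * x ^ 2 + b * x + c = 0) (hy : y ^ 3 + a * y ^ 2 + b * y + c = 0)
    (hz : z ^ 3 + a * z ^ 2 + b * z + c = 0) :
    a = -(x + y + z) ∧ b = x * y + y * z + z * x ∧ c = -(x * y * z) := by
  have h1 : x ^ 2 + x * y + y ^ 2 + a * (x + y) + b = 0 :=
    mul_left_cancel₀ (sub_ne_zero.mpr hxy) (by linear_combination hx - hy)
  have h2 : y ^ 2 + y * z + z ^ 2 + a * (y + z) + b = 0 :=
    mul_left_cancel₀ (sub_ne_zero.mpr hyz) (by linear_combination hy - hz)
  have ha : a = -(x + y + z) := by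
    have : x + y + z + a = 0 :=
      mul_left_cancel₀ (sub_ne_zero.mpr hxz) (by linear_combination h1 - h2)
    linear_combination this
  refine ⟨ha, ?_, ?_⟩
  · linear_combination h1 - (x + y) * ha
  · linear_combination hx - x * h1 + x * y * ha

variable {K : Type u} [Field K] [DecidableEq K] [IsAlgClosed K] [NeZero (2 : K)]
  {W : WeierstrassCurve.Affine K} [W.IsElliptic]

/-- `Z = 4x` for the nonzero points of the subgroup. -/
noncomputable def absSet (C : AddSubgroup W.Point) [Finite C] : Finset K :=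
  (Cs C).image fun Q => 4 * xc Q

/-- `e` lists the roots of the two-division cubic in the coordinate `Z = 4x`. -/
structure TwoRoots (W : WeierstrassCurve.Affine K) (e : Fin 3 → K) : Prop where
  inj : Function.Injective e
  sum : e 0 + e 1 + e 2 = -W.b₂
  pairs : e 0 * e 1 + e 1 * e 2 + e 2 * e 0 = 8 * W.b₄
  prod : e 0 * e 1 * e 2 = -(16 * W.b₆)

variable {e : Fin 3 → K} (he : TwoRoots W e) (C : AddSubgroup W.Point) [Finite C]
  (hodd : Odd (Nat.card C))

omit [DecidableEq K] [IsAlgClosed K] in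
lemma four_ne : (4 : K) ≠ 0 := by
  rw [show (4 : K) = 2 * 2 by norm_num]; exact mul_ne_zero two_ne_zero two_ne_zero

omit [DecidableEq K] [IsAlgClosed K] [NeZero (2 : K)] [W.IsElliptic] in
lemma eq_or_eq_neg_of_xc {S T : W.Point} (hS : S ≠ 0) (hT : T ≠ 0) (h : xc S = xc T) :
    S = T ∨ S = -T := by
  rcases S with _ | ⟨x, y, hS'⟩
  · exact absurd rfl hS
  rcases T with _ | ⟨x', y', hT'⟩
  · exact absurd rfl hT
  obtain rfl : x = x' := h
  rcases Affine.Y_eq_of_X_eq hS'.1 hT'.1 rfl with rfl | rfl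
  · exact Or.inl rfl
  · exact Or.inr (Affine.Point.neg_some _).symm

omit [IsAlgClosed K] [NeZero (2 : K)] [W.IsElliptic] [Finite C] in
include hodd in
/-- A nonzero point of a subgroup of odd order is not its own negative. -/
lemma neg_ne_self {Q : W.Point} (hQ : Q ∈ C) (h0 : Q ≠ 0) : -Q ≠ Q := by
  intro h
  obtain ⟨k, hk⟩ := hodd
  have hc : Nat.card C • (⟨Q, hQ⟩ : C) = 0 := card_nsmul_eq_zero'
  have h2 : 2 • Q = 0 := by rw [two_nsmul]; nth_rw 1 [← h]; exact neg_add_cancel Q
  have := congrArg Subtype.val hc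
  simp only [AddSubmonoidClass.coe_nsmul, ZeroMemClass.coe_zero] at this
  rw [hk, succ_nsmul, mul_comm, mul_nsmul', h2, nsmul_zero, zero_add] at this
  exact h0 this

omit [IsAlgClosed K] [W.IsElliptic] in
include hodd in
/-- Each abscissa of the subgroup comes from exactly two of its points. -/
lemma fibre_card {z : K} (hz : z ∈ absSet C) :
    ((Cs C).filter fun Q => 4 * xc Q = z).card = 2 := by
  obtain ⟨Q, hQ, rfl⟩ := mem_image.mp hz
  obtain ⟨h0, hC⟩ := (mem_Cs C).mp hQ
  have : (Cs C).filter (fun R => 4 * xc R = 4 * xc Q) = {Q, -Q} := by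
    ext R
    simp only [mem_filter, mem_Cs, mem_insert, mem_singleton, mul_right_inj' four_ne]
    constructor
    · rintro ⟨⟨hR0, -⟩, hx⟩; exact eq_or_eq_neg_of_xc hR0 h0 hx
    · rintro (rfl | rfl)
      · exact ⟨⟨h0, hC⟩, rfl⟩
      · refine ⟨⟨neg_ne_zero.mpr h0, neg_mem hC⟩, ?_⟩
        rcases Q with _ | ⟨x, y, h⟩
        · exact absurd rfl h0
        · rw [Affine.Point.neg_some]; rfl
  rw [this, card_pair (neg_ne_self C hodd hC h0).symm]

omit [IsAlgClosed K] [W.IsElliptic] in
include hodd in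
/-- A subgroup of odd order `2n + 1` has `n` abscissae. -/
lemma card_absSet : 2 * (absSet C).card + 1 = Nat.card C := by
  have h : (Cs C).card = ∑ z ∈ absSet C, ((Cs C).filter fun Q => 4 * xc Q = z).card :=
    card_eq_sum_card_image (fun Q : W.Point => 4 * xc Q) (Cs C)
  rw [sum_congr rfl fun z hz => fibre_card C hodd hz, sum_const, smul_eq_mul, mul_comm] at h
  rw [← card_Cf C, ← card_erase_add_one ((mem_Cf C).mpr (zero_mem C)), ← h]
  rfl

omit [IsAlgClosed K] [W.IsElliptic] in
include hodd in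
/-- A sum over the nonzero points of a function of `Z` is twice the sum over `absSet`. -/
lemma sum_Cs_absSet (G : K → K) :
    ∑ Q ∈ Cs C, G (4 * xc Q) = 2 * ∑ z ∈ absSet C, G z := by
  rw [← sum_fiberwise_of_maps_to (g := fun Q => 4 * xc Q) (t := absSet C)
    (fun Q hQ => mem_image_of_mem _ hQ), mul_sum]
  refine sum_congr rfl fun z hz => ?_
  rw [sum_congr rfl fun Q hQ => congrArg G (mem_filter.mp hQ).2, sum_const, fibre_card C hodd hz]
  simp

omit [IsAlgClosed K] [W.IsElliptic] in
include hodd in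
/-- A sum over the nonzero points of a function whose symmetrisation depends on `Z` only. -/
lemma sum_Cs_pairs (F : W.Point → K) (G : K → K)
    (h : ∀ Q ∈ Cs C, F Q + F (-Q) = G (4 * xc Q)) :
    ∑ Q ∈ Cs C, F Q = ∑ z ∈ absSet C, G z := by
  have h1 := sum_Cs_neg C F
  have h2 : ∑ Q ∈ Cs C, (F Q + F (-Q)) = 2 * ∑ z ∈ absSet C, G z := by
    rw [sum_congr rfl h, sum_Cs_absSet C hodd]
  rw [sum_add_distrib, h1] at h2
  exact mul_left_cancel₀ (two_ne_zero (α := K)) (by linear_combination h2)

omit [IsAlgClosed K] [W.IsElliptic] in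
lemma xc_four_notMem {P : W.Point} (hP : P ∉ C) : 4 * xc P ∉ absSet C := by
  intro h
  obtain ⟨Q, hQ, he'⟩ := mem_image.mp h
  obtain ⟨h0, hC⟩ := (mem_Cs C).mp hQ
  have hP0 : P ≠ 0 := fun h' => hP (h' ▸ zero_mem C)
  rcases eq_or_eq_neg_of_xc hP0 h0 (mul_left_cancel₀ four_ne he').symm with rfl | rfl
  · exact hP hC
  · exact hP (neg_mem hC)

omit [DecidableEq K] [IsAlgClosed K] [NeZero (2 : K)] [W.IsElliptic] in
include he in
lemma veluV_eq (r : K) : veluV e (4 * r) = 16 * (6 * r ^ 2 + W.b₂ * r + W.b₄) := by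
  unfold veluV
  linear_combination -16 * r * he.sum + 2 * he.pairs

omit [DecidableEq K] [IsAlgClosed K] [NeZero (2 : K)] [W.IsElliptic] in
include he in
/-- The two-division cubic in the coordinate `Z = 4x`. -/
lemma cubic_eq (r : K) : (4 * r - e 0) * (4 * r - e 1) * (4 * r - e 2) =
    16 * (4 * r ^ 3 + W.b₂ * r ^ 2 + 2 * W.b₄ * r + W.b₆) := by
  linear_combination -16 * r ^ 2 * he.sum + 4 * r * he.pairs - he.prod

omit [IsAlgClosed K] [W.IsElliptic] in
include he hodd in
/-- Velu's abscissa in the coordinate `Z`. -/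
lemma veluX_eq {P : W.Point} (hP : P ∉ C) :
    veluX e (absSet C) (4 * xc P) = 4 * Xv C P := by
  unfold veluX Xv
  rw [sum_Cf_eq C, add_zero, xc_zero, sub_zero, mul_add, add_right_inj, mul_sum]
  refine (sum_Cs_pairs C hodd _ _ fun Q hQ => ?_).symm
  obtain ⟨h0, hC⟩ := (mem_Cs C).mp hQ
  rcases P with _ | ⟨x, y, hxy⟩
  · exact absurd (zero_mem C) hP
  rcases Q with _ | ⟨r, t, hrt⟩
  · exact absurd rfl h0
  have hne : x ≠ r := fun h =>
    xc_four_notMem C hP (mem_image.mpr ⟨_, hQ, by show 4 * r = 4 * x; rw [h]⟩)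
  have hd : x - r ≠ 0 := sub_ne_zero.mpr hne
  have hsum := xc_add_add_xc_sub hxy hrt hne
  have hneg : xc (-Affine.Point.some r t hrt) = r := by rw [Affine.Point.neg_some]; rfl
  rw [hneg, xc_some, xc_some, veluV_eq he, veluU, cubic_eq he, ← gc_sq hrt,
    show (4 : K) * x - 4 * r = 4 * (x - r) by ring, ← mul_add,
    show xc (Affine.Point.some x y hxy + Affine.Point.some r t hrt) - r +
        (xc (Affine.Point.some x y hxy + -Affine.Point.some r t hrt) - r) =
      xc (Affine.Point.some x y hxy + Affine.Point.some r t hrt) +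
        xc (Affine.Point.some x y hxy + -Affine.Point.some r t hrt) - 2 * r by ring, hsum]
  have h4 : (4 : K) ≠ 0 := four_ne
  field_simp
  ring

omit [IsAlgClosed K] [W.IsElliptic] in
include he hodd in
/-- Velu's derivative in the coordinate `Z`. -/
lemma veluDX_eq {P : W.Point} (hP : P ∉ C) :
    gc P * veluDX e (absSet C) (4 * xc P) = Gv C P := by
  unfold veluDX Gv
  rw [sum_Cf_eq C, add_zero, mul_sub, mul_one, mul_sum, sub_eq_add_neg, add_right_inj,
    ← sum_neg_distrib]
  refine (sum_Cs_pairs C hodd _ _ fun Q hQ => ?_).symm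
  obtain ⟨h0, hC⟩ := (mem_Cs C).mp hQ
  rcases P with _ | ⟨x, y, hxy⟩
  · exact absurd (zero_mem C) hP
  rcases Q with _ | ⟨r, t, hrt⟩
  · exact absurd rfl h0
  have hne : x ≠ r := fun h =>
    xc_four_notMem C hP (mem_image.mpr ⟨_, hQ, by show 4 * r = 4 * x; rw [h]⟩)
  have hd : x - r ≠ 0 := sub_ne_zero.mpr hne
  rw [gc_add_add_gc_sub two_ne_zero hxy hrt hne, xc_some, xc_some, gc_some, veluV_eq he, veluU,
    cubic_eq he, ← gc_sq hrt, show (4 : K) * x - 4 * r = 4 * (x - r) by ring]
  have h4 : (4 : K) ≠ 0 := four_ne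
  field_simp
  ring

omit [IsAlgClosed K] in
include he in
/-- The point of order two over the root `e i`. -/
lemma exists_twoTorsion (i : Fin 3) :
    ∃ T : W.Point, T ≠ 0 ∧ 4 * xc T = e i ∧ gc T = 0 ∧ T + T = 0 := by
  have h4 : (4 : K) ≠ 0 := four_ne
  set x := e i / 4 with hx
  set y := -(W.a₁ * x + W.a₃) / 2 with hy
  have hex : 4 * x = e i := by rw [hx]; field_simp
  have hy2 : 2 * y + W.a₁ * x + W.a₃ = 0 := by rw [hy]; field_simp; ring
  have heq : W.Equation x y := by
    rw [Affine.equation_iff]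
    have h0 : (4 * x - e 0) * (4 * x - e 1) * (4 * x - e 2) = 0 := by
      rw [hex]; fin_cases i <;> simp
    rw [cubic_eq he] at h0
    have : (16 : K) ≠ 0 := by
      rw [show (16 : K) = 4 * 4 by norm_num]; exact mul_ne_zero h4 h4
    have h1 := (mul_eq_zero.mp h0).resolve_left this
    simp only [WeierstrassCurve.b₂, WeierstrassCurve.b₄, WeierstrassCurve.b₆] at h1
    apply mul_left_cancel₀ h4
    linear_combination (2 * y + W.a₁ * x + W.a₃) * hy2 - h1
  have hns := (W.equation_iff_nonsingular_of_Δ_ne_zero W.isUnit_Δ.ne_zero).mp heq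
  refine ⟨.some x y hns, Affine.Point.some_ne_zero _, hex, hy2, ?_⟩
  exact Affine.Point.add_of_Y_eq rfl (by rw [Affine.negY]; linear_combination hy2)

omit [IsAlgClosed K] [NeZero (2 : K)] [W.IsElliptic] [Finite C] in
include hodd in
lemma notMem_of_two {T : W.Point} (h0 : T ≠ 0) (h2 : T + T = 0) : T ∉ C := fun h =>
  neg_ne_self C hodd h h0 (neg_eq_of_add_eq_zero_left h2)

/-- The roots of the quotient in the coordinate `Z`. -/
noncomputable def quotRoots (e : Fin 3 → K) (i : Fin 3) : K := veluX e (absSet C) (e i)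

omit [IsAlgClosed K] in
include he hodd in
/-- The roots are not abscissae of a subgroup of odd order. -/
lemma roots_notMem (i : Fin 3) : e i ∉ absSet C := by
  obtain ⟨T, hT0, hTx, -, hT2⟩ := exists_twoTorsion he i
  exact hTx ▸ xc_four_notMem C (notMem_of_two C hodd hT0 hT2)

include he hodd in
/-- The roots of the quotient are distinct. -/
lemma quotRoots_injective : Function.Injective (quotRoots C e) := by
  intro i j h
  obtain ⟨S, hS0, hSx, hSg, hS2⟩ := exists_twoTorsion he i
  obtain ⟨T, hT0, hTx, hTg, hT2⟩ := exists_twoTorsion he j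
  have hS := notMem_of_two C hodd hS0 hS2
  have hT := notMem_of_two C hodd hT0 hT2
  unfold quotRoots at h
  rw [← hSx, ← hTx, veluX_eq he C hodd hS, veluX_eq he C hodd hT] at h
  have hX := mul_left_cancel₀ four_ne h
  have hGS : Gv C S = 0 := by rw [← veluDX_eq he C hodd hS, hSg, zero_mul]
  have hGT : Gv C T = 0 := by rw [← veluDX_eq he C hodd hT, hTg, zero_mul]
  have hmap : veluMap hodd S = veluMap hodd T := by
    rw [veluMap_of_notMem hodd hS, veluMap_of_notMem hodd hT]
    simp only [hX, hGS, hGT]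
  rw [← veluHom_apply hodd, ← veluHom_apply hodd, ← sub_eq_zero, ← map_sub,
    veluHom_eq_zero_iff] at hmap
  have hz : S - T = 0 := by
    by_contra h0
    exact notMem_of_two C hodd h0 (by rw [sub_add_sub_comm, hS2, hT2, sub_zero]) hmap
  rw [sub_eq_zero] at hz
  exact he.inj (by rw [← hSx, ← hTx, hz])

omit [IsAlgClosed K] in
include he hodd in
/-- Translation by a point of order two moves the abscissae off the subgroup, to preimages of a root. -/
lemma translates (i : Fin 3) {z : K} (hz : z ∈ absSet C) :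
    transX e i z ∉ absSet C ∧ veluX e (absSet C) (transX e i z) = quotRoots C e i := by
  obtain ⟨T, hT0, hTx, hTg, hT2⟩ := exists_twoTorsion he i
  have hT := notMem_of_two C hodd hT0 hT2
  obtain ⟨Q, hQ, rfl⟩ := mem_image.mp hz
  obtain ⟨hQ0, hQC⟩ := (mem_Cs C).mp hQ
  have hTQ : T + Q ∉ C := fun h => hT (by simpa using sub_mem h hQC)
  have key : 4 * xc (T + Q) = transX e i (4 * xc Q) := by
    have hsame : xc (T + -Q) = xc (T + Q) := by
      have e1 : T + -Q = -(T + Q) := by
        rw [neg_add, neg_eq_of_add_eq_zero_left hT2]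
      rw [e1]
      rcases hh : T + Q with _ | ⟨a, b, hab⟩
      · rfl
      · rw [Affine.Point.neg_some]; rfl
    rcases T with _ | ⟨x, y, hxy⟩
    · exact absurd rfl hT0
    rcases Q with _ | ⟨r, t, hrt⟩
    · exact absurd rfl hQ0
    have hne : x ≠ r := fun h =>
      xc_four_notMem C hT (mem_image.mpr ⟨_, hQ, by show 4 * r = 4 * x; rw [h]⟩)
    have hd : x - r ≠ 0 := sub_ne_zero.mpr hne
    have hd' : (4 : K) * r - 4 * x ≠ 0 := by
      rw [← mul_sub]; exact mul_ne_zero four_ne (sub_ne_zero.mpr hne.symm)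
    have hsum := xc_add_add_xc_sub hxy hrt hne
    rw [hsame, gc_sq hrt, div_add_div _ _ hd (pow_ne_zero 2 hd),
      eq_div_iff (mul_ne_zero hd (pow_ne_zero 2 hd))] at hsum
    have hc := cubic_eq he r
    have hv := veluV_eq he r
    unfold veluV at hv
    rw [xc_some] at hTx ⊢
    rw [transX, ← hTx, add_div' _ _ _ hd', eq_div_iff hd']
    apply mul_left_cancel₀ (show (2 : K) * (x - r) ^ 3 ≠ 0 from
      mul_ne_zero two_ne_zero (pow_ne_zero 3 hd))
    generalize xc (Affine.Point.some x y hxy + Affine.Point.some r t hrt) = X at hsum ⊢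
    fin_cases i <;>
      simp only [show ((0 : Fin 3) + 1) = 1 from rfl, show ((0 : Fin 3) + 2) = 2 from rfl,
        show ((1 : Fin 3) + 1) = 2 from rfl, show ((1 : Fin 3) + 2) = 0 from rfl,
        show ((2 : Fin 3) + 1) = 0 from rfl, show ((2 : Fin 3) + 2) = 1 from rfl,
        Fin.reduceFinMk] at * <;>
      rw [← hTx] at hc hv <;>
      linear_combination (-16 * (x - r)) * hsum + (x - r) ^ 3 * hv + (x - r) ^ 2 * hc
  refine ⟨key ▸ xc_four_notMem C hTQ, ?_⟩
  rw [← key, veluX_eq he C hodd hTQ, Xv_add C hQC, ← veluX_eq he C hodd hT, hTx]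
  rfl

include he hodd in
/-- The coefficients of the cubic of the quotient through its roots. -/
lemma quot_coeffs :
    W.b₂ = -(quotRoots C e 0 + quotRoots C e 1 + quotRoots C e 2) ∧
    8 * (W.b₄ - 10 * tV C) = quotRoots C e 0 * quotRoots C e 1 +
      quotRoots C e 1 * quotRoots C e 2 + quotRoots C e 2 * quotRoots C e 0 ∧
    16 * (W.b₆ - 4 * W.b₂ * tV C - 28 * wV C) =
      -(quotRoots C e 0 * quotRoots C e 1 * quotRoots C e 2) := by
  have root : ∀ i, quotRoots C e i ^ 3 + W.b₂ * quotRoots C e i ^ 2 +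
      8 * (W.b₄ - 10 * tV C) * quotRoots C e i + 16 * (W.b₆ - 4 * W.b₂ * tV C - 28 * wV C) = 0 := by
    intro i
    obtain ⟨T, hT0, hTx, hTg, hT2⟩ := exists_twoTorsion he i
    have hT := notMem_of_two C hodd hT0 hT2
    have hG : Gv C T = 0 := by rw [← veluDX_eq he C hodd hT, hTg, zero_mul]
    have h := Gv_sq (C := C) hT
    rw [hG] at h
    simp only [FV, eval_add, eval_mul, eval_pow, eval_C, eval_X] at h
    unfold quotRoots
    rw [← hTx, veluX_eq he C hodd hT]
    linear_combination -16 * h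
  have hinj := quotRoots_injective he C hodd
  exact cubic_coeffs (fun h => absurd (hinj h) (by decide)) (fun h => absurd (hinj h) (by decide))
    (fun h => absurd (hinj h) (by decide)) (root 0) (root 1) (root 2)

include he hodd in
/-- The curve equation in the coordinate `Z`. -/
lemma velu_curve_identity (r : K) (hr : r ∉ absSet C) :
    (r - e 0) * (r - e 1) * (r - e 2) * veluDX e (absSet C) r ^ 2 =
      (veluX e (absSet C) r - quotRoots C e 0) * (veluX e (absSet C) r - quotRoots C e 1) *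
        (veluX e (absSet C) r - quotRoots C e 2) := by
  have h4 : (4 : K) ≠ 0 := four_ne
  obtain ⟨x, rfl⟩ : ∃ x, r = 4 * x := ⟨r / 4, by field_simp⟩
  obtain ⟨y, hy⟩ := IsAlgClosed.exists_root
    (Polynomial.C 1 * X ^ 2 + Polynomial.C (W.a₁ * x + W.a₃) * X +
      Polynomial.C (-(x ^ 3 + W.a₂ * x ^ 2 + W.a₄ * x + W.a₆)))
    (by rw [degree_quadratic one_ne_zero]; decide)
  simp only [IsRoot.def, eval_add, eval_mul, eval_C, eval_pow, eval_X] at hy
  have heq : W.Equation x y := by rw [Affine.equation_iff]; linear_combination hy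
  have hns := (W.equation_iff_nonsingular_of_Δ_ne_zero W.isUnit_Δ.ne_zero).mp heq
  set P : W.Point := .some x y hns with hPdef
  have hP : P ∉ C := fun h => hr (mem_image.mpr
    ⟨P, (mem_Cs C).mpr ⟨Affine.Point.some_ne_zero _, h⟩, rfl⟩)
  obtain ⟨c1, c2, c3⟩ := quot_coeffs he C hodd
  have hD := veluDX_eq he C hodd hP
  have hX := veluX_eq he C hodd hP
  have h := Gv_sq (C := C) hP
  simp only [FV, eval_add, eval_mul, eval_pow, eval_C, eval_X] at h
  rw [← hD, hPdef, gc_some, mul_pow, gc_sq hns] at h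
  rw [xc_some] at h; rw [hPdef, xc_some] at hX
  rw [cubic_eq he, hX]
  linear_combination 16 * h + 16 * Xv C (.some x y hns) ^ 2 * c1 +
    4 * Xv C (.some x y hns) * c2 + c3

include he hodd in
/-- The discriminant of the quotient. -/
theorem discRoots_velu [Infinite K] :
    discRoots (quotRoots C e) * ∏ z ∈ absSet C, 256 * ((z - e 0) * (z - e 1) * (z - e 2)) ^ 4 =
      discRoots e ^ Nat.card C := by
  rw [← card_absSet C hodd]
  exact discRoots_quotient e (absSet C) he.inj (roots_notMem he C hodd) _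
    (quotRoots_injective he C hodd) (fun _ => rfl) (fun i _ hz => translates he C hodd i hz)
    (velu_curve_identity he C hodd)

include he hodd in
/-- The elementary symmetric functions that give `c₄` of the quotient. -/
theorem velu_c4 :
    quotRoots C e 0 + quotRoots C e 1 + quotRoots C e 2 = e 0 + e 1 + e 2 ∧
    quotRoots C e 0 * quotRoots C e 1 + quotRoots C e 1 * quotRoots C e 2 +
        quotRoots C e 2 * quotRoots C e 0 =
      e 0 * e 1 + e 1 * e 2 + e 2 * e 0 - 5 * ∑ z ∈ absSet C, veluV e z := by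
  obtain ⟨c1, c2, -⟩ := quot_coeffs he C hodd
  refine ⟨by linear_combination c1 - he.sum, ?_⟩
  have ht : ∑ z ∈ absSet C, veluV e z = 16 * tV C := by
    have h := sum_Cs_absSet C hodd (veluV e)
    rw [sum_congr rfl fun Q _ => veluV_eq he (xc Q), ← mul_sum] at h
    have h' : ∑ Q ∈ Cs C, tq Q = 2 * tV C := by rw [tV]; field_simp
    unfold tq at h'
    rw [h'] at h
    exact mul_left_cancel₀ two_ne_zero (by linear_combination -h)
  rw [ht]
  linear_combination -c2 - he.pairs

end Fermat.Agent.FreyHeight
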