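import Fermat.Agent.FreyHeight.Valuations
import Fermat.Agent.FreyHeight.VeluBridge
import Fermat.Agent.FreyHeight.RealPlace
import Fermat.Agent.FreyHeight.PlaceP

/-!
# A cofixed line is singular somewhere

A cofixed line cannot lie in the identity component at every place, by the height contradiction.

The abscissae `Z = 4x` of the line are fixed by complex conjugation and closed under doubling, so
they avoid the interval spanned by the roots `0, a^p, -b^p`; Vélu's formulas then give the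
discriminant and `c₄` of the quotient over `ℝ`, and good reduction everywhere bounds the rational
factor `veluFactor` relating the two discriminants by a power of `2`.
-/

set_option autoImplicit false

namespace Fermat.Agent.FreyHeight

open WeierstrassCurve Fermat.Agent.ECReduction Fermat.Agent.Isogeny
open scoped WeierstrassCurve.Affine

local notation "Qb" => AlgebraicClosure ℚ
local notation "GQ" => AlgebraicClosure ℚ ≃ₐ[ℚ] AlgebraicClosure ℚ

/-- The roots `0, a^p, -b^p`. -/
noncomputable def freyRoots (P : FreyPackage) : Fin 3 → AlgebraicClosure ℚ :=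
  ![0, (P.a : Qb) ^ P.p, -(P.b : Qb) ^ P.p]

variable {P : FreyPackage}

/-- The Frey curve over `ℚ̄` is elliptic. -/
lemma freyQbar_isElliptic (P : FreyPackage) : (freyQbar P).IsElliptic := by
  refine ⟨?_⟩
  unfold freyQbar
  rw [WeierstrassCurve.Affine.baseChange, WeierstrassCurve.baseChange, WeierstrassCurve.map_Δ,
    WeierstrassCurve.map_Δ]
  simpa using (FreyModel.freyCurveInt_Δ_ne_zero P)

lemma freyRoots_two (P : FreyPackage) : TwoRoots (freyQbar P) (freyRoots P) := by
  obtain ⟨ha1, ha3, ha6, ha2, ha4⟩ := freyQbar_coeffs P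
  have hC : (P.c : Qb) ^ P.p = (P.a : Qb) ^ P.p + (P.b : Qb) ^ P.p := by
    exact_mod_cast congrArg (Int.cast (R := Qb)) P.hFLT.symm
  have na : (P.a : Qb) ^ P.p ≠ 0 := pow_ne_zero _ (Int.cast_ne_zero.mpr P.ha0)
  have nb : (P.b : Qb) ^ P.p ≠ 0 := pow_ne_zero _ (Int.cast_ne_zero.mpr P.hb0)
  have nc : (P.a : Qb) ^ P.p + (P.b : Qb) ^ P.p ≠ 0 :=
    hC ▸ pow_ne_zero _ (Int.cast_ne_zero.mpr P.hc0)
  refine ⟨?_, ?_, ?_, ?_⟩
  · intro i j h
    fin_cases i <;> fin_cases j <;> first
      | rfl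
      | (simp [freyRoots] at h; exact absurd h
          (by first | exact na | exact nb | exact Ne.symm na | exact Ne.symm nb))
      | (exfalso; simp [freyRoots] at h; first
          | exact P.ha0 h.1 | exact P.hb0 h.1 | exact P.ha0 h | exact P.hb0 h
          | exact nc (by linear_combination h) | exact nc (by linear_combination -h))
  · simp only [freyRoots, Matrix.cons_val, WeierstrassCurve.b₂, ha1, ha2]; ring
  · simp only [freyRoots, Matrix.cons_val, WeierstrassCurve.b₄, ha1, ha3, ha4]; ring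
  · simp only [freyRoots, Matrix.cons_val, WeierstrassCurve.b₆, ha3, ha6]; ring

/-- The roots `0, a^p, -b^p` as real numbers. -/
noncomputable def freyRootsR (P : FreyPackage) : Fin 3 → ℝ :=
  ![0, (P.a : ℝ) ^ P.p, -(P.b : ℝ) ^ P.p]

/-- Any embedding of `ℚ̄` in `ℂ` sends the roots to their real values. -/
lemma map_freyRoots (ι : Qb →+* ℂ) (i : Fin 3) : ι (freyRoots P i) = (freyRootsR P i : ℂ) := by
  fin_cases i <;> simp [freyRoots, freyRootsR]

/-- The roots are rational. -/
lemma gal_freyRoots (τ : GQ) (i : Fin 3) : τ (freyRoots P i) = freyRoots P i := by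
  fin_cases i <;> simp [freyRoots]

/-- The duplication formula in the coordinate `Z = 4x`. -/
lemma freyQbar_duplication {S : (freyQbar P).Point} (h0 : S ≠ 0) (h2 : S + S ≠ 0) :
    (4 * xc (S + S)) * (4 * ((4 * xc S - freyRoots P 0) * (4 * xc S - freyRoots P 1) *
      (4 * xc S - freyRoots P 2))) =
    ((4 * xc S) ^ 2 - freyRoots P 1 * freyRoots P 2) ^ 2 := by
  obtain ⟨ha1, ha3, ha6, ha2, ha4⟩ := freyQbar_coeffs P
  let C₀ : FreyUnramified.Cubic Qb (freyQbar P).Point :=
    scaleCubic (FreyUnramified.ofWeierstrass (freyQbar P) two_ne_zero 0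
      (((P.b : Qb) ^ P.p - (P.a : Qb) ^ P.p) / 4) (-((P.a : Qb) ^ P.p * (P.b : Qb) ^ P.p) / 16)
      (by rw [ha1, ha2]; ring) (by rw [ha1, ha3, ha4]; ring) (by rw [ha1, ha3, ha6]; ring))
      2 two_ne_zero
  have hC0 : ∀ T : (freyQbar P).Point, C₀.X T = 4 * xc T := by
    intro T
    rcases T with _ | ⟨x, y, h⟩
    · show (2 : Qb) ^ 2 * 0 = 4 * 0; ring
    · show (2 : Qb) ^ 2 * (x - 0) = 4 * x; ring
  have hE := C₀.X_two_mul h0 h2
  rw [C₀.eqn S h0, hC0, hC0] at hE
  have e2 : C₀.c2 = (2 : Qb) ^ 2 * (((P.b : Qb) ^ P.p - (P.a : Qb) ^ P.p) / 4) := rfl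
  have e4 : C₀.c4 = (2 : Qb) ^ 4 * (-((P.a : Qb) ^ P.p * (P.b : Qb) ^ P.p) / 16) := rfl
  rw [e2, e4] at hE
  simp only [freyRoots, Matrix.cons_val]
  linear_combination hE

namespace CofixedLine

variable (L : CofixedLine P)

lemma finite_C : Finite L.C := Nat.finite_of_card_ne_zero (by rw [L.card_C]; exact P.hp0)

lemma odd_card : Odd (Nat.card L.C) := by rw [L.card_C]; exact P.hp_odd

variable [Finite L.C]

/-- An element of `absSet` is `4x` of a nonzero point of the line. -/
lemma exists_of_mem_absSet {z : Qb} (hz : z ∈ absSet L.C) :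
    ∃ S : (freyQbar P).Point, S ≠ 0 ∧ S ∈ L.C ∧ 4 * xc S = z := by
  obtain ⟨S, hS, rfl⟩ := Finset.mem_image.mp hz
  obtain ⟨h0, hC⟩ := (mem_Cs L.C).mp hS
  exact ⟨S, h0, hC, rfl⟩

lemma four_xc_mem_absSet {S : (freyQbar P).Point} (h0 : S ≠ 0) (hC : S ∈ L.C) :
    4 * xc S ∈ absSet L.C :=
  Finset.mem_image.mpr ⟨S, (mem_Cs L.C).mpr ⟨h0, hC⟩, rfl⟩

/-- Galois permutes the abscissae of the line. -/
lemma gal_mem_absSet (τ : GQ) {z : Qb} (hz : z ∈ absSet L.C) : τ z ∈ absSet L.C := by
  obtain ⟨S, h0, hC, rfl⟩ := L.exists_of_mem_absSet hz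
  have hτ : τ • S ≠ 0 := by
    rcases S with _ | ⟨x, y, h⟩
    · exact absurd rfl h0
    · exact Affine.Point.some_ne_zero _
  have := L.four_xc_mem_absSet hτ (L.smul_mem τ hC)
  rwa [xc_smul τ, ← map_ofNat τ 4, ← map_mul] at this

/-- An involution in the Galois group acts on the line as `±1`, so fixes its abscissae. -/
lemma involution_fixes_absSet {c : GQ} (hcc : ∀ x, c (c x) = x) {z : Qb} (hz : z ∈ absSet L.C) :
    c z = z := by
  obtain ⟨S, h0, hC, rfl⟩ := L.exists_of_mem_absSet hz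
  obtain ⟨k, hk⟩ := L.exists_zsmul_eq hC h0 (L.smul_mem c hC)
  have h2 : (k * k) • S = S := by
    rw [mul_zsmul', hk, ← gal_zsmul, hk, smul_smul]
    have : c * c = 1 := AlgEquiv.ext hcc
    rw [this, one_smul]
  have hd : (P.p : ℤ) ∣ (k - 1) * (k + 1) := by
    by_contra hd
    refine FreyUnramified.smul_ne_zero_of_prime P.pp h0 (L.nsmul_eq_zero hC) _ hd ?_
    rw [show (k - 1) * (k + 1) = k * k - 1 by ring, sub_zsmul, h2, one_zsmul, add_neg_cancel]
  have hx : xc (c • S) = xc S := by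
    rcases (Nat.prime_iff_prime_int.mp P.pp).dvd_or_dvd hd with ⟨m, hm⟩ | ⟨m, hm⟩
    · have : c • S = S := by
        rw [← hk, show k = 1 + m * P.p by linear_combination hm, add_zsmul, one_zsmul, mul_zsmul,
          natCast_zsmul, L.nsmul_eq_zero hC, zsmul_zero, add_zero]
      rw [this]
    · have : c • S = -S := by
        rw [← hk, show k = -1 + m * P.p by linear_combination hm, add_zsmul, neg_one_zsmul,
          mul_zsmul, natCast_zsmul, L.nsmul_eq_zero hC, zsmul_zero, add_zero]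
      rw [this]
      rcases S with _ | ⟨x, y, h⟩
      · rfl
      · rw [Affine.Point.neg_some]; rfl
  rw [map_mul, map_ofNat, ← xc_smul c, hx]

/-- An involution fixes the roots of the quotient. -/
lemma involution_fixes_quotRoots {c : GQ} (hcc : ∀ x, c (c x) = x) (i : Fin 3) :
    c (quotRoots L.C (freyRoots P) i) = quotRoots L.C (freyRoots P) i := by
  simp only [quotRoots, veluX, map_add, map_sum, map_div₀, map_pow, map_sub, gal_freyRoots c]
  congr 1
  refine Finset.sum_congr rfl fun z hz => ?_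
  have hz' := L.involution_fixes_absSet hcc hz
  simp [veluV, veluU, map_ofNat, hz', gal_freyRoots c]

/-- There is an embedding of `ℚ̄` in `ℂ` for which the abscissae of the line and the roots of the
quotient are real. -/
lemma exists_real_embedding : ∃ ι : Qb →+* ℂ, (∀ z ∈ absSet L.C, ι z = ((ι z).re : ℂ)) ∧
    ∀ i, ι (quotRoots L.C (freyRoots P) i) = ((ι (quotRoots L.C (freyRoots P) i)).re : ℂ) := by
  obtain ⟨ι, c, -, hcc, him⟩ := exists_conjugation
  have h : ∀ z : Qb, c z = z → ι z = ((ι z).re : ℂ) := fun z hz =>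
    Complex.ext (by simp) (by simp [him z hz])
  exact ⟨ι, fun z hz => h z (L.involution_fixes_absSet hcc hz),
    fun i => h _ (L.involution_fixes_quotRoots hcc i)⟩

/-- The real parts of the abscissae of the line under an embedding. -/
noncomputable def reAbs (ι : Qb →+* ℂ) : Finset ℝ := (absSet L.C).image fun z => (ι z).re

section Real

variable {L} {ι : Qb →+* ℂ} (hι : ∀ z ∈ absSet L.C, ι z = ((ι z).re : ℂ))
include hι

/-- The cubic does not vanish at the real abscissae. -/
lemma cubic_re_ne_zero {z : Qb} (hz : z ∈ absSet L.C) :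
    cubic (freyRootsR P 0) (freyRootsR P 1) (freyRootsR P 2) (ι z).re ≠ 0 := by
  intro h
  have := freyQbar_isElliptic P
  have hne : ∀ i, z - freyRoots P i ≠ 0 := fun i => sub_ne_zero.mpr fun hh =>
    roots_notMem (freyRoots_two P) L.C L.odd_card i (hh ▸ hz)
  refine mul_ne_zero (mul_ne_zero (hne 0) (hne 1)) (hne 2) (ι.injective ?_)
  rw [map_zero, map_mul, map_mul, map_sub, map_sub, map_sub, map_freyRoots, map_freyRoots,
    map_freyRoots, hι z hz, ← Complex.ofReal_zero, ← h, cubic]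
  push_cast; ring

/-- Doubling a point of the line is `dblX` on its real abscissa. -/
lemma dblX_re {S : (freyQbar P).Point} (h0 : S ≠ 0) (hS : S ∈ L.C) (h2 : S + S ≠ 0) :
    dblX (freyRootsR P 0) (freyRootsR P 1) (freyRootsR P 2) (ι (4 * xc S)).re =
      (ι (4 * xc (S + S))).re := by
  have hz := L.four_xc_mem_absSet h0 hS
  have hz2 := L.four_xc_mem_absSet h2 (L.C.add_mem hS hS)
  have hC := congrArg ι (freyQbar_duplication h0 h2)
  simp only [map_mul, map_sub, map_pow, map_ofNat, map_freyRoots] at hC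
  rw [show (4 : ℂ) * ι (xc (S + S)) = ι (4 * xc (S + S)) by rw [map_mul, map_ofNat],
    show (4 : ℂ) * ι (xc S) = ι (4 * xc S) by rw [map_mul, map_ofNat], hι _ hz, hι _ hz2] at hC
  have r0 : freyRootsR P 0 = 0 := rfl
  have hR : (ι (4 * xc (S + S))).re *
      (4 * cubic (freyRootsR P 0) (freyRootsR P 1) (freyRootsR P 2) (ι (4 * xc S)).re) =
      ((ι (4 * xc S)).re ^ 2 - freyRootsR P 1 * freyRootsR P 2) ^ 2 := by
    rw [← Complex.ofReal_inj]; unfold cubic; push_cast; exact hC
  have hf := mul_ne_zero four_ne_zero (cubic_re_ne_zero hι hz)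
  rw [← sub_left_inj (a := freyRootsR P 0), dblX_sub_root (cubic_re_ne_zero hι hz),
    div_eq_iff hf, r0]
  rw [r0] at hR
  linear_combination -hR

lemma injOn_re : Set.InjOn (fun z => (ι z).re) (absSet L.C) :=
  fun x hx y hy (h : (ι x).re = (ι y).re) => ι.injective (by rw [hι x hx, hι y hy, h])

/-- The line has `(p - 1) / 2` real abscissae. -/
lemma card_reAbs : 2 * (L.reAbs ι).card + 1 = P.p := by
  have := freyQbar_isElliptic P
  rw [reAbs, Finset.card_image_of_injOn (injOn_re hι), card_absSet L.C L.odd_card, L.card_C]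

/-- The real abscissae are closed under doubling. -/
lemma dblX_mem_reAbs {X : ℝ} (hX : X ∈ L.reAbs ι) :
    dblX (freyRootsR P 0) (freyRootsR P 1) (freyRootsR P 2) X ∈ L.reAbs ι := by
  obtain ⟨z, hz, rfl⟩ := Finset.mem_image.mp hX
  obtain ⟨S, h0, hS, rfl⟩ := L.exists_of_mem_absSet hz
  have h2 : S + S ≠ 0 := by
    rw [← two_nsmul]
    exact FreyUnramified.nsmul_ne_zero_of_lt P.pp h0 (L.nsmul_eq_zero hS) (by norm_num)
      (by have := P.hp5; omega)
  rw [dblX_re hι h0 hS h2]
  exact Finset.mem_image_of_mem _ (L.four_xc_mem_absSet h2 (L.C.add_mem hS hS))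

/-- Every point of the line is a double, so its abscissa lies outside the span of the roots. -/
lemma outside_roots {X : ℝ} (hX : X ∈ L.reAbs ι) :
    (X < freyRootsR P 0 ∧ X < freyRootsR P 1 ∧ X < freyRootsR P 2) ∨
      (freyRootsR P 0 < X ∧ freyRootsR P 1 < X ∧ freyRootsR P 2 < X) := by
  refine outside_roots_of_dblX (L.reAbs ι) (fun Y hY => ?_) (fun Y hY => ?_) hX
  · obtain ⟨z, hz, rfl⟩ := Finset.mem_image.mp hY
    exact cubic_re_ne_zero hι hz
  · obtain ⟨z, hz, rfl⟩ := Finset.mem_image.mp hY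
    obtain ⟨S, h0, hS, rfl⟩ := L.exists_of_mem_absSet hz
    obtain ⟨n, hn⟩ := P.hp_odd
    set T := (n + 1) • S with hT
    have hTT : T + T = S := by
      rw [hT, ← add_nsmul, show n + 1 + (n + 1) = P.p + 1 by omega, succ_nsmul,
        L.nsmul_eq_zero hS, zero_add]
    have hT0 : T ≠ 0 := fun h => h0 (by rw [← hTT, h, add_zero])
    have hTC : T ∈ L.C := L.C.nsmul_mem hS _
    refine ⟨_, Finset.mem_image_of_mem _ (L.four_xc_mem_absSet hT0 hTC), ?_⟩
    rw [dblX_re hι hT0 hTC (by rwa [hTT]), hTT]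

/-- `c₄` of the quotient over `ℝ`. -/
lemma c4Roots_quotient {r' : Fin 3 → ℝ}
    (hr' : ∀ i, ι (quotRoots L.C (freyRoots P) i) = (r' i : ℂ)) :
    c4Roots (r' 0) (r' 1) (r' 2) = c4Roots (freyRootsR P 0) (freyRootsR P 1) (freyRootsR P 2) +
      240 * ∑ X ∈ L.reAbs ι, 2 * dcubic (freyRootsR P 0) (freyRootsR P 1) (freyRootsR P 2) X := by
  have := freyQbar_isElliptic P
  obtain ⟨g1, g2⟩ := velu_c4 (freyRoots_two P) L.C L.odd_card
  have h1 := congrArg ι g1
  have h2 := congrArg ι g2
  simp only [map_add, map_mul, map_sub, map_ofNat, map_sum, map_freyRoots, hr'] at h1 h2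
  have hsum : ∑ z ∈ absSet L.C, ι (veluV (freyRoots P) z) =
      ((∑ X ∈ L.reAbs ι,
        2 * dcubic (freyRootsR P 0) (freyRootsR P 1) (freyRootsR P 2) X : ℝ) : ℂ) := by
    rw [reAbs, Finset.sum_image (injOn_re hι), Complex.ofReal_sum]
    refine Finset.sum_congr rfl fun z hz => ?_
    simp only [veluV, map_mul, map_add, map_sub, map_ofNat, map_freyRoots, dcubic]
    rw [hι z hz, Complex.ofReal_re]
    push_cast; ring
  rw [hsum] at h2
  rw [← Complex.ofReal_inj]
  simp only [c4Roots]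
  push_cast at h2 ⊢
  linear_combination 16 * ((r' 0 : ℂ) + r' 1 + r' 2 + freyRootsR P 0 + freyRootsR P 1 +
    freyRootsR P 2) * h1 - 48 * h2

end Real

/-- The factor relating the discriminant of the quotient to that of the Frey curve. -/
noncomputable def veluFactor : Qb :=
  ∏ z ∈ absSet L.C, 256 * ((z - freyRoots P 0) * (z - freyRoots P 1) * (z - freyRoots P 2)) ^ 4

/-- If the line lies in the identity component everywhere then `veluFactor` is a rational number
of size at most `2 ^ (12 p)`. -/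
theorem exists_rat_veluFactor
    (hall : ∀ q : ℕ, q.Prime → ∀ A : ValuationSubring Qb, A.LiesOverPrime q →
      L.C ≤ freyGood P A) :
    ∃ M : ℚ, algebraMap ℚ Qb M = L.veluFactor ∧ |M| ≤ 2 ^ (12 * P.p) := by
  have := freyQbar_isElliptic P
  have he := freyRoots_two P
  have hfix : ∀ τ : GQ, τ L.veluFactor = L.veluFactor := by
    intro τ
    rw [veluFactor, map_prod]
    refine Finset.prod_bij' (fun z _ => τ z) (fun z _ => τ⁻¹ z) (fun _ => L.gal_mem_absSet τ)
      (fun _ => L.gal_mem_absSet τ⁻¹) ?_ ?_ ?_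
    · exact fun z _ => τ.symm_apply_apply z
    · exact fun z _ => τ.apply_symm_apply z
    · intro z _
      simp [map_ofNat, gal_freyRoots τ]
  obtain ⟨M, hM⟩ := FreyReducible.exists_rat_of_fixed hfix
  have hne : L.veluFactor ≠ 0 := Finset.prod_ne_zero_iff.mpr fun z hz => by
    refine mul_ne_zero (by norm_num) (pow_ne_zero _ (mul_ne_zero (mul_ne_zero ?_ ?_) ?_)) <;>
      exact sub_ne_zero.mpr fun hh => roots_notMem he L.C L.odd_card _ (hh ▸ hz)
  have hM0 : M ≠ 0 := fun h => hne (by rw [← hM, h, map_zero])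
  have hbd : |M| ≤ 2 ^ (24 * (absSet L.C).card) := by
    refine abs_le_two_pow_of_places hM0 fun q hq => ?_
    obtain ⟨A, -, hA, -⟩ := GaloisBasics.exists_place_isFrobeniusAt hq
    refine ⟨A, hA, ?_⟩
    have hpw : ((2 : Qb) ^ (24 * (absSet L.C).card)) = ∏ _z ∈ absSet L.C, (2 : Qb) ^ 24 := by
      rw [Finset.prod_const, ← pow_mul]
    rw [hM, veluFactor, hpw, map_prod, map_prod]
    refine Finset.prod_le_prod (fun _ _ => zero_le) fun z hz => ?_
    obtain ⟨S, h0, hS, rfl⟩ := L.exists_of_mem_absSet hz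
    have hg := one_le_val_gc hq hA h0 (L.nsmul_eq_zero hS) (hall q hq A hA hS)
    have hsq : (4 * xc S - freyRoots P 0) * (4 * xc S - freyRoots P 1) *
        (4 * xc S - freyRoots P 2) = 16 * gc S ^ 2 := by
      rw [cubic_eq he]
      rcases S with _ | ⟨x, y, h⟩
      · exact absurd rfl h0
      · rw [xc_some, gc_some, gc_sq h]
    rw [hsq, show (256 : Qb) * (16 * gc S ^ 2) ^ 4 = 2 ^ 24 * gc S ^ 8 by ring, map_mul,
      map_pow _ (gc S) 8]
    exact le_mul_of_one_le_right' (one_le_pow₀ hg)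
  refine ⟨M, hM, hbd.trans (pow_le_pow_right₀ (by norm_num) ?_)⟩
  have := card_absSet L.C L.odd_card
  rw [L.card_C] at this
  omega

/-- The discriminant of the quotient over `ℝ`. -/
lemma discRoots_quotient_real {ι : Qb →+* ℂ} {r' : Fin 3 → ℝ}
    (hr' : ∀ i, ι (quotRoots L.C (freyRoots P) i) = (r' i : ℂ)) {M : ℚ}
    (hM : algebraMap ℚ Qb M = L.veluFactor) :
    discRoots r' * (M : ℝ) = discRoots (freyRootsR P) ^ P.p := by
  have := freyQbar_isElliptic P
  rw [← Complex.ofReal_inj]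
  have h := congrArg ι (discRoots_velu (freyRoots_two P) L.C L.odd_card)
  rw [L.card_C, ← veluFactor, ← hM, map_mul, map_pow, eq_ratCast, map_ratCast] at h
  simp only [discRoots, map_mul, map_pow, map_sub, map_ofNat, map_freyRoots, hr'] at h
  simp only [discRoots]
  push_cast
  exact h

include L in
omit [Finite L.C] in
/-- `6 ≤ |abc|`, as `2` and `3` divide `abc`. -/
lemma six_le_abs_abc (hp : 11 ≤ P.p) : 6 ≤ |((P.a * P.b * P.c : ℤ) : ℝ)| := by
  have h6 : (6 : ℤ) ∣ P.a * P.b * P.c := by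
    have := IsCoprime.mul_dvd (show IsCoprime (2 : ℤ) 3 by norm_num) P.two_dvd_abc
        (L.three_dvd hp)
    simpa using this
  have := Int.le_of_dvd (abs_pos.mpr P.habc0) ((dvd_abs _ _).mpr h6)
  rw [← Int.cast_abs]
  exact_mod_cast this

end CofixedLine

/-- The roots are bounded by `|abc| ^ p`. -/
lemma abs_freyRootsR_le (i : Fin 3) :
    |freyRootsR P i| ≤ |((P.a * P.b * P.c : ℤ) : ℝ)| ^ P.p := by
  have hone : ∀ n : ℤ, n ≠ 0 → (1 : ℝ) ≤ |(n : ℝ)| := fun n hn => by
    rw [← Int.cast_abs]; exact_mod_cast Int.one_le_abs hn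
  push_cast
  rw [abs_mul, abs_mul]
  fin_cases i
  · show |(0 : ℝ)| ≤ _
    rw [abs_zero]; positivity
  · show |(P.a : ℝ) ^ P.p| ≤ _
    rw [abs_pow]
    exact pow_le_pow_left₀ (abs_nonneg _)
      (le_trans (le_mul_of_one_le_right (abs_nonneg _) (hone _ P.hb0))
        (le_mul_of_one_le_right (by positivity) (hone _ P.hc0))) _
  · show |-(P.b : ℝ) ^ P.p| ≤ _
    rw [abs_neg, abs_pow]
    exact pow_le_pow_left₀ (abs_nonneg _)
      (le_trans (le_mul_of_one_le_left (abs_nonneg _) (hone _ P.ha0))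
        (le_mul_of_one_le_right (by positivity) (hone _ P.hc0))) _

/-- The discriminant of the Frey cubic is `16 |abc| ^ (2p)`. -/
lemma discRoots_freyRootsR :
    discRoots (freyRootsR P) = 16 * |((P.a * P.b * P.c : ℤ) : ℝ)| ^ (2 * P.p) := by
  have hC : (P.c : ℝ) ^ P.p = (P.a : ℝ) ^ P.p + (P.b : ℝ) ^ P.p := by
    exact_mod_cast congrArg (Int.cast (R := ℝ)) P.hFLT.symm
  rw [discRoots, pow_mul, sq_abs, ← pow_mul, mul_comm 2 P.p, pow_mul]
  simp only [freyRootsR, Matrix.cons_val]
  push_cast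
  simp only [mul_pow, hC]
  ring

namespace CofixedLine

/-- **Height contradiction on the Frey curve.** A cofixed line is singular at some place. -/
theorem false_of_all_good (L : CofixedLine P) (hp : 11 ≤ P.p)
    (hall : ∀ q : ℕ, q.Prime → ∀ A : ValuationSubring Qb, A.LiesOverPrime q →
      L.C ≤ freyGood P A) : False := by
  have := L.finite_C
  obtain ⟨ι, hι, hι'⟩ := L.exists_real_embedding
  obtain ⟨M, hM, hMbd⟩ := L.exists_rat_veluFactor hall
  set r' : Fin 3 → ℝ := fun i => (ι (quotRoots L.C (freyRoots P) i)).re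
  have hdisc := L.discRoots_quotient_real (r' := r') hι' hM
  have hc4 := c4Roots_quotient hι (r' := r') hι'
  refine no_large_quotient_disc hp (L.six_le_abs_abc hp) (abs_freyRootsR_le 0)
    (abs_freyRootsR_le 1) (abs_freyRootsR_le 2) (L.reAbs ι) (card_reAbs hι)
    (fun _ hX => dblX_mem_reAbs hι hX) (fun _ hX => outside_roots hι hX) (Δ₁ := discRoots r') ?_ ?_
  · rw [← hc4]
    simp only [discRoots, c4Roots]
    nlinarith [sq_nonneg (2 * (r' 0 + r' 1 + r' 2) ^ 3 - 9 * (r' 0 + r' 1 + r' 2) *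
      (r' 0 * r' 1 + r' 1 * r' 2 + r' 2 * r' 0) + 27 * (r' 0 * r' 1 * r' 2))]
  · rw [← discRoots_freyRootsR, ← hdisc]
    have hnn : 0 ≤ discRoots r' := mul_nonneg (by norm_num) (sq_nonneg _)
    refine mul_le_mul_of_nonneg_left ((le_abs_self _).trans ?_) hnn
    rw [← Rat.cast_abs]
    exact_mod_cast hMbd

end CofixedLine

end Fermat.Agent.FreyHeight
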