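import Fermat.Agent.FreyUnramified.Local

/-!
# Torsion on a nodal fibre: every coset of a bad line meets the smooth locus

On `Y² = X³ + c₂X² + c₄X` with `c₂` a unit and `c₄ ≠ 0` (any residue characteristic; a point is
singular iff `v X < v 4`), if a point `P` of odd prime order has singular reduction then every
other point of order `p` can be moved to the smooth locus by a multiple of `P`.
-/

set_option autoImplicit false

namespace Fermat.Agent.FreyHeight

open Fermat.Agent.FreyUnramified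

universe u v

variable {K : Type u} [Field K] {G : Type v} [AddCommGroup G] (C : Cubic K G)
  {A : ValuationSubring K}


section

variable (G₀ : AddSubgroup G) {p : ℕ}

lemma val_four_le_one : A.valuation (4 : K) ≤ 1 :=
  (A.valuation_le_one_iff _).mpr (natCast_mem A 4)

lemma val_four_le_two : A.valuation (4 : K) ≤ A.valuation (2 : K) := by
  rw [show (4 : K) = 2 * 2 by norm_num, map_mul]
  exact mul_le_of_le_one_left' ((A.valuation_le_one_iff _).mpr (natCast_mem A 2))

lemma mem_of_two_mul_mem (hp : p.Prime) (hp2 : p ≠ 2) {P : G} (hPp : p • P = 0)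
    (h : P + P ∈ G₀) : P ∈ G₀ := by
  obtain ⟨k, hk⟩ := hp.odd_of_ne_two hp2
  have : P = (k + 1) • (P + P) := by
    rw [← two_nsmul, ← mul_nsmul', show (k + 1) * 2 = p + 1 by omega, succ_nsmul, hPp, zero_add]
  rw [this]
  exact nsmul_mem h _

/-- A `p`-torsion point lies in a subgroup containing a prime-to-`p` multiple of it. -/
lemma mem_of_nsmul_mem (hp : p.Prime) {P : G} (hPp : p • P = 0) {k : ℤ}
    (hk : ¬ (p : ℤ) ∣ k) (h : k • P ∈ G₀) : P ∈ G₀ := by
  obtain ⟨a, b, hab⟩ := ((Nat.prime_iff_prime_int.mp hp).coprime_iff_not_dvd).mpr hk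
  have : P = b • (k • P) := by
    calc P = (1 : ℤ) • P := (one_zsmul P).symm
      _ = a • ((p : ℤ) • P) + b • (k • P) := by rw [← hab, add_smul, mul_smul, mul_smul]
      _ = _ := by rw [natCast_zsmul, hPp, zsmul_zero, zero_add]
  rw [this]
  exact zsmul_mem h _

lemma lt_of_sub_lt {Γ : Type*} [AddCommGroup Γ] [LinearOrder Γ] [IsOrderedAddMonoid Γ]
    {x y : Γ} (s : Γ) (h : x - s < y - s) : x < y :=
  lt_of_add_lt_add_right (a := -s) (by rwa [sub_eq_add_neg, sub_eq_add_neg] at h)

variable (hp : p.Prime) (hp2 : p ≠ 2) (h40 : (4 : K) ≠ 0) (hc2 : A.valuation C.c2 = 1)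
  (hc40 : C.c4 ≠ 0)
  (hgood : ∀ P, P ≠ 0 → (P ∈ G₀ ↔ A.valuation (4 : K) ≤ A.valuation (C.X P)))

include hp hp2 h40 hc2 hc40 hgood

/-- A singular point is strictly between the node and the depth of the fibre. -/
lemma singular_range {P : G} (hP : P ≠ 0) (hPp : p • P = 0) (hbad : P ∉ G₀) :
    A.valuation (C.X P) < A.valuation (4 : K) ∧
      A.valuation C.c4 < A.valuation (C.X P) * A.valuation (4 : K) := by
  have hlt : A.valuation (C.X P) < A.valuation (4 : K) := lt_of_not_ge fun h => hbad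
      ((hgood P hP).mpr h)
  refine ⟨hlt, lt_of_not_ge fun hdeep => hbad (mem_of_two_mul_mem G₀ hp hp2 hPp ?_)⟩
  have h2ne : P + P ≠ 0 := by
    rw [← two_nsmul]; exact nsmul_ne_zero_of_lt hp hP hPp (by omega) (by have := hp.two_le; omega)
  rw [hgood _ h2ne]
  set a := A.valuation (C.X P)
  set f := A.valuation (4 : K)
  set c := A.valuation C.c4
  have hf0 : 0 < f := (Valuation.pos_iff _).mpr h40
  have hc0 : 0 < c := (Valuation.pos_iff _).mpr hc40
  have hf1 : f ≤ 1 := val_four_le_one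
  have hac : a ^ 2 < c := by
    rcases (zero_le : 0 ≤ a).eq_or_lt with ha | ha
    · rw [← ha, zero_pow two_ne_zero]; exact hc0
    · calc a ^ 2 = a * a := sq a
        _ < a * f := mul_lt_mul_of_pos_left hlt ha
        _ ≤ c := hdeep
  have hnum : A.valuation (C.X P ^ 2 - C.c4) = c :=
    Valuation.map_sub_eq_of_lt_right _ (by rw [map_pow]; exact hac)
  have hY : A.valuation (C.Y P ^ 2) * f ^ 2 ≤ c ^ 2 := by
    have ha1 : a ≤ 1 := hlt.le.trans hf1
    have haf : (a * f) ^ 2 ≤ c ^ 2 := pow_le_pow_left₀ zero_le hdeep 2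
    calc A.valuation (C.Y P ^ 2) * f ^ 2 ≤ max (a ^ 2) (c * a) * f ^ 2 := by
          refine mul_le_mul_left ?_ _
          rw [C.eqn P hP]
          refine Valuation.map_add_le _ (Valuation.map_add_le _ ?_ ?_) ?_
          · rw [map_pow]; exact le_max_of_le_left (pow_le_pow_right_of_le_one' ha1 (by norm_num))
          · rw [map_mul, hc2, one_mul, map_pow]; exact le_max_left _ _
          · rw [map_mul]; exact le_max_right _ _
      _ ≤ c ^ 2 := by
          rcases le_total (a ^ 2) (c * a) with hm | hm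
          · rw [max_eq_right hm, mul_assoc, sq f, ← mul_assoc a, sq c]
            exact mul_le_mul_right (le_trans (mul_le_of_le_one_right' hf1) hdeep) _
          · rw [max_eq_left hm, ← mul_pow]; exact haf
  have e := congrArg A.valuation (C.X_two_mul hP h2ne)
  rw [map_mul, map_mul, map_pow, map_pow _ (C.X P ^ 2 - C.c4), hnum] at e
  have hY' : A.valuation (C.Y P) ^ 2 * f ^ 2 ≤ c ^ 2 := by rwa [map_pow] at hY
  by_contra hlt'
  push Not at hlt'
  have : c ^ 2 < c ^ 2 := by
    rcases (zero_le : 0 ≤ A.valuation (C.Y P) ^ 2).eq_or_lt with hy | hy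
    · rw [← hy, mul_zero, mul_zero] at e
      exact absurd e.symm (pow_pos hc0 2).ne'
    calc c ^ 2 = A.valuation (C.X (P + P)) * (f * A.valuation (C.Y P) ^ 2) := e.symm
      _ < f * (f * A.valuation (C.Y P) ^ 2) := mul_lt_mul_of_pos_right hlt' (mul_pos hf0 hy)
      _ = A.valuation (C.Y P) ^ 2 * f ^ 2 := by rw [← mul_assoc, ← sq, mul_comm]
      _ ≤ c ^ 2 := hY'
  exact lt_irrefl _ this

/-- Two singular points of the same depth: their sum or difference is smooth. -/
lemma add_mem_or_sub_mem {P R : G} (hP : P ≠ 0) (hR : R ≠ 0) (hPp : p • P = 0)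
    (hbad : P ∉ G₀) (hX : C.X P ≠ C.X R) (hv : A.valuation (C.X R) = A.valuation (C.X P)) :
    P + R ∈ G₀ ∨ P - R ∈ G₀ := by
  obtain ⟨hlt, hgt⟩ := singular_range C G₀ hp hp2 h40 hc2 hc40 hgood hP hPp hbad
  have hf0 : 0 < A.valuation (4 : K) := (Valuation.pos_iff _).mpr h40
  have hb0 : 0 < A.valuation (C.X P) := by
    rcases (zero_le : 0 ≤ A.valuation (C.X P)).eq_or_lt with h | h
    · rw [← h, zero_mul] at hgt; exact absurd hgt (not_lt.mpr zero_le)
    · exact h
  have h20 : (2 : K) ≠ 0 := fun h => h40 (by linear_combination (2 : K) * h)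
  have h24 : A.valuation (4 : K) ≤ A.valuation (2 : K) := val_four_le_two
  set a := C.X P
  set b := C.X R
  have hmain : A.valuation (2 * C.c2 * (a * b)) = A.valuation (2 : K) * A.valuation a ^ 2 := by
    rw [map_mul, map_mul, map_mul, hc2, mul_one, hv, sq]
  have hsmall : A.valuation ((a + b) * (a * b + C.c4)) <
      A.valuation (2 : K) * A.valuation a ^ 2 := by
    have hab : A.valuation (a + b) ≤ A.valuation a := Valuation.map_add_le _ le_rfl hv.le
    rw [map_mul, sq, ← mul_assoc, mul_comm (A.valuation (2 : K)), mul_assoc]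
    refine lt_of_le_of_lt (mul_le_mul_left hab _) (mul_lt_mul_of_pos_left ?_ hb0)
    refine Valuation.map_add_lt _ ?_ ?_
    · rw [map_mul, hv]; exact mul_lt_mul_of_pos_right (hlt.trans_le h24) hb0
    · rw [mul_comm]; exact hgt.trans_le (mul_le_mul_right h24 _)
  have e := congrArg A.valuation (C.X_add_add_sub hP hR hX)
  have hnum : A.valuation ((a + b) * (a * b + C.c4) + 2 * C.c2 * (a * b)) =
      A.valuation (2 : K) * A.valuation a ^ 2 := by
    rw [Valuation.map_add_eq_of_lt_right _ (by rwa [hmain]), hmain]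
  rw [map_mul, map_pow, map_mul, hnum, ← mul_assoc, ← map_mul,
    show (2 : K) * 2 = 4 by norm_num] at e
  have hd : A.valuation (b - a) ≤ A.valuation a := Valuation.map_sub_le _ hv.le le_rfl
  by_contra hcon
  push Not at hcon
  have hn1 := C.add_ne_zero_of_X_ne hX
  have hn2 := C.sub_ne_zero_of_X_ne hX
  have hs : A.valuation (C.X (P + R) + C.X (P - R)) < A.valuation (4 : K) :=
    Valuation.map_add_lt _ (lt_of_not_ge fun h => hcon.1 ((hgood _ hn1).mpr h))
      (lt_of_not_ge fun h => hcon.2 ((hgood _ hn2).mpr h))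
  exact (lt_of_le_of_lt (mul_le_mul_right (pow_le_pow_left₀ zero_le hd 2) _)
    (mul_lt_mul_of_pos_right hs (pow_pos hb0 2))).ne e

/-- Component index: on a bad point of order `p` the depth is `2 m d / p`, `0 < 2 m < p`. -/
lemma exists_index {P : G} (hP : P ≠ 0) (hPp : p • P = 0) (hbad : P ∉ G₀) :
    ∃ m : ℕ, 1 ≤ m ∧ 2 * m < p ∧ (p : ℤ) • (ordA A (C.X P) - ordA A (4 : K)) =
      ((m : ℤ) + m) • (ordA A C.c4 - (ordA A (4 : K) + ordA A (4 : K))) := by
  have hp3 : 3 ≤ p := by have := hp.two_le; omega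
  have hsing : ∀ k, 1 ≤ k → k < p →
      A.valuation (C.X (k • P)) < A.valuation (4 : K) ∧
        A.valuation C.c4 < A.valuation (C.X (k • P)) * A.valuation (4 : K) ∧ C.X (k • P) ≠ 0 := by
    intro k hk hkp
    have h0 := nsmul_ne_zero_of_lt hp hP hPp (by omega : 0 < k) hkp
    obtain ⟨h1, h2⟩ := singular_range C G₀ hp hp2 h40 hc2 hc40 hgood h0
      (by rw [smul_comm, hPp, smul_zero]) fun h => hbad (mem_of_nsmul_mem G₀ hp hPp (k := (k : ℤ))
        (fun hd => absurd (Int.le_of_dvd (by omega) hd) (by omega)) (by rwa [natCast_zsmul]))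
    exact ⟨h1, h2, fun h => by simp [h] at h2⟩
  set o := ordA A (4 : K)
  set d := ordA A C.c4 - (o + o)
  set b := ordA A (C.X P) - o
  set F : ℕ → Additive (A.ValueGroup)ˣ := fun k => ordA A (C.X (k • P)) - o
  have ord_lt : ∀ {x y : K}, x ≠ 0 → y ≠ 0 → ordA A x < ordA A y → A.valuation y < A.valuation x :=
    fun hx hy h => (ordA_lt_ordA hx hy).mp h
  have hsub : ∀ z z' : K, z ≠ 0 → z' ≠ 0 → z - z' ≠ 0 →
      (ordA A z < ordA A z' → ordA A (z - z') = ordA A z) ∧
      (ordA A z' < ordA A z → ordA A (z - z') = ordA A z') ∧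
      (ordA A z = ordA A z' → ordA A z' ≤ ordA A (z - z')) := by
    intro z z' hz hz' hzz'
    refine ⟨fun h => ?_, fun h => ?_, fun h => ?_⟩
    · rw [ordA_eq_ordA hzz' hz]
      exact Valuation.map_sub_eq_of_lt_left _ (ord_lt hz hz' h)
    · rw [ordA_eq_ordA hzz' hz']
      exact Valuation.map_sub_eq_of_lt_right _ (ord_lt hz' hz h)
    · rw [ordA_le_ordA hz' hzz']
      exact Valuation.map_sub_le _ ((ordA_eq_ordA hz hz').mp h).le le_rfl
  obtain ⟨hx1, hx2, hx0⟩ : A.valuation (C.X P) < A.valuation (4 : K) ∧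
      A.valuation C.c4 < A.valuation (C.X P) * A.valuation (4 : K) ∧
      C.X P ≠ 0 := by simpa using hsing 1 le_rfl (by omega)
  have hrange : ∀ k, 1 ≤ k → k < p → 0 < F k ∧ F k < d := by
    intro k hk hkp
    obtain ⟨h1, h2, h3⟩ := hsing k hk hkp
    have a1 : o < ordA A (C.X (k • P)) := (ordA_lt_ordA h40 h3).mpr h1
    have a2 : ordA A (C.X (k • P)) + o < ordA A C.c4 := by
      rw [← ordA_mul h3 h40, ordA_lt_ordA (mul_ne_zero h3 h40) hc40, map_mul]; exact h2
    refine ⟨sub_pos.mpr a1, ?_⟩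
    simp only [F, d]
    rw [sub_lt_sub_iff]
    calc ordA A (C.X (k • P)) + (o + o) = (ordA A (C.X (k • P)) + o) + o := (add_assoc _ _ _).symm
      _ < ordA A C.c4 + o := by gcongr
  have h2ne : P + P ≠ 0 := by
    rw [← two_nsmul]; exact nsmul_ne_zero_of_lt hp hP hPp (by omega) (by omega)
  obtain ⟨m, hm⟩ := component_recursion p hp3 b d F hrange (by simp [F, b])
    (by
      simp only [F, b]
      congr 2
      have : (p - 1) • P = -P := eq_neg_of_add_eq_zero_left (by
        rw [← succ_nsmul, show p - 1 + 1 = p by omega, hPp])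
      rw [this, C.X_neg])
    (by
      have hY0 := C.Y_ne_zero hP h2ne
      have hX2 : C.X (2 • P) ≠ 0 := (hsing 2 (by omega) (by omega)).2.2
      have e := C.X_two_mul hP h2ne
      rw [← two_nsmul] at e
      have hl := mul_ne_zero hX2 (mul_ne_zero h40 (pow_ne_zero 2 hY0))
      have hn : C.X P ^ 2 - C.c4 ≠ 0 := fun h0 => hl (by rw [e, h0]; ring)
      have hY : ordA A (C.Y P ^ 2) = ordA A (C.X P) + ordA A (C.X P) := by
        rw [← ordA_mul hx0 hx0, ordA_eq_ordA (pow_ne_zero 2 hY0) (mul_ne_zero hx0 hx0),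
          C.eqn P hP, map_mul, ← sq]
        have hp0 : 0 < A.valuation (C.X P) := (Valuation.pos_iff _).mpr hx0
        have hmid : A.valuation (C.c2 * C.X P ^ 2) = A.valuation (C.X P) ^ 2 := by
          rw [map_mul, hc2, one_mul, map_pow]
        have h3 : A.valuation (C.X P ^ 3) < A.valuation (C.X P) ^ 2 := by
          rw [map_pow, pow_succ]
          exact mul_lt_of_lt_one_right (pow_pos hp0 2) (hx1.trans_le val_four_le_one)
        have h1 : A.valuation (C.c4 * C.X P) < A.valuation (C.X P) ^ 2 := by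
          rw [map_mul, sq]
          exact mul_lt_mul_of_pos_right
            (hx2.trans_le (mul_le_of_le_one_right' val_four_le_one)) hp0
        rw [Valuation.map_add_eq_of_lt_left _ (by
          rwa [Valuation.map_add_eq_of_lt_right _ (by rwa [hmid]), hmid]),
          Valuation.map_add_eq_of_lt_right _ (by rwa [hmid]), hmid]
      have ho := congrArg (ordA A) e
      rw [ordA_mul hX2 (mul_ne_zero h40 (pow_ne_zero 2 hY0)), ordA_mul h40 (pow_ne_zero 2 hY0),
        sq (C.X P ^ 2 - C.c4), ordA_mul hn hn, hY] at ho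
      obtain ⟨g1, g2, g3⟩ := hsub _ _ (pow_ne_zero 2 hx0) hc40 hn
      rw [sq (C.X P), ordA_mul hx0 hx0] at g1 g2 g3
      rw [sq (C.X P)] at ho
      simp only [F, b, d]
      refine ⟨ordA A (C.X P * C.X P - C.c4) - (o + o), ?_, fun h => ?_, fun h => ?_, fun h => ?_⟩
      · rw [eq_sub_of_add_eq ho]; abel
      · rw [g1 (lt_of_sub_lt (o + o) (by convert h using 1; abel))]; abel
      · rw [g2 (lt_of_sub_lt (o + o) (by convert h using 1; abel))]
      · exact sub_le_sub_right (g3 ((sub_left_inj (a := o + o)).mp (by rw [← h]; abel))) _)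
    (by
      intro k hk hkp
      obtain ⟨-, -, hz⟩ := hsing k (by omega) (by omega)
      have hne' : C.X (k • P) ≠ C.X P := X_ne_of_ne C hp hP hPp hk hkp
      have e := C.X_add_mul_sub (nsmul_ne_zero_of_lt hp hP hPp (by omega) (by omega)) hP hne'
      have eminus : k • P - P = (k - 1) • P := by
        rw [sub_eq_iff_eq_add, ← succ_nsmul]; congr 1; omega
      rw [← succ_nsmul, eminus] at e
      have hp1 := (hsing (k + 1) (by omega) (by omega)).2.2
      have hm1 := (hsing (k - 1) (by omega) (by omega)).2.2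
      have hd0 : C.X (k • P) - C.X P ≠ 0 := sub_ne_zero.mpr hne'
      have hd0' : C.X P - C.X (k • P) ≠ 0 := sub_ne_zero.mpr (Ne.symm hne')
      have hn : C.X (k • P) * C.X P - C.c4 ≠ 0 := fun h0 =>
        mul_ne_zero (mul_ne_zero hp1 hm1) (pow_ne_zero 2 hd0') (by rw [e, h0]; ring)
      have ho := congrArg (ordA A) e
      rw [sq (C.X (k • P) * C.X P - C.c4), ordA_mul hn hn, sq (C.X P - C.X (k • P)),
        ordA_mul (mul_ne_zero hp1 hm1) (mul_ne_zero hd0' hd0'), ordA_mul hp1 hm1,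
        ordA_mul hd0' hd0', (ordA_eq_ordA hd0' hd0).mpr (Valuation.map_sub_swap _ _ _)] at ho
      obtain ⟨g1, g2, g3⟩ := hsub _ _ (mul_ne_zero hz hx0) hc40 hn
      obtain ⟨i1, i2, i3⟩ := hsub _ _ hz hx0 hd0
      rw [ordA_mul hz hx0] at g1 g2 g3
      simp only [F, b, d]
      refine ⟨ordA A (C.X (k • P) * C.X P - C.c4) - (o + o),
        ordA A (C.X (k • P) - C.X P) - o, ?_, fun h => ?_, fun h => ?_, fun h => ?_, fun h => ?_,
        fun h => ?_, fun h => ?_⟩
      · have ho' := eq_sub_of_add_eq ho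
        calc _ = (ordA A (C.X ((k + 1) • P)) + ordA A (C.X ((k - 1) • P))) - (o + o) := by abel
          _ = _ := by rw [ho']; abel
      · rw [g1 (lt_of_sub_lt (o + o) (by convert h using 1; abel))]; abel
      · rw [g2 (lt_of_sub_lt (o + o) (by convert h using 1; abel))]
      · exact sub_le_sub_right (g3 ((sub_left_inj (a := o + o)).mp (by rw [← h]; abel))) _
      · rw [i1 (lt_of_sub_lt o h)]
      · rw [i2 (lt_of_sub_lt o h)]
      · exact sub_le_sub_right (i3 (sub_left_inj.mp h)) _)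
  obtain ⟨hb0, hbd⟩ : 0 < b ∧ b < d := by simpa [F, b] using hrange 1 le_rfl (by omega)
  have hd : 0 < d := hb0.trans hbd
  have hpb : 0 < (p : ℤ) • b := zsmul_pos hb0 (by omega)
  have hpbd : (p : ℤ) • b < (p : ℤ) • d := zsmul_lt_zsmul_right (by omega) hbd
  rw [hm] at hpb hpbd
  have hmpos : 0 < m + m := (zsmul_lt_zsmul_iff_left hd).mp (by rwa [zero_zsmul])
  have hmlt : m + m < (p : ℤ) := (zsmul_lt_zsmul_iff_left hd).mp hpbd
  refine ⟨m.toNat, by omega, by omega, ?_⟩
  rw [Int.toNat_of_nonneg (by omega)]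
  exact hm

/-- **Pigeonhole.** If `P` is singular then some translate `R + k P` is smooth. -/
theorem exists_add_zsmul_mem {P R : G} (hP : P ≠ 0) (hPp : p • P = 0) (hbad : P ∉ G₀)
    (hRp : p • R = 0) (hind : ∀ k : ℤ, R ≠ k • P) : ∃ k : ℤ, R + k • P ∈ G₀ := by
  by_cases hRgood : R ∈ G₀
  · exact ⟨0, by simpa using hRgood⟩
  have hR : R ≠ 0 := fun h => hind 0 (by rw [h, zero_zsmul])
  have hp3 : 3 ≤ p := by have := hp.two_le; omega
  obtain ⟨n, hn⟩ := hp.odd_of_ne_two hp2
  have hmul : ∀ k ∈ Finset.Icc 1 n, k • P ≠ 0 ∧ p • (k • P) = 0 ∧ k • P ∉ G₀ := by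
    intro k hk
    rw [Finset.mem_Icc] at hk
    exact ⟨nsmul_ne_zero_of_lt hp hP hPp (by omega) (by omega),
      by rw [smul_comm, hPp, smul_zero], fun h => hbad (mem_of_nsmul_mem G₀ hp hPp (k := (k : ℤ))
        (fun hd => absurd (Int.le_of_dvd (by omega) hd) (by omega)) (by rwa [natCast_zsmul]))⟩
  have hidx : ∀ S : G, S ≠ 0 → p • S = 0 → S ∉ G₀ → C.X S ≠ 0 := by
    intro S hS hSp hSb h
    have := (singular_range C G₀ hp hp2 h40 hc2 hc40 hgood hS hSp hSb).2
    simp [h] at this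
  choose f hf using fun k : Finset.Icc 1 n =>
    exists_index C G₀ hp hp2 h40 hc2 hc40 hgood (hmul k.1 k.2).1 (hmul k.1 k.2).2.1
      (hmul k.1 k.2).2.2
  have same : ∀ S T : G, S ≠ 0 → T ≠ 0 → p • S = 0 → p • T = 0 → S ∉ G₀ → T ∉ G₀ →
      (p : ℤ) • (ordA A (C.X S) - ordA A (4 : K)) = (p : ℤ) • (ordA A (C.X T) - ordA A (4 : K)) →
      A.valuation (C.X T) = A.valuation (C.X S) := by
    intro S T hS hT hSp hTp hSb hTb h
    have := zsmul_right_injective (G := Additive (A.ValueGroup)ˣ) (by omega : (p : ℤ) ≠ 0) h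
    exact ((ordA_eq_ordA (hidx S hS hSp hSb) (hidx T hT hTp hTb)).mp (sub_left_inj.mp this)).symm
  have hinj : Function.Injective f := by
    intro j k hjk
    by_contra hne
    have hne' : j.1 ≠ k.1 := fun h => hne (Subtype.ext h)
    have hjr := Finset.mem_Icc.mp j.2
    have hkr := Finset.mem_Icc.mp k.2
    have hv := same _ _ (hmul _ j.2).1 (hmul _ k.2).1 (hmul _ j.2).2.1 (hmul _ k.2).2.1
      (hmul _ j.2).2.2 (hmul _ k.2).2.2 (by rw [(hf j).2.2, (hf k).2.2, hjk])
    have hX : C.X (j.1 • P) ≠ C.X (k.1 • P) := by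
      intro h
      rcases C.eq_or_eq_neg (hmul _ j.2).1 (hmul _ k.2).1 h with h | h
      · refine smul_ne_zero_of_prime hp hP hPp ((j.1 : ℤ) - k.1) ?_
          (by rw [sub_smul, natCast_zsmul, natCast_zsmul, h, sub_self])
        exact fun hd => absurd (Int.eq_zero_of_abs_lt_dvd hd (by rw [abs_lt]; omega)) (by omega)
      · refine smul_ne_zero_of_prime hp hP hPp ((j.1 : ℤ) + k.1) ?_
          (by rw [add_smul, natCast_zsmul, natCast_zsmul, h, neg_add_cancel])
        exact fun hd => absurd (Int.eq_zero_of_abs_lt_dvd hd (by rw [abs_lt]; omega)) (by omega)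
    rcases add_mem_or_sub_mem C G₀ hp hp2 h40 hc2 hc40 hgood (hmul _ j.2).1 (hmul _ k.2).1
      (hmul _ j.2).2.1 (hmul _ j.2).2.2 hX hv with h | h
    · refine hbad (mem_of_nsmul_mem G₀ hp hPp (k := (j.1 : ℤ) + k.1) ?_
        (by rwa [add_smul, natCast_zsmul, natCast_zsmul]))
      exact fun hd => absurd (Int.eq_zero_of_abs_lt_dvd hd (by rw [abs_lt]; omega)) (by omega)
    · refine hbad (mem_of_nsmul_mem G₀ hp hPp (k := (j.1 : ℤ) - k.1) ?_
        (by rwa [sub_smul, natCast_zsmul, natCast_zsmul]))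
      exact fun hd => absurd (Int.eq_zero_of_abs_lt_dvd hd (by rw [abs_lt]; omega)) (by omega)
  obtain ⟨m, hm1, hm2, hm⟩ :=
    exists_index C G₀ hp hp2 h40 hc2 hc40 hgood hR hRp hRgood
  have himage : Finset.univ.image f = Finset.Icc 1 n := by
    refine Finset.eq_of_subset_of_card_le (fun x hx => ?_) ?_
    · obtain ⟨k, -, rfl⟩ := Finset.mem_image.mp hx
      have := (hf k).1
      have := (hf k).2.1
      exact Finset.mem_Icc.mpr ⟨by omega, by omega⟩
    · rw [Finset.card_image_of_injective _ hinj, Finset.card_univ, Fintype.card_coe]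
  obtain ⟨k, -, hk⟩ : ∃ k ∈ Finset.univ, f k = m := by
    rw [← Finset.mem_image, himage, Finset.mem_Icc]; omega
  obtain ⟨hS0, hSp, hSb⟩ := hmul _ k.2
  have hv := same _ _ hS0 hR hSp hRp hSb hRgood (by rw [(hf k).2.2, hm, hk])
  have hX : C.X (k.1 • P) ≠ C.X R := by
    intro h
    rcases C.eq_or_eq_neg hS0 hR h with h | h
    · exact hind k.1 (by rw [natCast_zsmul, h])
    · exact hind (-k.1) (by rw [neg_smul, natCast_zsmul, h, neg_neg])
  rcases add_mem_or_sub_mem C G₀ hp hp2 h40 hc2 hc40 hgood hS0 hR hSp hSb hX hv with h | h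
  · exact ⟨k.1, by rwa [natCast_zsmul, add_comm]⟩
  · refine ⟨-k.1, ?_⟩
    have := G₀.neg_mem h
    rwa [neg_sub, sub_eq_add_neg, ← natCast_zsmul, ← neg_smul] at this

end

end Fermat.Agent.FreyHeight
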