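import Fermat.Agent.FreyHeight.NodalPigeon
import Fermat.Agent.ECReduction.Hom

/-!
# Points with nonsingular reduction

The subgroup of points with nonsingular reduction, for a node lifting to a rational point of
order `2`.
-/

set_option autoImplicit false

namespace Fermat.Agent.FreyHeight

open WeierstrassCurve Fermat.Agent.ECReduction

universe u v

section Reduced

variable {k : Type v} [Field k] (F : WeierstrassCurve.Affine k)

/-- At a node `(r, s)` a point of the curve is nonsingular iff its abscissa is not `r`. -/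
lemma nonsingular_iff_ne_of_node {r s a b : k} (he : F.Equation r s)
    (hY : 2 * s + F.a₁ * r + F.a₃ = 0)
    (hX : F.a₁ * s - (3 * r ^ 2 + 2 * F.a₂ * r + F.a₄) = 0) (hab : F.Equation a b) :
    F.Nonsingular a b ↔ a ≠ r := by
  rw [WeierstrassCurve.Affine.equation_iff] at he
  rw [WeierstrassCurve.Affine.nonsingular_iff' a b,
    and_iff_right hab]
  rw [WeierstrassCurve.Affine.equation_iff] at hab
  constructor
  · rintro hns rfl
    have hb : b = s := by
      have : (b - s) ^ 2 = 0 := by linear_combination hab - he - (b - s) * hY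
      exact sub_eq_zero.mp (pow_eq_zero_iff (two_ne_zero) |>.mp this)
    subst hb
    rcases hns with h | h
    · exact h hX
    · exact h hY
  · intro hne
    by_contra hcon
    push Not at hcon
    obtain ⟨hx, hy⟩ := hcon
    apply hne
    have : (a - r) ^ 3 = 0 := by
      linear_combination 2 * (hab - he) - (b - s) * hy - (a - r) * hx - (b - s) * hY - (a - r) * hX
    exact sub_eq_zero.mp (pow_eq_zero_iff (by norm_num) |>.mp this)

end Reduced

variable {K : Type u} [Field K] {k : Type v} [Field k] {A : ValuationSubring K}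

/-- `(r, s)` is a point of order two of `E` lifting a node of the reduction at `A`. -/
structure NodeLift (A : ValuationSubring K) (E : WeierstrassCurve.Affine K) (r s : K) : Prop where
  r_mem : r ∈ A
  s_mem : s ∈ A
  eqn : E.Equation r s
  two : 2 * s + E.a₁ * r + E.a₃ = 0
  small : A.valuation (E.a₁ * s - (3 * r ^ 2 + 2 * E.a₂ * r + E.a₄)) < 1

variable {φ : A →+* k} [IsLocalHom φ] {E : WeierstrassCurve.Affine K}
  {F : WeierstrassCurve.Affine k} {r s : K}

/-- A point has nonsingular reduction iff it does not reduce to the node. -/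
lemma NodeLift.pointRed_iff (h : NodeLift A E r s) (hEF : CurveRed φ E F) {x y : K}
    (hxy : E.Nonsingular x y) :
    (∃ Q : F.Point, PointRed φ (Affine.Point.some x y hxy) Q) ↔ 1 ≤ A.valuation (x - r) := by
  by_cases hx : x ∈ A
  · have hx' := Red.of_mem φ hx
    have hy' := Red.of_mem φ (hEF.mem_Y hxy.1 hx)
    have hr' := Red.of_mem φ h.r_mem
    have hs' := Red.of_mem φ h.s_mem
    have hY : 2 * φ ⟨s, h.s_mem⟩ + F.a₁ * φ ⟨r, h.r_mem⟩ + F.a₃ = 0 :=
      ((((Red.ofNat φ 2).mul hs').add (hEF.a₁.mul hr')).add hEF.a₃).unique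
        ((Red.zero φ).congr_left h.two.symm)
    have hX : F.a₁ * φ ⟨s, h.s_mem⟩ -
        (3 * φ ⟨r, h.r_mem⟩ ^ 2 + 2 * F.a₂ * φ ⟨r, h.r_mem⟩ + F.a₄) = 0 :=
      ((hEF.a₁.mul hs').sub ((((Red.ofNat φ 3).mul (hr'.pow 2)).add
        (((Red.ofNat φ 2).mul hEF.a₂).mul hr')).add hEF.a₄)).valuation_lt_one_iff.mp h.small
    have key := nonsingular_iff_ne_of_node F (hEF.equation h.eqn hr' hs') hY hX
      (hEF.equation hxy.1 hx' hy')
    have hd := (hx'.sub hr').valuation_lt_one_iff
    constructor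
    · rintro ⟨Q, ⟨hx0, -⟩ | ⟨a, b, hn, ha, hb, -⟩⟩
      · exact absurd hx hx0
      · cases ha.unique hx'
        cases hb.unique hy'
        exact le_of_not_gt fun hlt => key.mp hn (sub_eq_zero.mp (hd.mp hlt))
    · intro hge
      refine ⟨_, pointRed_some hxy (key.mpr fun he => ?_) hx' hy'⟩
      exact (not_lt.mpr hge) (hd.mpr (sub_eq_zero.mpr he))
  · refine iff_of_true ⟨0, Or.inl ⟨hx, rfl⟩⟩ ?_
    refine le_of_not_gt fun hlt => hx ?_
    have := A.add_mem _ _ (A.mem_of_valuation_le_one _ hlt.le) h.r_mem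
    simpa using this

/-- The node criterion for `X = 4 (x - r)`. -/
lemma NodeLift.pointRed_iff_four (h : NodeLift A E r s) (hEF : CurveRed φ E F) (h4 : (4 : K) ≠ 0)
    {x y : K} (hxy : E.Nonsingular x y) :
    (∃ Q : F.Point, PointRed φ (Affine.Point.some x y hxy) Q) ↔
      A.valuation (4 : K) ≤ A.valuation (4 * (x - r)) := by
  rw [h.pointRed_iff hEF hxy, map_mul, le_mul_iff_one_le_right ((Valuation.pos_iff _).mpr h4)]

end Fermat.Agent.FreyHeight

namespace Fermat.Agent.FreyHeight

open Fermat.Agent.FreyUnramified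

universe u v

/-- Rescaling `X ↦ c² X`, `Y ↦ c³ Y`. -/
def scaleCubic {K : Type u} [Field K] {G : Type v} [AddCommGroup G] (C : Cubic K G) (c : K)
    (hc : c ≠ 0) : Cubic K G where
  c2 := c ^ 2 * C.c2
  c4 := c ^ 4 * C.c4
  X P := c ^ 2 * C.X P
  Y P := c ^ 3 * C.Y P
  eqn P hP := by linear_combination c ^ 6 * C.eqn P hP
  X_neg P := by rw [C.X_neg]
  Y_neg P := by rw [C.Y_neg, mul_neg]
  ext P Q hP hQ hX hY := C.ext P Q hP hQ (mul_left_cancel₀ (pow_ne_zero 2 hc) hX)
    (mul_left_cancel₀ (pow_ne_zero 3 hc) hY)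
  add P Q hP hQ hPQ := by
    obtain ⟨L, h1, h2, h3⟩ := C.add P Q hP hQ hPQ
    refine ⟨c * L, ?_, ?_, ?_⟩
    · linear_combination c ^ 3 * h1
    · linear_combination c ^ 4 * h2
    · linear_combination c ^ 2 * h3

end Fermat.Agent.FreyHeight
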