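import Mathlib.Data.Real.Basic
import Mathlib.Algebra.Order.BigOperators.Group.Finset
import Mathlib.Tactic.Positivity
import Mathlib.Tactic.Ring
import Mathlib.Tactic.NormNum
import Mathlib.Tactic.Linarith
import Mathlib.Tactic.FieldSimp
import Mathlib.Tactic.LinearCombination

/-!
# Real-place estimates for a cofixed line

The abscissae of a finite subgroup of odd order are bounded, hence so is `c₄` of the quotient.
-/

set_option autoImplicit false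

namespace Fermat.Agent.FreyHeight

open Finset

variable (e₁ e₂ e₃ : ℝ)

/-- The cubic `(x - e₁)(x - e₂)(x - e₃)`. -/
def cubic (x : ℝ) : ℝ := (x - e₁) * (x - e₂) * (x - e₃)

/-- The derivative of `cubic`. -/
def dcubic (x : ℝ) : ℝ :=
  (x - e₁) * (x - e₂) + (x - e₂) * (x - e₃) + (x - e₃) * (x - e₁)

/-- The abscissa of the double of a point with abscissa `x` on `y² = cubic x`. -/
noncomputable def dblX (x : ℝ) : ℝ :=
  dcubic e₁ e₂ e₃ x ^ 2 / (4 * cubic e₁ e₂ e₃ x) + (e₁ + e₂ + e₃) - 2 * x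

variable {e₁ e₂ e₃}

lemma dcubic_pos_of_lt {x : ℝ} (h₁ : x < e₁) (h₂ : x < e₂) (h₃ : x < e₃) :
    0 < dcubic e₁ e₂ e₃ x := by
  unfold dcubic
  nlinarith [mul_pos (sub_pos.2 h₁) (sub_pos.2 h₂), mul_pos (sub_pos.2 h₂) (sub_pos.2 h₃),
    mul_pos (sub_pos.2 h₃) (sub_pos.2 h₁)]

lemma dcubic_pos_of_gt {x : ℝ} (h₁ : e₁ < x) (h₂ : e₂ < x) (h₃ : e₃ < x) :
    0 < dcubic e₁ e₂ e₃ x := by
  unfold dcubic
  nlinarith [mul_pos (sub_pos.2 h₁) (sub_pos.2 h₂), mul_pos (sub_pos.2 h₂) (sub_pos.2 h₃),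
    mul_pos (sub_pos.2 h₃) (sub_pos.2 h₁)]

/-- `x(2P) - e₁` is a square divided by `4 f(x)`. -/
lemma dblX_sub_root {x : ℝ} (hx : cubic e₁ e₂ e₃ x ≠ 0) :
    dblX e₁ e₂ e₃ x - e₁ =
      ((x - e₁) ^ 2 - (e₁ - e₂) * (e₁ - e₃)) ^ 2 / (4 * cubic e₁ e₂ e₃ x) := by
  rw [eq_div_iff (mul_ne_zero four_ne_zero hx), dblX, sub_mul, sub_mul, add_mul,
    div_mul_cancel₀ _ (mul_ne_zero four_ne_zero hx)]
  unfold dcubic cubic
  ring

/-- Every abscissa in a finite set permuted by doubling lies outside the roots on one side. -/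
lemma outside_roots_of_dblX (s : Finset ℝ) (h0 : ∀ x ∈ s, cubic e₁ e₂ e₃ x ≠ 0)
    (hsurj : ∀ x ∈ s, ∃ z ∈ s, dblX e₁ e₂ e₃ z = x) {x : ℝ} (hx : x ∈ s) :
    (x < e₁ ∧ x < e₂ ∧ x < e₃) ∨ (e₁ < x ∧ e₂ < x ∧ e₃ < x) := by
  obtain ⟨z, hz, rfl⟩ := hsurj x hx
  have hne := h0 _ hx
  unfold cubic at hne
  simp only [ne_eq, mul_eq_zero, sub_eq_zero, not_or] at hne
  obtain ⟨⟨n₁, n₂⟩, n₃⟩ := hne
  have e : ∀ a b c : ℝ, cubic a b c z = cubic e₁ e₂ e₃ z → dblX a b c z = dblX e₁ e₂ e₃ z →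
      dblX e₁ e₂ e₃ z - a = ((z - a) ^ 2 - (a - b) * (a - c)) ^ 2 / (4 * cubic e₁ e₂ e₃ z) := by
    intro a b c h1 h2
    rw [← h2, ← h1, dblX_sub_root (by rw [h1]; exact h0 z hz)]
  have r₁ := e e₁ e₂ e₃ rfl rfl
  have r₂ := e e₂ e₃ e₁ (by unfold cubic; ring) (by unfold dblX dcubic cubic; ring)
  have r₃ := e e₃ e₁ e₂ (by unfold cubic; ring) (by unfold dblX dcubic cubic; ring)
  rcases lt_or_gt_of_ne (h0 z hz) with hneg | hpos
  · left
    have hd : ∀ u : ℝ, u ^ 2 / (4 * cubic e₁ e₂ e₃ z) ≤ 0 := fun u =>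
      div_nonpos_of_nonneg_of_nonpos (sq_nonneg u) (by linarith)
    exact ⟨lt_of_le_of_ne (sub_nonpos.mp (r₁ ▸ hd _)) n₁,
      lt_of_le_of_ne (sub_nonpos.mp (r₂ ▸ hd _)) n₂, lt_of_le_of_ne (sub_nonpos.mp (r₃ ▸ hd _)) n₃⟩
  · right
    have hd : ∀ u : ℝ, 0 ≤ u ^ 2 / (4 * cubic e₁ e₂ e₃ z) := fun u =>
      div_nonneg (sq_nonneg u) (by linarith)
    exact ⟨lt_of_le_of_ne (sub_nonneg.mp (r₁ ▸ hd _)) (Ne.symm n₁),
      lt_of_le_of_ne (sub_nonneg.mp (r₂ ▸ hd _)) (Ne.symm n₂),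
      lt_of_le_of_ne (sub_nonneg.mp (r₃ ▸ hd _)) (Ne.symm n₃)⟩

lemma prod_two_bounds {u v : ℝ} (hu : |u| ≤ 1 / 1000) (hv : |v| ≤ 1 / 1000) :
    (999 / 1000 : ℝ) ^ 2 ≤ (1 - u) * (1 - v) ∧ (1 - u) * (1 - v) ≤ (1001 / 1000 : ℝ) ^ 2 := by
  obtain ⟨l₁, r₁⟩ := abs_le.1 hu
  obtain ⟨l₂, r₂⟩ := abs_le.1 hv
  refine ⟨?_, ?_⟩ <;> rw [pow_two] <;>
    exact mul_le_mul (by linarith) (by linarith) (by linarith) (by linarith)

/-- For `|x|` large the doubled abscissa is about `x / 4`. -/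
lemma abs_dblX_bounds {C x : ℝ} (hC : 0 < C) (h₁ : |e₁| ≤ C) (h₂ : |e₂| ≤ C) (h₃ : |e₃| ≤ C)
    (hx : 1000 * C ≤ |x|) :
    |x| / 5 ≤ |dblX e₁ e₂ e₃ x| ∧ |dblX e₁ e₂ e₃ x| ≤ |x| / 3 := by
  have hx0 : x ≠ 0 := by
    intro h; rw [h, abs_zero] at hx; linarith
  have hxpos : 0 < |x| := abs_pos.2 hx0
  obtain ⟨u₁, rfl⟩ : ∃ u, e₁ = u * x := ⟨e₁ / x, (div_mul_cancel₀ _ hx0).symm⟩
  obtain ⟨u₂, rfl⟩ : ∃ u, e₂ = u * x := ⟨e₂ / x, (div_mul_cancel₀ _ hx0).symm⟩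
  obtain ⟨u₃, rfl⟩ : ∃ u, e₃ = u * x := ⟨e₃ / x, (div_mul_cancel₀ _ hx0).symm⟩
  have small : ∀ u : ℝ, |u * x| ≤ C → |u| ≤ 1 / 1000 := by
    intro u hu
    rw [abs_mul] at hu
    exact le_of_mul_le_mul_right (by linarith) hxpos
  have s₁ := small _ h₁
  have s₂ := small _ h₂
  have s₃ := small _ h₃
  obtain ⟨a₁₂, b₁₂⟩ := prod_two_bounds s₁ s₂
  obtain ⟨a₂₃, b₂₃⟩ := prod_two_bounds s₂ s₃
  obtain ⟨a₃₁, b₃₁⟩ := prod_two_bounds s₃ s₁
  obtain ⟨l₁, r₁⟩ := abs_le.1 s₁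
  obtain ⟨l₂, r₂⟩ := abs_le.1 s₂
  obtain ⟨l₃, r₃⟩ := abs_le.1 s₃
  have a₁ : 1 - u₁ ≠ 0 := by linarith
  have a₂ : 1 - u₂ ≠ 0 := by linarith
  have a₃ : 1 - u₃ ≠ 0 := by linarith
  have key : dblX (u₁ * x) (u₂ * x) (u₃ * x) x =
      (((1 - u₁) * (1 - u₂) + (1 - u₂) * (1 - u₃) + (1 - u₃) * (1 - u₁)) ^ 2 /
        (4 * ((1 - u₁) * (1 - u₂) * (1 - u₃))) + (u₁ + u₂ + u₃) - 2) * x := by
    unfold dblX dcubic cubic
    field_simp
  set D := (1 - u₁) * (1 - u₂) + (1 - u₂) * (1 - u₃) + (1 - u₃) * (1 - u₁) with hD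
  set Q := (1 - u₁) * (1 - u₂) * (1 - u₃) with hQ
  have hQlo : (999 / 1000 : ℝ) ^ 2 * (999 / 1000) ≤ Q :=
    mul_le_mul a₁₂ (by linarith) (by norm_num) (le_trans (by norm_num) a₁₂)
  have hQhi : Q ≤ (1001 / 1000 : ℝ) ^ 2 * (1001 / 1000) :=
    mul_le_mul b₁₂ (by linarith) (by linarith) (by norm_num)
  have hD2lo : (2994 / 1000 : ℝ) ^ 2 ≤ D ^ 2 :=
    pow_le_pow_left₀ (by norm_num) (by norm_num at *; linarith) 2
  have hD2hi : D ^ 2 ≤ (30061 / 10000 : ℝ) ^ 2 :=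
    pow_le_pow_left₀ (by norm_num at *; linarith) (by norm_num at *; linarith) 2
  have hq₁ : (223 / 100 : ℝ) ≤ D ^ 2 / (4 * Q) := by
    rw [le_div_iff₀ (by norm_num at *; linarith)]; norm_num at *; linarith
  have hq₂ : D ^ 2 / (4 * Q) ≤ (227 / 100 : ℝ) := by
    rw [div_le_iff₀ (by norm_num at *; linarith)]; norm_num at *; linarith
  rw [key, abs_mul, abs_of_pos (show 0 < D ^ 2 / (4 * Q) + (u₁ + u₂ + u₃) - 2 by linarith)]
  constructor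
  · calc |x| / 5 = (1 / 5) * |x| := by ring
      _ ≤ _ := mul_le_mul_of_nonneg_right (by linarith) hxpos.le
  · calc _ ≤ (1 / 3) * |x| := mul_le_mul_of_nonneg_right (by linarith) hxpos.le
      _ = |x| / 3 := by ring

/-- A finite set of reals closed under doubling is bounded in terms of the roots. -/
lemma abs_lt_of_dblX_closed {C : ℝ} (hC : 0 < C) (h₁ : |e₁| ≤ C) (h₂ : |e₂| ≤ C)
    (h₃ : |e₃| ≤ C) (s : Finset ℝ) (hs : ∀ x ∈ s, dblX e₁ e₂ e₃ x ∈ s) {x : ℝ} (hx : x ∈ s) :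
    |x| < 1000 * C * 5 ^ s.card := by
  by_contra hge
  push Not at hge
  set f : ℕ → ℝ := fun i => (dblX e₁ e₂ e₃)^[i] x with hf
  have hsucc : ∀ i, f (i + 1) = dblX e₁ e₂ e₃ (f i) := fun i =>
    Function.iterate_succ_apply' _ i x
  have mem : ∀ i, f i ∈ s := by
    intro i
    induction i with
    | zero => exact hx
    | succ i ih => rw [hsucc]; exact hs _ ih
  have low : ∀ i ≤ s.card, 1000 * C * 5 ^ (s.card - i) ≤ |f i| := by
    intro i hi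
    induction i with
    | zero => simpa [hf] using hge
    | succ i ih =>
      have h := ih (by omega)
      have hp : (1 : ℝ) ≤ 5 ^ (s.card - i) := one_le_pow₀ (by norm_num)
      have hb := (abs_dblX_bounds hC h₁ h₂ h₃ (x := f i)
        (le_trans (le_mul_of_one_le_right (by linarith) hp) h)).1
      rw [← hsucc] at hb
      refine le_trans ?_ hb
      rw [show s.card - i = s.card - (i + 1) + 1 by omega, pow_succ] at h
      linarith
  have dec : ∀ i < s.card, |f (i + 1)| < |f i| := by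
    intro i hi
    have h := low i hi.le
    have hp : (1 : ℝ) ≤ 5 ^ (s.card - i) := one_le_pow₀ (by norm_num)
    have hk : 1000 * C ≤ |f i| := le_trans (le_mul_of_one_le_right (by linarith) hp) h
    have hb := (abs_dblX_bounds hC h₁ h₂ h₃ hk).2
    rw [← hsucc] at hb
    linarith
  have anti : ∀ i j, i < j → j ≤ s.card → |f j| < |f i| := by
    intro i j hij
    induction j, hij using Nat.le_induction with
    | base => exact fun h => dec i (by omega)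
    | succ j hj ih => exact fun h => lt_trans (dec j (by omega)) (ih (by omega))
  obtain ⟨i, hi, j, hj, hne, he⟩ := Finset.exists_ne_map_eq_of_card_lt_of_maps_to
    (s := Finset.range (s.card + 1)) (t := s) (f := f) (by simp) (fun i _ => mem i)
  rw [Finset.mem_range] at hi hj
  rcases lt_or_gt_of_ne hne with h | h
  · exact (anti _ _ h (by omega)).ne (by rw [he])
  · exact (anti _ _ h (by omega)).ne (by rw [he])

end Fermat.Agent.FreyHeight
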