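import Fermat.Agent.FreyHeight.FreyNode

/-!
# Frobenius-fixed torsion in the identity component

The Frey curve has no Frobenius-fixed `p`-torsion in the identity component at `2` and `3`, and
only kernel points at `p`.
-/

set_option autoImplicit false

namespace Fermat.Agent.FreyHeight

open WeierstrassCurve Fermat.Agent.ECReduction
open scoped WeierstrassCurve.Affine

local notation "Qb" => AlgebraicClosure ℚ
local notation "GQ" => AlgebraicClosure ℚ ≃ₐ[ℚ] AlgebraicClosure ℚ

variable (P : FreyPackage)

variable {P} in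
lemma gal_map (τ : GQ) (S : (freyQbar P).Point) : τ • S = Affine.Point.map τ.toAlgHom S := rfl

variable {P} in
lemma gal_zero (τ : GQ) : τ • (0 : (freyQbar P).Point) = 0 :=
  (gal_map τ 0).trans (map_zero _)

variable {P} in
lemma gal_add (τ : GQ) (S T : (freyQbar P).Point) : τ • (S + T) = τ • S + τ • T :=
  map_add (Affine.Point.map τ.toAlgHom) S T

variable {P} in
lemma gal_sub (τ : GQ) (S T : (freyQbar P).Point) : τ • (S - T) = τ • S - τ • T :=
  map_sub (Affine.Point.map τ.toAlgHom) S T

variable {P} in
lemma gal_nsmul (τ : GQ) (n : ℕ) (S : (freyQbar P).Point) : τ • (n • S) = n • (τ • S) :=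
  map_nsmul (Affine.Point.map τ.toAlgHom) n S

variable {P} in
lemma gal_zsmul (τ : GQ) (n : ℤ) (S : (freyQbar P).Point) : τ • (n • S) = n • (τ • S) :=
  map_zsmul (Affine.Point.map τ.toAlgHom) n S

open scoped Classical in
/-- The identity component at `A` of the Frey curve. -/
noncomputable def freyGood (A : ValuationSubring (AlgebraicClosure ℚ)) :
    AddSubgroup (freyQbar P).Point :=
  goodSubgroup (curveRed P.freyCurveInt A)

variable {P} {A : ValuationSubring (AlgebraicClosure ℚ)} {σ : GQ} {q : ℕ}

open scoped Classical in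
lemma mem_freyGood {S : (freyQbar P).Point} :
    S ∈ freyGood P A ↔ ∃ Q : (redCurve P.freyCurveInt A).Point,
      PointRed (IsLocalRing.residue A) S Q := Iff.rfl

open scoped Classical in
/-- The identity component is stable under the decomposition group. -/
lemma smul_mem_freyGood (N : FreyNode P A) (hσ : σ ∈ A.decompositionSubgroup ℚ)
    {S : (freyQbar P).Point} (hS : S ∈ freyGood P A) : σ • S ∈ freyGood P A := by
  rcases S with _ | ⟨x, y, h⟩
  · rw [← Affine.Point.zero_def, gal_zero]; exact zero_mem _
  rw [freyGood, mem_goodSubgroup,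
    N.lift.pointRed_iff (curveRed P.freyCurveInt A)] at hS
  rw [Affine.Point.algEquiv_smul_def, Affine.Point.map_some, freyGood, mem_goodSubgroup]
  refine (N.lift.pointRed_iff (curveRed P.freyCurveInt A) _).mpr ?_
  refine le_of_not_gt fun hlt => not_lt.mpr hS ?_
  have h1 : σ (x - N.r) ∈ A.nonunits := by
    rw [map_sub, (N.fixed σ).1, ValuationSubring.mem_nonunits_iff]; exact hlt
  exact (GaloisBasics.apply_mem_nonunits_iff hσ _).mp h1

/-- The affine residue-field points of the reduction with coordinates in the prime field. -/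
def FixedPoint (q : ℕ) (Q : (redCurve P.freyCurveInt A).Point) : Prop :=
  match Q with
  | .zero => True
  | .some a b _ => a ^ q = a ∧ b ^ q = b

open scoped Classical in
/-- The reduction of a Frobenius-fixed point has coordinates in the prime field. -/
lemma fixedPoint_of_smul_eq (hσ : A.IsFrobeniusAt σ q) {S : (freyQbar P).Point}
    (hfix : σ • S = S) {Q : (redCurve P.freyCurveInt A).Point}
    (hQ : PointRed (IsLocalRing.residue A) S Q) : FixedPoint q Q := by
  rcases S with _ | ⟨x, y, h⟩
  · cases hQ; trivial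
  rcases hQ with ⟨-, rfl⟩ | ⟨a, b, hn, hx, hy, rfl⟩
  · trivial
  rw [Affine.Point.algEquiv_smul_def, Affine.Point.map_some] at hfix
  obtain ⟨hfx, hfy⟩ := Affine.Point.some.inj hfix
  have e : ∀ {z : Qb} {c : IsLocalRing.ResidueField A}, σ z = z →
      Red (IsLocalRing.residue A) z c → c ^ q = c := fun hz hc => by
    rw [← hσ.smul_residue_eq]
    exact ((red_apply hσ.mem_decompositionSubgroup hc).congr_left hz).unique hc
  exact ⟨e hfx hx, e hfy hy⟩

open scoped Classical in
/-- Reduction commutes with multiples. -/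
lemma pointRed_freyNsmul {S : (freyQbar P).Point} {Q : (redCurve P.freyCurveInt A).Point}
    (hQ : PointRed (IsLocalRing.residue A) S Q) (n : ℕ) :
    PointRed (IsLocalRing.residue A) (n • S) (n • Q) := by
  induction n with
  | zero => rw [zero_nsmul, zero_nsmul]; exact pointRed_zero
  | succ n ih => rw [succ_nsmul, succ_nsmul]; exact ih.add (curveRed P.freyCurveInt A) hQ

/-- Coordinates of a nonzero point (junk value at `0`). -/
noncomputable def coords : (redCurve P.freyCurveInt A).Point →
    IsLocalRing.ResidueField A × IsLocalRing.ResidueField A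
  | .zero => 0
  | .some a b _ => (a, b)

lemma coords_injOn {Q Q' : (redCurve P.freyCurveInt A).Point} (hQ : Q ≠ 0) (hQ' : Q' ≠ 0)
    (h : coords Q = coords Q') : Q = Q' := by
  rcases Q with _ | ⟨a, b, hn⟩
  · exact absurd rfl hQ
  rcases Q' with _ | ⟨a', b', hn'⟩
  · exact absurd rfl hQ'
  obtain ⟨rfl, rfl⟩ := Prod.ext_iff.mp h
  rfl

open scoped Classical in
/-- At a small prime no nonzero Frobenius-fixed `p`-torsion point is in the identity component. -/
theorem not_mem_freyGood_of_small (hq : q.Prime) (hA : A.LiesOverPrime q)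
    (hsmall : q * q + 1 < P.p) (hσ : A.IsFrobeniusAt σ q) {S : (freyQbar P).Point} (hS : S ≠ 0)
    (hSp : P.p • S = 0) (hfix : σ • S = S) : S ∉ freyGood P A := by
  intro hgood
  have hp : ¬ q ∣ P.p := fun h => by
    have := (Nat.prime_dvd_prime_iff_eq hq P.pp).mp h
    have := hq.two_le
    nlinarith
  have hpk : (P.p : IsLocalRing.ResidueField A) ≠ 0 := natCast_residue_ne_zero hA hq hp
  obtain ⟨Q, hQ⟩ := mem_freyGood.mp hgood
  have hk := pointRed_freyNsmul hQ
  have hinj : ∀ i j : ℕ, i < P.p → j < P.p → i • Q = j • Q → i = j := by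
    intro i j hi hj h
    have hord : addOrderOf S = P.p :=
      haveI := Fact.mk P.pp
      addOrderOf_eq_prime hSp hS
    have e : i • S = j • S := (hk i).eq_of_nsmul_eq_zero (curveRed P.freyCurveInt A) hpk
      (h ▸ hk j) (by rw [smul_comm, hSp, smul_zero]) (by rw [smul_comm, hSp, smul_zero])
    exact nsmul_injOn_Iio_addOrderOf (by rwa [Set.mem_Iio, hord]) (by rwa [Set.mem_Iio, hord]) e
  set roots := (Polynomial.X ^ q - Polynomial.X :
    Polynomial (IsLocalRing.ResidueField A)).roots.toFinset with hroots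
  have hcard : roots.card ≤ q := by
    refine (Multiset.toFinset_card_le _).trans ((Polynomial.card_roots' _).trans ?_)
    exact (FiniteField.X_pow_card_sub_X_natDegree_eq _ hq.one_lt).le
  have hne : ∀ i ∈ Finset.Icc 1 (P.p - 1), i • Q ≠ 0 := by
    intro i hi h
    rw [Finset.mem_Icc] at hi
    have := hinj i 0 (by omega) P.hppos (by rw [h, zero_nsmul])
    omega
  have hmaps : ∀ i ∈ Finset.Icc 1 (P.p - 1), coords (i • Q) ∈ roots ×ˢ roots := by
    intro i hi
    have hf := fixedPoint_of_smul_eq hσ (by rw [gal_nsmul, hfix]) (hk i)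
    have h0 := hne i hi
    rcases hiQ : i • Q with _ | ⟨a, b, hn⟩
    · exact absurd hiQ h0
    rw [hiQ] at hf
    have mem : ∀ c : IsLocalRing.ResidueField A, c ^ q = c → c ∈ roots := fun c hc => by
      rw [hroots, Multiset.mem_toFinset, Polynomial.mem_roots
        (FiniteField.X_pow_card_sub_X_ne_zero _ hq.one_lt)]
      simp [hc]
    exact Finset.mem_product.mpr ⟨mem a hf.1, mem b hf.2⟩
  have := Finset.card_le_card_of_injOn (fun i : ℕ => coords (i • Q)) hmaps (by
    intro i hi j hj h
    have hi' := hi; have hj' := hj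
    rw [Finset.mem_coe, Finset.mem_Icc] at hi' hj'
    exact hinj i j (by omega) (by omega) (coords_injOn (hne i hi) (hne j hj) h))
  rw [Nat.card_Icc, Finset.card_product] at this
  have := Nat.mul_le_mul hcard hcard
  omega

open scoped Classical in
/-- Away from `2` the other rational point of order two has smooth, nonzero reduction. -/
lemma exists_red_twoTorsion (N : FreyNode P A) (h2 : A.valuation (2 : Qb) = 1) :
    ∃ (T : (freyQbar P).Point) (U : (redCurve P.freyCurveInt A).Point),
      (∀ τ : GQ, τ • T = T) ∧ PointRed (IsLocalRing.residue A) T U ∧ U + U = 0 ∧ U ≠ 0 := by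
  obtain ⟨ha1, ha3, -⟩ := freyQbar_coeffs P
  have hd := N.other_ne h2
  have hr'A : N.r' ∈ A := by
    have := A.add_mem _ _ ((A.valuation_le_one_iff _).mp hd.le) N.lift.r_mem
    simpa using this
  have hTns : (freyQbar P).Nonsingular N.r' (-N.r' / 2) := by
    refine (Affine.equation_iff_nonsingular_of_Δ_ne_zero ?_).mp N.other_eqn
    unfold freyQbar
    rw [WeierstrassCurve.Affine.baseChange, WeierstrassCurve.baseChange, WeierstrassCurve.map_Δ,
      WeierstrassCurve.map_Δ]
    simpa using FreyModel.freyCurveInt_Δ_ne_zero P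
  set T : (freyQbar P).Point := Affine.Point.some _ _ hTns with hT
  obtain ⟨U, hU⟩ : T ∈ freyGood P A :=
    (N.lift.pointRed_iff (curveRed P.freyCurveInt A) hTns).mpr hd.ge
  have hneg : -T = T := by
    rw [hT, Affine.Point.neg_some]
    congr 1
    rw [Affine.negY, ha1, ha3]; ring
  refine ⟨T, U, fun τ => ?_, hU, ?_, fun h => ?_⟩
  · rw [hT, Affine.Point.algEquiv_smul_def, Affine.Point.map_some]
    congr 1
    · exact (N.fixed τ).2
    · simp [(N.fixed τ).2, map_ofNat]
  · have := hU.add (curveRed P.freyCurveInt A) hU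
    rw [add_eq_zero_iff_eq_neg.mpr hneg.symm] at this
    exact this.unique pointRed_zero
  · rw [h, pointRed_zero_iff] at hU
    exact hU hr'A

/-- Independence of an element of odd prime order and one of order two. -/
lemma nsmul_add_nsmul_inj {G : Type*} [AddCommGroup G] {p : ℕ} (hp : p.Prime) (hp2 : p ≠ 2)
    {Q U : G} (hQ : addOrderOf Q = p) (hU2 : U + U = 0) (hU0 : U ≠ 0) {i j i' j' : ℕ}
    (hi : i < p) (hi' : i' < p) (hj : j < 2) (hj' : j' < 2)
    (h : i • Q + j • U = i' • Q + j' • U) : (i, j) = (i', j') := by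
  have h' := congrArg (fun X => 2 • X) h
  simp only [nsmul_add, smul_comm 2 _ U, two_nsmul U, hU2, smul_zero, add_zero,
    ← mul_nsmul'] at h'
  have hii : i = i' := by
    have := (nsmul_eq_nsmul_iff_modEq.mp h')
    rw [hQ] at this
    have hc : Nat.Coprime p 2 := (Nat.coprime_primes hp Nat.prime_two).mpr hp2
    exact Nat.ModEq.eq_of_lt_of_lt (Nat.ModEq.cancel_left_of_coprime hc this) hi hi'
  subst hii
  have h'' : j • U = j' • U := by simpa using h
  interval_cases j <;> interval_cases j' <;> simp_all

/-- At most two points of a Weierstrass curve over a field have a given abscissa. -/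
lemma card_le_two_mul_of_fst_mem {F : Type*} [Field F] [DecidableEq F] (W : Affine F)
    (s : Finset (F × F)) (t : Finset F) (h : ∀ z ∈ s, z.1 ∈ t ∧ W.Equation z.1 z.2) :
    s.card ≤ 2 * t.card := by
  refine Finset.card_le_mul_card_image_of_maps_to (f := Prod.fst)
    (fun z hz => (h z hz).1) 2 fun c _ => ?_
  set pol : Polynomial F :=
    Polynomial.C 1 * Polynomial.X ^ 2 +
      Polynomial.C (W.a₁ * c + W.a₃) * Polynomial.X +
      Polynomial.C (-(c ^ 3 + W.a₂ * c ^ 2 + W.a₄ * c + W.a₆)) with hpol
  have hdeg : pol.degree = 2 := Polynomial.degree_quadratic one_ne_zero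
  calc _ ≤ pol.roots.toFinset.card := by
        refine Finset.card_le_card_of_injOn Prod.snd (fun z hz => ?_) ?_
        · rw [Finset.mem_coe, Finset.mem_filter] at hz
          rw [Finset.mem_coe, Multiset.mem_toFinset, Polynomial.mem_roots
            (fun h => by simp [h] at hdeg)]
          have he := (Affine.equation_iff _ _).mp (h z hz.1).2
          simp only [hpol, Polynomial.IsRoot.def, Polynomial.eval_add, Polynomial.eval_mul,
            Polynomial.eval_C, Polynomial.eval_pow, Polynomial.eval_X]
          rw [← hz.2]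
          linear_combination he
        · intro z hz z' hz' h
          rw [Finset.mem_coe, Finset.mem_filter] at hz hz'
          exact Prod.ext (hz.2.trans hz'.2.symm) h
    _ ≤ 2 := by
        refine (Multiset.toFinset_card_le _).trans ((Polynomial.card_roots' _).trans ?_)
        rw [Polynomial.natDegree_eq_of_degree_eq_some hdeg]

/-- A smooth point with coordinates in the prime field has abscissa a root of `X^q - X` other than
that of the node. -/
lemma fst_coords_of_fixedPoint (N : FreyNode P A)
    {r₀ : IsLocalRing.ResidueField A} (hr₀ : Red (IsLocalRing.residue A) N.r r₀)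
    {Q : (redCurve P.freyCurveInt A).Point} (hQ : Q ≠ 0) (hf : FixedPoint q Q) :
    (coords Q).1 ≠ r₀ ∧ Polynomial.IsRoot (Polynomial.X ^ q - Polynomial.X) (coords Q).1 ∧
      (redCurve P.freyCurveInt A).Equation (coords Q).1 (coords Q).2 := by
  rcases Q with _ | ⟨a, b, hn⟩
  · exact absurd rfl hQ
  refine ⟨?_, by simp [coords, hf.1], hn.1⟩
  show a ≠ r₀
  have hEF := curveRed P.freyCurveInt A
  obtain ⟨s₀, hs₀⟩ := Red.exists_of_mem (IsLocalRing.residue A) N.lift.s_mem
  have hY : 2 * s₀ + (redCurve P.freyCurveInt A).a₁ * r₀ + (redCurve P.freyCurveInt A).a₃ = 0 :=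
    ((((Red.ofNat _ 2).mul hs₀).add (hEF.a₁.mul hr₀)).add hEF.a₃).unique
      ((Red.zero _).congr_left N.lift.two.symm)
  have hX : (redCurve P.freyCurveInt A).a₁ * s₀ - (3 * r₀ ^ 2 +
      2 * (redCurve P.freyCurveInt A).a₂ * r₀ + (redCurve P.freyCurveInt A).a₄) = 0 :=
    ((hEF.a₁.mul hs₀).sub ((((Red.ofNat _ 3).mul (hr₀.pow 2)).add
      (((Red.ofNat _ 2).mul hEF.a₂).mul hr₀)).add hEF.a₄)).valuation_lt_one_iff.mp N.lift.small
  exact (nonsingular_iff_ne_of_node _ (hEF.equation N.lift.eqn hr₀ hs₀) hY hX hn.1).mp hn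

open scoped Classical in
/-- At `p` a Frobenius-fixed `p`-torsion point of the identity component is in the kernel: otherwise
it and a point of order two would give `2p - 1` smooth points over `𝔽_p` on the nodal cubic, which
has at most `2p - 2` affine ones. -/
theorem inKer_of_fixed_at_p (hA : A.LiesOverPrime P.p) (N : FreyNode P A)
    (hσ : A.IsFrobeniusAt σ P.p) {S : (freyQbar P).Point} (hSp : P.p • S = 0)
    (hfix : σ • S = S) (hgood : S ∈ freyGood P A) : InKer A S := by
  have := Fact.mk P.pp
  obtain ⟨Q, hQ⟩ := mem_freyGood.mp hgood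
  rcases eq_or_ne Q 0 with rfl | hQ0
  · exact pointRed_zero_iff.mp hQ
  exfalso
  have hk := pointRed_freyNsmul hQ
  have hQp : P.p • Q = 0 := by
    have := hk P.p
    rw [hSp] at this
    exact this.unique pointRed_zero
  have hQord : addOrderOf Q = P.p := addOrderOf_eq_prime hQp hQ0
  have hp2 : P.p ≠ 2 := by have := P.hp5; omega
  have h2 : A.valuation (2 : Qb) = 1 := by
    simpa using FreyUnramified.valuation_intCast_eq_one hA P.pp (n := 2) fun hd => hp2
      ((Nat.prime_dvd_prime_iff_eq P.pp Nat.prime_two).mp (Int.natCast_dvd_natCast.mp hd))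
  obtain ⟨T, U, hσT, hU, hU2, hU0⟩ := exists_red_twoTorsion N h2
  -- `2p - 1` fixed affine points on the reduced curve
  let g : ℕ × ℕ → (redCurve P.freyCurveInt A).Point := fun ij => ij.1 • Q + ij.2 • U
  have hgfix : ∀ i j : ℕ, FixedPoint P.p (g (i, j)) := fun i j =>
    fixedPoint_of_smul_eq hσ (S := i • S + j • T)
      (by rw [gal_add, gal_nsmul, hfix, gal_nsmul, hσT])
      ((hk i).add (curveRed P.freyCurveInt A) (pointRed_freyNsmul hU j))
  set dom := ((Finset.range P.p) ×ˢ (Finset.range 2)).erase (0, 0) with hdom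
  have hdommem : ∀ ij ∈ dom, ij.1 < P.p ∧ ij.2 < 2 := fun ij hij => by
    rw [hdom, Finset.mem_erase, Finset.mem_product, Finset.mem_range, Finset.mem_range] at hij
    exact hij.2
  have hdomne : ∀ ij ∈ dom, g ij ≠ 0 := fun ij hij h => (Finset.mem_erase.mp hij).1
    (nsmul_add_nsmul_inj P.pp hp2 hQord hU2 hU0 (i' := 0) (j' := 0) (hdommem ij hij).1 P.hppos
      (hdommem ij hij).2 Nat.two_pos (by simpa [g] using h))
  obtain ⟨r₀, hr₀⟩ := Red.exists_of_mem (IsLocalRing.residue A) N.lift.r_mem
  set roots := ((Polynomial.X ^ P.p - Polynomial.X :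
    Polynomial (IsLocalRing.ResidueField A)).roots.toFinset).erase r₀ with hroots
  have hr₀p : r₀ ^ P.p = r₀ := by
    rw [← hσ.smul_residue_eq]
    exact ((red_apply hσ.mem_decompositionSubgroup hr₀).congr_left (N.fixed σ).1).unique hr₀
  have hcard : roots.card ≤ P.p - 1 := by
    rw [hroots, Finset.card_erase_of_mem]
    · refine Nat.sub_le_sub_right ((Multiset.toFinset_card_le _).trans
        ((Polynomial.card_roots' _).trans ?_)) 1
      exact (FiniteField.X_pow_card_sub_X_natDegree_eq _ P.pp.one_lt).le
    · rw [Multiset.mem_toFinset, Polynomial.mem_roots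
        (FiniteField.X_pow_card_sub_X_ne_zero _ P.pp.one_lt)]
      simp [hr₀p]
  set img := dom.image (fun ij => coords (g ij)) with himg
  have himgcard : img.card = dom.card := Finset.card_image_of_injOn fun a ha b hb h =>
    nsmul_add_nsmul_inj P.pp hp2 hQord hU2 hU0 (hdommem a ha).1 (hdommem b hb).1 (hdommem a ha).2
      (hdommem b hb).2 (coords_injOn (hdomne a ha) (hdomne b hb) h)
  have hfib : img.card ≤ 2 * roots.card := by
    refine card_le_two_mul_of_fst_mem (redCurve P.freyCurveInt A) img roots fun z hz => ?_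
    rw [himg, Finset.mem_image] at hz
    obtain ⟨⟨i, j⟩, hij, rfl⟩ := hz
    obtain ⟨h1, h2, h3⟩ :=
      fst_coords_of_fixedPoint N hr₀ (hdomne _ hij) (hgfix i j)
    refine ⟨?_, h3⟩
    rw [hroots, Finset.mem_erase, Multiset.mem_toFinset, Polynomial.mem_roots
      (FiniteField.X_pow_card_sub_X_ne_zero _ P.pp.one_lt)]
    exact ⟨h1, h2⟩
  have hdomcard : dom.card = 2 * P.p - 1 := by
    rw [hdom, Finset.card_erase_of_mem (by simp [P.hppos]), Finset.card_product, Finset.card_range,
      Finset.card_range]
    ring_nf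
  have := P.hppos
  omega

end Fermat.Agent.FreyHeight
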