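import Fermat.Agent.FreyHeight.Cofixed
import Fermat.Agent.FreyHeight.Bound
import Fermat.Agent.Isogeny.Descent

/-!
# Valuations on a line in the identity component

The valuation of `2y + x` at the points of a line lying in the identity component.
-/

set_option autoImplicit false

namespace Fermat.Agent.FreyHeight

open WeierstrassCurve Fermat.Agent.ECReduction Fermat.Agent.Isogeny
open scoped WeierstrassCurve.Affine

local notation "Qb" => AlgebraicClosure ℚ

variable {P : FreyPackage} {A : ValuationSubring (AlgebraicClosure ℚ)}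

open scoped Classical in
/-- A nonzero `p`-torsion point of the identity component has `2y + x` a unit or non-integral. -/
theorem one_le_val_gc {q : ℕ} (hq : q.Prime) (hA : A.LiesOverPrime q)
    {S : (freyQbar P).Point} (hS : S ≠ 0) (hSp : P.p • S = 0) (hgood : S ∈ freyGood P A) :
    1 ≤ A.valuation (gc S) := by
  have hEF := curveRed P.freyCurveInt A
  have hIC := hEF.integralCoeffs
  obtain ⟨ha1, ha3, -⟩ := freyQbar_coeffs P
  obtain ⟨Q, hQ⟩ := mem_freyGood.mp hgood
  have hpodd : P.p ≠ 2 := by have := P.hp5; omega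
  rcases S with _ | ⟨x, y, h⟩
  · exact absurd rfl hS
  rw [gc_some, ha1, ha3, one_mul, add_zero]
  by_cases hx : x ∈ A
  · refine le_of_not_gt fun hlt => hS ?_
    rcases hQ with ⟨hx0, -⟩ | ⟨a, b, hn, hax, hby, rfl⟩
    · exact absurd hx hx0
    have hg : 2 * b + (redCurve P.freyCurveInt A).a₁ * a + (redCurve P.freyCurveInt A).a₃ = 0 := by
      refine (((((Red.ofNat _ 2).mul hby).add
          (hEF.a₁.mul hax)).add hEF.a₃)).valuation_lt_one_iff.mp ?_
      rw [ha1, ha3, one_mul, add_zero]; exact hlt
    have h2 : (2 : ℕ) • Affine.Point.some a b hn = 0 := by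
      rw [two_nsmul]
      exact Affine.Point.add_of_Y_eq rfl (by rw [Affine.negY]; linear_combination hg)
    have hk : ∀ n : ℕ, PointRed (IsLocalRing.residue A) (n • Affine.Point.some x y h)
        (n • Affine.Point.some a b hn) := by
      intro n
      induction n with
      | zero => rw [zero_nsmul, zero_nsmul]; exact pointRed_zero
      | succ n ih => rw [succ_nsmul, succ_nsmul]; exact ih.add hEF (pointRed_some h hn hax hby)
    have hp0 := hk P.p
    rw [hSp] at hp0
    have hp' : P.p • Affine.Point.some a b hn = 0 := hp0.unique pointRed_zero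
    obtain ⟨k, hk'⟩ := P.pp.odd_of_ne_two hpodd
    rw [hk', succ_nsmul, mul_nsmul, h2, nsmul_zero, zero_add] at hp'
    exact absurd hp' (Affine.Point.some_ne_zero hn)
  · obtain ⟨-, hxy⟩ := hIC.val_Y h.1 hx
    have hx1 := one_lt_valuation hx
    by_cases hq2 : q = 2
    · subst hq2
      refine absurd (hIC.eq_zero_of_nsmul_eq_zero (P := Affine.Point.some x y h) hx ?_ hSp) hS
      simpa using FreyUnramified.valuation_intCast_eq_one hA hq (n := (P.p : ℤ)) fun hd =>
        hpodd ((Nat.prime_dvd_prime_iff_eq hq P.pp).mp (Int.natCast_dvd_natCast.mp hd)).symm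
    · have h2 : A.valuation (2 : Qb) = 1 := by
        simpa using FreyUnramified.valuation_intCast_eq_one hA hq (n := 2) fun hd => hq2
          ((Nat.prime_dvd_prime_iff_eq hq Nat.prime_two).mp (Int.natCast_dvd_natCast.mp hd))
      rw [Valuation.map_add_eq_of_lt_left _ (by rw [map_mul, h2, one_mul]; exact hxy), map_mul, h2,
        one_mul]
      exact (hx1.trans hxy).le

/-- A rational number which at every prime has a place where it is at least a unit, and at least
`2 ^ k` at `2`, is at most `2 ^ k` in absolute value. -/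
lemma abs_le_two_pow_of_places {r : ℚ} {k : ℕ} (hr : r ≠ 0)
    (h : ∀ q : ℕ, q.Prime → ∃ A : ValuationSubring Qb, A.LiesOverPrime q ∧
      A.valuation ((2 : Qb) ^ k) ≤ A.valuation (algebraMap ℚ Qb r)) : |r| ≤ 2 ^ k := by
  have key : ∀ q : ℕ, q.Prime → ∀ e : ℕ, (q ≠ 2 ∧ e = 0 ∨ q = 2 ∧ e = k) →
      padicValRat q r ≤ e := by
    intro q hq e hcase
    have := Fact.mk hq
    by_contra hcon
    push Not at hcon
    obtain ⟨A, hA, hv⟩ := h q hq
    have hn : r.num.natAbs ≠ 0 := by simpa using hr
    have hval : padicValRat q r = padicValNat q r.num.natAbs - padicValNat q r.den := rfl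
    have hnum : e + 1 ≤ padicValNat q r.num.natAbs := by omega
    have hd : q ^ (e + 1) ∣ r.num.natAbs :=
      (padicValNat_dvd_iff_le hn).mpr hnum
    have hden : ¬ (q : ℤ) ∣ (r.den : ℤ) := fun hh => hq.ne_one
      (Nat.eq_one_of_dvd_coprimes r.reduced (dvd_trans (dvd_pow_self q (by omega)) hd)
        (Int.natCast_dvd_natCast.mp hh))
    have hden1 : A.valuation (r.den : Qb) = 1 := by
      simpa using FreyUnramified.valuation_intCast_eq_one hA hq hden
    obtain ⟨m, hm⟩ : ((q ^ (e + 1) : ℕ) : ℤ) ∣ r.num := Int.natCast_dvd.mpr hd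
    have hq0 : 0 < A.valuation (q : Qb) :=
      (Valuation.pos_iff _).mpr (Nat.cast_ne_zero.mpr hq.ne_zero)
    have hq1 : A.valuation (q : Qb) < 1 := hA
    have hle : A.valuation (algebraMap ℚ Qb r) ≤ A.valuation (q : Qb) ^ (e + 1) := by
      rw [eq_ratCast, Rat.cast_def, map_div₀, hden1, div_one, hm]
      push_cast
      rw [map_mul, map_pow]
      exact mul_le_of_le_one_right' ((A.valuation_le_one_iff _).mpr (intCast_mem A m))
    have hlt : A.valuation (q : Qb) ^ (e + 1) < A.valuation ((2 : Qb) ^ k) := by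
      rw [map_pow]
      rcases hcase with ⟨hne, rfl⟩ | ⟨rfl, rfl⟩
      · have h2 : A.valuation (2 : Qb) = 1 := by
          simpa using FreyUnramified.valuation_intCast_eq_one hA hq (n := 2) fun hd => hne
            ((Nat.prime_dvd_prime_iff_eq hq Nat.prime_two).mp (Int.natCast_dvd_natCast.mp hd))
        rw [h2, one_pow, zero_add, pow_one]; exact hq1
      · rw [Nat.cast_ofNat] at hq0 hq1 ⊢
        rw [pow_succ]; exact mul_lt_of_lt_one_right (pow_pos hq0 _) hq1
    exact absurd (hle.trans_lt hlt) (not_lt.mpr hv)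
  exact abs_le_two_pow_of_padicValRat (key 2 Nat.prime_two k (Or.inr ⟨rfl, rfl⟩))
    fun q hq hne => by simpa using key q hq 0 (Or.inl ⟨hne, rfl⟩)

end Fermat.Agent.FreyHeight
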